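import Mathlib

/-!
# S55lib / Recip / CupDelta

For a group `G`, a representation `A : Rep k G`, a positive integer `n`, an additive character
`χ : G → ZMod n` and an invariant element `a : A`, the explicit `2`-cocycle
`(g, h) ↦ ((χ g).val + (χ h).val) / n • a` represents the class `a ∪ δχ`, where
`δ : H¹(G, ℚ/ℤ) → H²(G, ℤ)` is the connecting map.  For a finite cyclic group and a bijective
`χ` these classes exhaust `H²(G, A)` and `a ∪ δχ = 0` iff `a` is a norm.
-/

set_option autoImplicit false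
set_option linter.unusedSectionVars false

namespace Fermat.Agent.S55lib.Recip

open groupCohomology

universe u

section Carry

variable {n : ℕ} [NeZero n]

/-- The carry of the addition of two residues mod `n`. -/
def carry (x y : ZMod n) : ℕ := (x.val + y.val) / n

lemma carry_le_one (x y : ZMod n) : carry x y ≤ 1 := by
  unfold carry
  have hx := ZMod.val_lt x
  have hy := ZMod.val_lt y
  have hn : 0 < n := Nat.pos_of_ne_zero (NeZero.ne n)
  rw [Nat.div_le_iff_le_mul_add_pred hn]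
  omega

lemma carry_spec (x y : ZMod n) : x.val + y.val = n * carry x y + (x + y).val := by
  unfold carry
  rw [ZMod.val_add]
  exact (Nat.div_add_mod _ _).symm

lemma carry_comm (x y : ZMod n) : carry x y = carry y x := by
  unfold carry; rw [add_comm]

@[simp] lemma carry_zero_left (y : ZMod n) : carry 0 y = 0 := by
  unfold carry
  simp [Nat.div_eq_of_lt (ZMod.val_lt y)]

@[simp] lemma carry_zero_right (x : ZMod n) : carry x 0 = 0 := by
  rw [carry_comm, carry_zero_left]

/-- The `2`-cocycle identity for the carry. -/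
lemma carry_assoc (x y z : ZMod n) :
    carry (x + y) z + carry x y = carry y z + carry x (y + z) := by
  have hn : 0 < n := Nat.pos_of_ne_zero (NeZero.ne n)
  have h1 := carry_spec x y
  have h2 := carry_spec (x + y) z
  have h3 := carry_spec y z
  have h4 := carry_spec x (y + z)
  rw [add_assoc] at h2
  have : n * (carry (x + y) z + carry x y) = n * (carry y z + carry x (y + z)) := by
    rw [Nat.mul_add, Nat.mul_add]; omega
  exact Nat.eq_of_mul_eq_mul_left hn this

end Carry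

section General

variable {k G : Type u} [CommRing k] [Group G] (A : Rep k G) {n : ℕ} [NeZero n]

/-- The function underlying the cocycle `a ∪ δχ`. -/
def cupδFun (χ : G → ZMod n) (a : A) : G × G → A :=
  fun gh => carry (χ gh.1) (χ gh.2) • a

variable {A}

lemma cupδFun_mem_cocycles₂ {χ : G → ZMod n} (hχ : ∀ g h, χ (g * h) = χ g + χ h) {a : A}
    (ha : ∀ g : G, A.ρ g a = a) : cupδFun A χ a ∈ cocycles₂ A := by
  rw [mem_cocycles₂_iff]
  intro g h j
  simp only [cupδFun, hχ, map_nsmul, ha, ← add_smul]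
  rw [carry_assoc]

/-- The cocycle `a ∪ δχ`. -/
def cupδCocycle (χ : G → ZMod n) (hχ : ∀ g h, χ (g * h) = χ g + χ h) (a : A)
    (ha : ∀ g : G, A.ρ g a = a) : cocycles₂ A :=
  ⟨cupδFun A χ a, cupδFun_mem_cocycles₂ hχ ha⟩

@[simp] lemma cupδCocycle_apply (χ : G → ZMod n) (hχ : ∀ g h, χ (g * h) = χ g + χ h) (a : A)
    (ha : ∀ g : G, A.ρ g a = a) (g h : G) :
    cupδCocycle χ hχ a ha (g, h) = carry (χ g) (χ h) • a := rfl

/-- The class `a ∪ δχ ∈ H²(G, A)`. -/
noncomputable def cupδ (χ : G → ZMod n) (hχ : ∀ g h, χ (g * h) = χ g + χ h) (a : A)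
    (ha : ∀ g : G, A.ρ g a = a) : H2 A :=
  H2π A (cupδCocycle χ hχ a ha)

end General

section Cyclic

variable {k G : Type u} [CommRing k] [Group G] {A : Rep k G} {n : ℕ} [NeZero n]
  {χ : G → ZMod n}

lemma χ_one (hχ : ∀ g h, χ (g * h) = χ g + χ h) : χ 1 = 0 := by
  have := hχ 1 1
  simpa using this

lemma χ_pow (hχ : ∀ g h, χ (g * h) = χ g + χ h) {σ : G} (hσ : χ σ = 1) (m : ℕ) :
    χ (σ ^ m) = (m : ZMod n) := by
  induction m with
  | zero => simpa using χ_one hχ
  | succ m ih => rw [pow_succ, hχ, ih, hσ]; push_cast; ring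

lemma pow_val_χ (hχ : ∀ g h, χ (g * h) = χ g + χ h) (hinj : Function.Injective χ)
    {σ : G} (hσ : χ σ = 1) (g : G) : σ ^ (χ g).val = g := by
  apply hinj
  rw [χ_pow hχ hσ, ZMod.natCast_zmod_val]

lemma pow_n_eq_one (hχ : ∀ g h, χ (g * h) = χ g + χ h) (hinj : Function.Injective χ)
    {σ : G} (hσ : χ σ = 1) : σ ^ n = 1 := by
  apply hinj
  rw [χ_pow hχ hσ, χ_one hχ, ZMod.natCast_self]

lemma sum_univ_eq_sum_range [Fintype G] (hχ : ∀ g h, χ (g * h) = χ g + χ h)
    (hinj : Function.Injective χ) {σ : G} (hσ : χ σ = 1) {M : Type*} [AddCommMonoid M]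
    (F : G → M) : ∑ g : G, F g = ∑ i ∈ Finset.range n, F (σ ^ i) := by
  symm
  refine Finset.sum_nbij' (fun i => σ ^ i) (fun g => (χ g).val) ?_ ?_ ?_ ?_ ?_
  · intro i _; exact Finset.mem_univ _
  · intro g _; exact Finset.mem_range.2 (ZMod.val_lt _)
  · intro i hi
    rw [χ_pow hχ hσ, ZMod.val_natCast_of_lt (Finset.mem_range.1 hi)]
  · intro g _; exact pow_val_χ hχ hinj hσ g
  · intro i _; rfl

lemma sum_range_mul_pow [Fintype G] (hχ : ∀ g h, χ (g * h) = χ g + χ h)
    (hinj : Function.Injective χ) {σ : G} (hσ : χ σ = 1) {M : Type*} [AddCommMonoid M]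
    (F : G → M) (g : G) : ∑ i ∈ Finset.range n, F (g * σ ^ i) = ∑ h : G, F h := by
  rw [← sum_univ_eq_sum_range hχ hinj hσ (fun h => F (g * h))]
  exact Fintype.sum_bijective (fun h => g * h) (Group.mulLeft_bijective g) _ _ (fun _ => rfl)

/-- Partial sums of `i ↦ f (σ ^ i, σ)`. -/
def psum (f : G × G → A) (σ : G) (m : ℕ) : A := ∑ i ∈ Finset.range m, f (σ ^ i, σ)

lemma psum_succ (f : G × G → A) (σ : G) (m : ℕ) :
    psum f σ (m + 1) = psum f σ m + f (σ ^ m, σ) := Finset.sum_range_succ _ _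

lemma psum_add (f : G × G → A) (σ : G) (m j : ℕ) :
    psum f σ (m + j) = psum f σ m + ∑ i ∈ Finset.range j, f (σ ^ m * σ ^ i, σ) := by
  unfold psum
  rw [Finset.sum_range_add]
  simp only [pow_add]

/-- Summed cocycle identity. -/
lemma psum_key (f : cocycles₂ A) (σ g : G) (j : ℕ) :
    A.ρ g (psum f σ j) + f (g, σ ^ j) = ∑ i ∈ Finset.range j, f (g * σ ^ i, σ) + f (g, 1) := by
  induction j with
  | zero => simp [psum]
  | succ j ih =>
    have hc := (mem_cocycles₂_iff (f : G × G → A)).1 f.2 g (σ ^ j) σ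
    rw [psum_succ, map_add, Finset.sum_range_succ, pow_succ]
    -- hc : f (g * σ^j, σ) + f (g, σ^j) = ρ g (f (σ^j, σ)) + f (g, σ^j * σ)
    have e1 : A.ρ g (psum (⇑f) σ j) + A.ρ g (f (σ ^ j, σ)) + f (g, σ ^ j * σ)
        = (A.ρ g (psum (⇑f) σ j) + f (g, σ ^ j)) + f (g * σ ^ j, σ) := by
      have : A.ρ g (f (σ ^ j, σ)) + f (g, σ ^ j * σ) = f (g * σ ^ j, σ) + f (g, σ ^ j) := hc.symm
      calc A.ρ g (psum (⇑f) σ j) + A.ρ g (f (σ ^ j, σ)) + f (g, σ ^ j * σ)
          = A.ρ g (psum (⇑f) σ j) + (A.ρ g (f (σ ^ j, σ)) + f (g, σ ^ j * σ)) := by abel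
        _ = A.ρ g (psum (⇑f) σ j) + (f (g * σ ^ j, σ) + f (g, σ ^ j)) := by rw [this]
        _ = _ := by abel
    rw [e1, ih]; abel

variable [Fintype G] (hχ : ∀ g h, χ (g * h) = χ g + χ h) (hinj : Function.Injective χ)
  {σ : G} (hσ : χ σ = 1)

include hχ hinj hσ

lemma psum_n (f : G × G → A) : psum f σ n = ∑ h : G, f (h, σ) := by
  unfold psum
  exact (sum_univ_eq_sum_range hχ hinj hσ (fun h => f (h, σ))).symm

lemma psum_n_invariant (f : cocycles₂ A) (g : G) :
    A.ρ g (psum f σ n) = psum f σ n := by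
  have h := psum_key f σ g n
  rw [pow_n_eq_one hχ hinj hσ, sum_range_mul_pow hχ hinj hσ (fun h => f (h, σ)) g] at h
  rw [psum_n hχ hinj hσ]
  rw [psum_n hχ hinj hσ] at h
  exact add_right_cancel h

lemma psum_add_n (f : G × G → A) (m : ℕ) :
    psum f σ (m + n) = psum f σ m + psum f σ n := by
  rw [psum_add, sum_range_mul_pow hχ hinj hσ (fun h => f (h, σ)) (σ ^ m), psum_n hχ hinj hσ]

lemma psum_mul_add (f : G × G → A) (q r : ℕ) :
    psum f σ (q * n + r) = q • psum f σ n + psum f σ r := by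
  induction q with
  | zero => simp
  | succ q ih =>
    have : (q + 1) * n + r = (q * n + r) + n := by ring
    rw [this, psum_add_n hχ hinj hσ, ih, add_smul, one_smul]; abel

lemma psum_val_add (f : G × G → A) (x y : ZMod n) :
    psum f σ (x.val + y.val) = carry x y • psum f σ n + psum f σ (x + y).val := by
  rw [carry_spec, mul_comm, psum_mul_add hχ hinj hσ]

/-- Every `2`-cocycle is cohomologous to a `cupδ` cocycle. -/
lemma sub_cupδFun_mem_coboundaries₂ (f : cocycles₂ A) :
    (f : G × G → A) - cupδFun A χ (psum f σ n) ∈ coboundaries₂ A := by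
  refine ⟨fun g => f (1, 1) - psum f σ (χ g).val, ?_⟩
  funext ⟨g, h⟩
  have hk := psum_key f σ g (χ h).val
  rw [pow_val_χ hχ hinj hσ h] at hk
  have hg : ∑ i ∈ Finset.range (χ h).val, f (g * σ ^ i, σ) =
      psum f σ ((χ g).val + (χ h).val) - psum f σ (χ g).val := by
    rw [psum_add, pow_val_χ hχ hinj hσ g]; abel
  rw [hg, psum_val_add hχ hinj hσ, ← hχ, cocycles₂_map_one_snd] at hk
  simp only [d₁₂_hom_apply, Pi.sub_apply, cupδFun, map_sub]
  -- hk : ρ g (psum (χ h).val) + f (g,h) = carry • a + psum (χ (g*h)).val - psum (χ g).val + ρ g (f (1,1))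
  have : f (g, h) = carry (χ g) (χ h) • psum (⇑f) σ n + psum (⇑f) σ (χ (g * h)).val
      - psum (⇑f) σ (χ g).val + (A.ρ g) (f (1, 1)) - A.ρ g (psum (⇑f) σ (χ h).val) := by
    rw [← hk]; abel
  rw [this]; abel

end Cyclic

section Cyclic2

variable {k G : Type u} [CommRing k] [Group G] {A : Rep k G} {n : ℕ} [NeZero n]
  {χ : G → ZMod n}

variable [Fintype G] (hχ : ∀ g h, χ (g * h) = χ g + χ h) (hinj : Function.Injective χ)
  {σ : G} (hσ : χ σ = 1)

/-- Partial sums of `i ↦ ρ (σ ^ i) b`. -/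
def nsum (A : Rep k G) (σ : G) (b : A) (m : ℕ) : A := ∑ i ∈ Finset.range m, A.ρ (σ ^ i) b

lemma nsum_add (σ : G) (b : A) (m j : ℕ) :
    nsum A σ b (m + j) = nsum A σ b m + A.ρ (σ ^ m) (nsum A σ b j) := by
  unfold nsum
  rw [Finset.sum_range_add, map_sum]
  congr 1
  refine Finset.sum_congr rfl (fun i _ => ?_)
  rw [pow_add, map_mul]; rfl

include hχ hinj hσ

lemma nsum_n (b : A) : nsum A σ b n = A.ρ.norm b := by
  unfold nsum
  rw [← sum_univ_eq_sum_range hχ hinj hσ (fun g => A.ρ g b)]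
  simp [Representation.norm]

lemma nsum_mul_add (b : A) (q r : ℕ) :
    nsum A σ b (q * n + r) = q • A.ρ.norm b + nsum A σ b r := by
  induction q with
  | zero => simp [nsum]
  | succ q ih =>
    have : (q + 1) * n + r = (q * n + r) + n := by ring
    rw [this, nsum_add, ih, nsum_n hχ hinj hσ, Representation.self_norm_apply, add_smul, one_smul]
    abel

lemma nsum_val_add (b : A) (x y : ZMod n) :
    nsum A σ b (x.val + y.val) = carry x y • A.ρ.norm b + nsum A σ b (x + y).val := by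
  rw [carry_spec, mul_comm, nsum_mul_add hχ hinj hσ]

/-- `N b ∪ δχ` is a coboundary. -/
lemma cupδFun_norm_mem_coboundaries₂ (b : A) :
    cupδFun A χ (A.ρ.norm b) ∈ coboundaries₂ A := by
  refine ⟨fun g => nsum A σ b (χ g).val, ?_⟩
  funext ⟨g, h⟩
  simp only [d₁₂_hom_apply, cupδFun]
  have h1 := nsum_add (A := A) σ b (χ g).val (χ h).val
  rw [pow_val_χ hχ hinj hσ g, nsum_val_add hχ hinj hσ, ← hχ] at h1
  -- h1 : carry • N b + nsum (χ (g*h)).val = nsum (χ g).val + ρ g (nsum (χ h).val)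
  have : A.ρ g (nsum A σ b (χ h).val) = carry (χ g) (χ h) • A.ρ.norm b
      + nsum A σ b (χ (g * h)).val - nsum A σ b (χ g).val := by
    rw [h1]; abel
  rw [this]; abel

omit hinj hσ hχ in
/-- Summing a coboundary over the first variable. -/
lemma sum_d₁₂ (x : G → A) (τ : G) :
    ∑ g : G, (d₁₂ A).hom x (g, τ) = A.ρ.norm (x τ) := by
  simp only [d₁₂_hom_apply, Finset.sum_add_distrib, Finset.sum_sub_distrib]
  have : ∑ g : G, x (g * τ) = ∑ g : G, x g :=
    Fintype.sum_bijective (fun g => g * τ) (Group.mulRight_bijective τ) _ _ (fun _ => rfl)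
  rw [this]
  simp [Representation.norm]

omit [Fintype G] hχ hinj hσ in
lemma carry_natCast_one (hn : 2 ≤ n) (i : ℕ) (hi : i < n) :
    carry ((i : ℕ) : ZMod n) 1 = if i = n - 1 then 1 else 0 := by
  unfold carry
  have h1 : (1 : ZMod n).val = 1 := by
    have : Fact (1 < n) := ⟨hn⟩
    exact ZMod.val_one n
  rw [ZMod.val_natCast_of_lt hi, h1]
  split_ifs with h
  · subst h
    have : n - 1 + 1 = n := by omega
    rw [this, Nat.div_self (by omega)]
  · exact Nat.div_eq_of_lt (by omega)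

lemma sum_cupδFun (hn : 2 ≤ n) (a : A) : ∑ g : G, cupδFun A χ a (g, σ) = a := by
  rw [sum_univ_eq_sum_range hχ hinj hσ]
  simp only [cupδFun, χ_pow hχ hσ, hσ]
  rw [Finset.sum_congr rfl (fun i hi => by
    rw [carry_natCast_one hn i (Finset.mem_range.1 hi)])]
  simp only [ite_smul, one_smul, zero_smul]
  rw [Finset.sum_ite_eq']
  simp; omega

/-- If `a ∪ δχ` is a coboundary then `a` is a norm. -/
lemma mem_range_norm_of_cupδFun_mem_coboundaries₂ (a : A)
    (h : cupδFun A χ a ∈ coboundaries₂ A) : a ∈ LinearMap.range A.ρ.norm := by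
  rcases Nat.lt_or_ge n 2 with hn | hn
  · -- `G` is trivial
    have hn1 : n = 1 := by
      have := Nat.pos_of_ne_zero (NeZero.ne n); omega
    subst hn1
    have hsub : Subsingleton G := ⟨fun g h => hinj (Subsingleton.elim _ _)⟩
    refine ⟨a, ?_⟩
    have : (Finset.univ : Finset G) = {1} := by
      ext g; simp [Subsingleton.elim g 1]
    simp [Representation.norm, this]
  · obtain ⟨x, hx⟩ := h
    refine ⟨x σ, ?_⟩
    rw [← sum_d₁₂ x σ, hx, sum_cupδFun hχ hinj hσ hn]

end Cyclic2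

section Final

variable {k G : Type u} [CommRing k] [Group G] {A : Rep k G} {n : ℕ} [NeZero n]
  {χ : G → ZMod n} (hχ : ∀ g h, χ (g * h) = χ g + χ h)

lemma cupδ_add (a b : A) (ha : ∀ g : G, A.ρ g a = a) (hb : ∀ g : G, A.ρ g b = b) :
    cupδ χ hχ (a + b) (fun g => by rw [map_add, ha, hb]) = cupδ χ hχ a ha + cupδ χ hχ b hb := by
  unfold cupδ
  rw [← map_add]
  congr 1
  apply cocycles₂_ext
  intro g h
  change carry (χ g) (χ h) • (a + b) = carry (χ g) (χ h) • a + carry (χ g) (χ h) • b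
  rw [smul_add]

lemma cupδ_zero : cupδ χ hχ (0 : A) (fun _ => map_zero _) = 0 := by
  unfold cupδ
  have : cupδCocycle χ hχ (0 : A) (fun _ => map_zero _) = 0 := by
    apply cocycles₂_ext
    intro g h
    change carry (χ g) (χ h) • (0 : A) = 0
    rw [smul_zero]
  rw [this, map_zero]

lemma cupδ_smul (r : k) (a : A) (ha : ∀ g : G, A.ρ g a = a) :
    cupδ χ hχ (r • a) (fun g => by rw [map_smul, ha]) = r • cupδ χ hχ a ha := by
  unfold cupδ
  rw [← map_smul]
  congr 1
  apply cocycles₂_ext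
  intro g h
  change carry (χ g) (χ h) • (r • a) = r • (carry (χ g) (χ h) • a)
  rw [smul_comm]

lemma cupδ_congr {a b : A} (hab : a = b) (ha : ∀ g : G, A.ρ g a = a) :
    cupδ χ hχ a ha = cupδ χ hχ b (fun g => by rw [← hab]; exact ha g) := by
  subst hab; rfl

/-- `a ↦ a ∪ δχ` as a linear map on the invariants. -/
noncomputable def cupδLin : A.ρ.invariants →ₗ[k] H2 A where
  toFun a := cupδ χ hχ a.1 a.2
  map_add' a b := cupδ_add hχ a.1 b.1 a.2 b.2
  map_smul' r a := cupδ_smul hχ r a.1 a.2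

@[simp] lemma cupδLin_apply (a : A.ρ.invariants) : cupδLin hχ a = cupδ χ hχ a.1 a.2 := rfl

/-- Naturality of `cupδ` in the group and the module. -/
theorem map_cupδ {H : Type u} [Group H] {B : Rep k H} (f : H →* G) (φ : Rep.res f A ⟶ B)
    (a : A) (ha : ∀ g : G, A.ρ g a = a) :
    groupCohomology.map f φ 2 (cupδ χ hχ a ha) =
      cupδ (χ ∘ f) (fun g h => by simp [hχ]) (φ.hom a)
        (fun h => by
          have := Rep.hom_comm_apply φ h a
          rw [← this]
          change φ.hom (A.ρ (f h) a) = _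
          rw [ha]) := by
  unfold cupδ
  have := H2π_comp_map_apply f φ (cupδCocycle χ hχ a ha)
  rw [this]
  congr 1
  apply cocycles₂_ext
  intro g h
  change φ.hom (carry (χ (f g)) (χ (f h)) • a) = carry (χ (f g)) (χ (f h)) • φ.hom a
  rw [map_nsmul]

variable [Fintype G] (hinj : Function.Injective χ) {σ : G} (hσ : χ σ = 1)

include hinj hσ

/-- For a cyclic group, `a ∪ δχ = 0` iff `a` is a norm. -/
theorem cupδ_eq_zero_iff (a : A) (ha : ∀ g : G, A.ρ g a = a) :
    cupδ χ hχ a ha = 0 ↔ a ∈ LinearMap.range A.ρ.norm := by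
  unfold cupδ
  rw [H2π_eq_zero_iff]
  constructor
  · intro h
    exact mem_range_norm_of_cupδFun_mem_coboundaries₂ hχ hinj hσ a h
  · rintro ⟨b, rfl⟩
    exact cupδFun_norm_mem_coboundaries₂ hχ hinj hσ b

/-- For a cyclic group, every class in `H²` is of the form `a ∪ δχ`. -/
theorem exists_eq_cupδ (x : H2 A) :
    ∃ (a : A) (ha : ∀ g : G, A.ρ g a = a), x = cupδ χ hχ a ha := by
  induction x using H2_induction_on with
  | h f =>
    refine ⟨psum f σ n, psum_n_invariant hχ hinj hσ f, ?_⟩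
    unfold cupδ
    rw [H2π_eq_iff]
    exact sub_cupδFun_mem_coboundaries₂ hχ hinj hσ f

/-- Explicit form: the class of a cocycle `f` is `(∑ h, f (h, σ)) ∪ δχ`. -/
theorem H2π_eq_cupδ (f : cocycles₂ A) :
    H2π A f = cupδ χ hχ (∑ h : G, f (h, σ))
      (by rw [← psum_n hχ hinj hσ]; exact psum_n_invariant hχ hinj hσ f) := by
  unfold cupδ
  rw [H2π_eq_iff]
  have := sub_cupδFun_mem_coboundaries₂ hχ hinj hσ f
  rw [psum_n hχ hinj hσ] at this
  exact this

end Final

end Fermat.Agent.S55lib.Recip
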