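import Fermat.Agent.S55lib.Recip.ShapiroExplicit
import Fermat.Agent.S55lib.Dev.Transfer
import Fermat.Agent.S55lib.Dev.InfRes2

/-!
# S55lib / Recip / ClassTop

From a class of full `p`-order in `H²(Γ, C)` and the bounds `|H²(H, C)| ∣ |H|` (K8) to the
class-module axioms for all `p`-subgroups: `res_H u` generates `H²(H, C)` and has order `|H|`.
-/

set_option autoImplicit false

namespace Fermat.Agent.S55lib.Recip

open groupCohomology CategoryTheory Fermat.Agent.S55lib.Dev

universe u

section Transfer

variable {k G : Type u} [CommRing k] [Group G] (A : Rep.{u} k G) (S : Subgroup G)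

/-- restriction = explicit Shapiro ∘ unit. -/
theorem shapiro₂_map_coindUnit (x : H2 A) :
    shapiro₂ S (Rep.res S.subtype A) ((groupCohomology.map (MonoidHom.id G) (coindUnit A S) 2).hom x)
      = restMap A S 2 x := by
  unfold shapiro₂ restMap
  have key : groupCohomology.map (MonoidHom.id G) (coindUnit A S) 2 ≫
      groupCohomology.map S.subtype (coindEv S (Rep.res S.subtype A)) 2
      = groupCohomology.map S.subtype (𝟙 (Rep.res S.subtype A)) 2 := by
    rw [← groupCohomology.map_comp]
    apply groupCohomology.map_congr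
    · rfl
    · ext a
      change A.ρ 1 a = a
      simp
  have := congrArg (fun F => F.hom x) key
  simpa using this

/-- The kernel of the (honest) restriction `H²(G,A) → H²(S,A)` is killed by the index. -/
theorem index_nsmul_eq_zero_of_restMap_eq_zero [S.FiniteIndex]
    [Finite (H2 (Rep.res S.subtype A))] (x : H2 A) (hx : restMap A S 2 x = 0) :
    S.index • x = 0 := by
  have : Finite (G ⧸ S) := Subgroup.finite_quotient_of_finiteIndex
  have := Fintype.ofFinite (G ⧸ S)
  rw [Subgroup.index_eq_card, ← map_coindUnit_coindTrace A S 2 x]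
  have h0 : (groupCohomology.map (MonoidHom.id G) (coindUnit A S) 2).hom x = 0 := by
    apply (shapiro₂_bijective (S := S) (A := Rep.res S.subtype A)).1
    rw [shapiro₂_map_coindUnit, hx, map_zero]
  rw [h0, map_zero]

end Transfer

section ClassTop

variable {Γ : Type} [Group Γ] [Finite Γ] (C : Rep ℤ Γ) (p : ℕ) [hp : Fact p.Prime]

/-- **Class module from the top class.** -/
theorem generator_of_top
    (hK8 : ∀ H : Subgroup Γ, IsPGroup p H →
      Nat.card (H2 (Rep.res H.subtype C)) ∣ Nat.card H)
    (u : H2 C) (hu : ∀ m : ℕ, m • u = 0 → p ^ (Nat.card Γ).factorization p ∣ m)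
    (H : Subgroup Γ) (hH : IsPGroup p H) :
    (∀ x : H2 (Rep.res H.subtype C), ∃ n : ℤ, x = n • (restMap C H 2 u)) ∧
      addOrderOf (restMap C H 2 u) = Nat.card H := by
  obtain ⟨a, ha⟩ := hH.exists_card_eq
  have hcard := hK8 H hH
  have hfin : Finite (H2 (Rep.res H.subtype C)) := by
    apply Nat.finite_of_card_ne_zero
    intro h0
    rw [h0, ha] at hcard
    exact (pow_ne_zero a hp.out.ne_zero) (Nat.eq_zero_of_zero_dvd hcard)
  set g := restMap C H 2 u with hg
  -- order of g
  have ho1 : addOrderOf g ∣ p ^ a := by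
    rw [← ha]; exact (addOrderOf_dvd_natCard g).trans hcard
  obtain ⟨b, hb, hob⟩ := (Nat.dvd_prime_pow hp.out).1 ho1
  have hres : restMap C H 2 (addOrderOf g • u) = 0 := by
    rw [map_nsmul, ← hg, addOrderOf_nsmul_eq_zero]
  have hidx := index_nsmul_eq_zero_of_restMap_eq_zero C H _ hres
  rw [← mul_nsmul'] at hidx
  have hdvd := hu _ hidx
  have hΓ : Nat.card Γ = H.index * p ^ a := by rw [← ha]; exact (Subgroup.index_mul_card H).symm
  have hidx0 : H.index ≠ 0 := Subgroup.index_ne_zero_of_finite
  have hfac : (Nat.card Γ).factorization p = H.index.factorization p + a := by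
    rw [hΓ, Nat.factorization_mul hidx0 (pow_ne_zero a hp.out.ne_zero), Nat.factorization_pow]
    simp [hp.out.factorization_self]
  have hab : a ≤ b := by
    rw [hfac, hob] at hdvd
    have h1 := (hp.out.pow_dvd_iff_le_factorization
      (Nat.mul_ne_zero hidx0 (pow_ne_zero b hp.out.ne_zero))).1 hdvd
    rw [Nat.factorization_mul hidx0 (pow_ne_zero b hp.out.ne_zero), Nat.factorization_pow] at h1
    simp [hp.out.factorization_self] at h1
    omega
  have hba : b = a := le_antisymm hb hab
  have hord : addOrderOf g = Nat.card H := by rw [hob, hba, ha]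
  refine ⟨?_, hord⟩
  -- generation
  have htop : AddSubgroup.zmultiples g = ⊤ := by
    apply AddSubgroup.eq_top_of_le_card
    rw [Nat.card_zmultiples, hord]
    exact Nat.le_of_dvd Nat.card_pos hcard
  intro x
  have hx : x ∈ AddSubgroup.zmultiples g := by rw [htop]; trivial
  obtain ⟨n, hn⟩ := AddSubgroup.mem_zmultiples_iff.1 hx
  exact ⟨n, hn.symm⟩

end ClassTop

end Fermat.Agent.S55lib.Recip
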