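import Mathlib

/-!
# S55lib / Recip / ShapiroExplicit

Explicit Shapiro map in degree `2`: for `S ≤ Γ` and `A : Rep k S`,
`shapiro₂ : H²(Γ, Coind_S^Γ A) → H²(S, A)` is restriction to `S` followed by evaluation at `1`.
It is surjective (explicit lift through a right transversal), hence bijective whenever `H²(S, A)`
is finite (Mathlib's abstract `coindIso` gives equality of cardinalities).
-/

set_option autoImplicit false

namespace Fermat.Agent.S55lib.Recip

open groupCohomology CategoryTheory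

universe u

section Transversal

variable {Γ : Type u} [Group Γ] (S : Subgroup Γ)

open Classical in
/-- A right-transversal function: `tr γ` is the chosen representative of the coset `S γ`,
with `tr s = 1` for `s ∈ S`. -/
noncomputable def tr (γ : Γ) : Γ :=
  if γ ∈ S then 1 else Quotient.out (Quotient.mk (QuotientGroup.rightRel S) γ)

variable {S}

lemma mul_tr_inv_mem (γ : Γ) : γ * (tr S γ)⁻¹ ∈ S := by
  unfold tr
  split_ifs with h
  · simpa using h
  · have := Quotient.exact (Quotient.out_eq (Quotient.mk (QuotientGroup.rightRel S) γ))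
    have h2 := QuotientGroup.rightRel_apply.1 this
    -- h2 : γ * (out _)⁻¹ ∈ S
    exact h2

lemma tr_mul_left (s : S) (γ : Γ) : tr S ((s : Γ) * γ) = tr S γ := by
  unfold tr
  have hmem : (s : Γ) * γ ∈ S ↔ γ ∈ S := Subgroup.mul_mem_cancel_left S s.2
  have hq : Quotient.mk (QuotientGroup.rightRel S) ((s : Γ) * γ)
      = Quotient.mk (QuotientGroup.rightRel S) γ := by
    apply Quotient.sound
    change (QuotientGroup.rightRel S) ((s : Γ) * γ) γ
    rw [QuotientGroup.rightRel_apply]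
    simp
  rw [hq]
  by_cases h : γ ∈ S
  · rw [if_pos h, if_pos (hmem.2 h)]
  · rw [if_neg h, if_neg (fun h' => h (hmem.1 h'))]

lemma tr_of_mem {γ : Γ} (h : γ ∈ S) : tr S γ = 1 := by
  unfold tr; rw [if_pos h]

/-- The `S`-component: `γ = dr γ * tr γ`. -/
noncomputable def dr (S : Subgroup Γ) (γ : Γ) : S := ⟨γ * (tr S γ)⁻¹, mul_tr_inv_mem γ⟩

lemma dr_mul_tr (γ : Γ) : (dr S γ : Γ) * tr S γ = γ := by simp [dr]

lemma dr_mul_left (s : S) (γ : Γ) : dr S ((s : Γ) * γ) = s * dr S γ := by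
  apply Subtype.ext
  simp [dr, tr_mul_left, mul_assoc]

lemma dr_of_mem (s : S) : dr S (s : Γ) = s := by
  apply Subtype.ext
  simp [dr, tr_of_mem s.2]

lemma tr_mul (x y : Γ) : tr S (x * y) = tr S (tr S x * y) := by
  conv_lhs => rw [← dr_mul_tr (S := S) x, mul_assoc, tr_mul_left]

lemma dr_mul (x y : Γ) : dr S (x * y) = dr S x * dr S (tr S x * y) := by
  conv_lhs => rw [← dr_mul_tr (S := S) x, mul_assoc, dr_mul_left]

end Transversal

section Shapiro

variable {k Γ : Type u} [CommRing k] [Group Γ] (S : Subgroup Γ) (A : Rep k S)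

/-- Evaluation at `1`: `Res_S (Coind_S^Γ A) ⟶ A`. -/
noncomputable def coindEv : Rep.res S.subtype (Rep.coind S.subtype A) ⟶ A :=
  Rep.ofHom ⟨LinearMap.proj 1 ∘ₗ (A.ρ.coindV S.subtype).subtype, fun s => by
    ext f
    have := f.2 s 1
    simp only [mul_one] at this
    change (f.1 (1 * (s : Γ))) = A.ρ s (f.1 1)
    rw [one_mul]; exact this⟩

@[simp] lemma coindEv_apply (f : Rep.coind S.subtype A) : (coindEv S A).hom f = f.1 1 := rfl

/-- The explicit Shapiro map in degree `2`. -/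
noncomputable def shapiro₂ : H2 (Rep.coind S.subtype A) ⟶ H2 A :=
  groupCohomology.map S.subtype (coindEv S A) 2

variable {S A}

/-- The lift of a `2`-cochain of `S` to a `2`-cochain of `Γ` with values in `Coind A`. -/
noncomputable def liftFun (c : S × S → A) : Γ × Γ → (Rep.coind S.subtype A) := fun γγ =>
  ⟨fun γ => A.ρ (dr S γ) (c (dr S (tr S γ * γγ.1), dr S (tr S (tr S γ * γγ.1) * γγ.2))), by
    intro s γ
    simp only [Subgroup.coe_subtype]
    rw [dr_mul_left, tr_mul_left, map_mul]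
    rfl⟩

lemma liftFun_apply (c : S × S → A) (γ₁ γ₂ γ : Γ) :
    (liftFun c (γ₁, γ₂)).1 γ
      = A.ρ (dr S γ) (c (dr S (tr S γ * γ₁), dr S (tr S (tr S γ * γ₁) * γ₂))) := rfl

lemma liftFun_mem_cocycles₂ (c : cocycles₂ A) :
    liftFun (S := S) (c : S × S → A) ∈ cocycles₂ (Rep.coind S.subtype A) := by
  rw [mem_cocycles₂_iff]
  intro γ₁ γ₂ γ₃
  apply Subtype.ext
  funext γ
  have hc := (mem_cocycles₂_iff (c : S × S → A)).1 c.2
    (dr S (tr S γ * γ₁)) (dr S (tr S (tr S γ * γ₁) * γ₂))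
    (dr S (tr S (tr S (tr S γ * γ₁) * γ₂) * γ₃))
  have e1 : dr S (tr S γ * (γ₁ * γ₂)) = dr S (tr S γ * γ₁) * dr S (tr S (tr S γ * γ₁) * γ₂) := by
    rw [← mul_assoc, dr_mul]
  have e2 : tr S (tr S γ * (γ₁ * γ₂)) = tr S (tr S (tr S γ * γ₁) * γ₂) := by
    rw [← mul_assoc, tr_mul]
  have e3 : dr S (tr S (tr S γ * γ₁) * (γ₂ * γ₃))
      = dr S (tr S (tr S γ * γ₁) * γ₂) * dr S (tr S (tr S (tr S γ * γ₁) * γ₂) * γ₃) := by
    rw [← mul_assoc, dr_mul]
  have e4 : dr S (γ * γ₁) = dr S γ * dr S (tr S γ * γ₁) := dr_mul _ _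
  have e5 : tr S (γ * γ₁) = tr S (tr S γ * γ₁) := tr_mul _ _
  change (liftFun (⇑c) (γ₁ * γ₂, γ₃)).1 γ + (liftFun (⇑c) (γ₁, γ₂)).1 γ
    = (liftFun (⇑c) (γ₂, γ₃)).1 (γ * γ₁) + (liftFun (⇑c) (γ₁, γ₂ * γ₃)).1 γ
  simp only [liftFun_apply, e1, e2, e3, e4, e5, map_mul]
  rw [← map_add, hc, map_add]
  rfl

/-- The lifted cocycle. -/
noncomputable def liftCocycle (c : cocycles₂ A) : cocycles₂ (Rep.coind S.subtype A) :=
  ⟨liftFun (c : S × S → A), liftFun_mem_cocycles₂ c⟩

lemma shapiro₂_liftCocycle (c : cocycles₂ A) :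
    shapiro₂ S A (H2π _ (liftCocycle c)) = H2π A c := by
  unfold shapiro₂
  rw [H2π_comp_map_apply]
  congr 1
  apply cocycles₂_ext
  intro s₁ s₂
  change (liftFun (⇑c) ((s₁ : Γ), (s₂ : Γ))).1 1 = c (s₁, s₂)
  rw [liftFun_apply]
  have h1 : tr S (1 : Γ) = 1 := tr_of_mem S.one_mem
  have h2 : dr S (1 : Γ) = 1 := by
    have := dr_of_mem (1 : S); simpa using this
  rw [h1, one_mul, tr_of_mem s₁.2, one_mul, dr_of_mem, dr_of_mem, h2, map_one]
  rfl

theorem shapiro₂_surjective : Function.Surjective (shapiro₂ S A) := by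
  intro x
  induction x using H2_induction_on with
  | h c => exact ⟨H2π _ (liftCocycle c), shapiro₂_liftCocycle c⟩

/-- The explicit Shapiro map is bijective when `H²(S, A)` is finite. -/
theorem shapiro₂_bijective [Finite (H2 A)] : Function.Bijective (shapiro₂ S A) := by
  have e : H2 (Rep.coind S.subtype A) ≃ H2 A :=
    ((groupCohomology.coindIso A 2).toLinearEquiv).toEquiv
  have : Finite (H2 (Rep.coind S.subtype A)) := Finite.of_equiv _ e.symm
  exact Function.Surjective.bijective_of_nat_card_le shapiro₂_surjective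
    (le_of_eq (Nat.card_congr e))

end Shapiro

end Fermat.Agent.S55lib.Recip
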