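import Mathlib
import Fermat.Agent.S55lib.Iface.Layers
import Fermat.Agent.S55lib.Recip.ShapiroExplicit

/-!
# S55lib / Recip / LocalBridge

Bridge between helper4's intrinsic semilocal model (`Iface/Layers.lean`) and the local theory:
for `L/ℚ` normal and an embedding `ι : L → ℚ̄_q`
* `decompHom ι : G_q →* Aut(L/ℚ)` (`ι ∘ γ_d = d ∘ ι`), `decomp ι` its range (decomposition group);
* `localField q L ι` is finite Galois over `ℚ_q`, `decompEquiv ι : Gal(L_q/ℚ_q) ≃* decomp ι`;
* `locRep ι : Rep ℤ (decomp ι)` (`L_q^×`), `JqRep q L : Rep ℤ Aut(L/ℚ)` (`J_q(L)`);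
* `JqCoindIso ι : JqRep q L ≅ Rep.coind (decomp ι).subtype (locRep ι)`;
* `loc₂ ι : H²(Aut(L/ℚ), J_q(L)) → H²(D_q, L_q^×)` (restriction + evaluation at `ι`), bijective
  as soon as `H²(D_q, L_q^×)` is finite.
-/

set_option autoImplicit false

noncomputable section

namespace Fermat.Agent.S55lib.Recip

open Fermat.Agent.S55lib

variable {q : ℕ} [Fact q.Prime] {L : Type} [Field L] [Algebra ℚ L]

/-! ### The decomposition homomorphism -/

section Decomp

variable [Normal ℚ L]

lemma exists_aut_smul (ι : Emb q L) (d : GalQq q) :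
    ∃ γ : L ≃ₐ[ℚ] L, d • ι = ι.comp (γ : L →ₐ[ℚ] L) := by
  obtain ⟨γ, hγ⟩ := Emb.exists_aut_of_res_eq (F := ℚ) ι (d • ι) (Subsingleton.elim _ _)
  exact ⟨γ, hγ⟩

omit [Normal ℚ L] in
lemma comp_aut_injective (ι : Emb q L) {γ γ' : L ≃ₐ[ℚ] L}
    (h : ι.comp (γ : L →ₐ[ℚ] L) = ι.comp (γ' : L →ₐ[ℚ] L)) : γ = γ' := by
  ext x
  have := congrArg (fun f => f x) h
  exact ι.injective this

/-- the element of `Aut(L/ℚ)` induced by `d ∈ G_q` through the embedding `ι`: `ι ∘ γ_d = d ∘ ι` -/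
def decompFun (ι : Emb q L) (d : GalQq q) : L ≃ₐ[ℚ] L := (exists_aut_smul ι d).choose

lemma smul_eq_comp_decompFun (ι : Emb q L) (d : GalQq q) :
    d • ι = ι.comp (decompFun ι d : L →ₐ[ℚ] L) := (exists_aut_smul ι d).choose_spec

lemma apply_decompFun (ι : Emb q L) (d : GalQq q) (x : L) : ι (decompFun ι d x) = d (ι x) := by
  have := congrArg (fun f => f x) (smul_eq_comp_decompFun ι d)
  exact this.symm

/-- the decomposition homomorphism `G_q → Aut(L/ℚ)` attached to the embedding `ι` -/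
def decompHom (ι : Emb q L) : GalQq q →* (L ≃ₐ[ℚ] L) :=
  MonoidHom.mk' (decompFun ι) (fun d d' => by
    ext x
    have hinj : Function.Injective ι := ι.injective
    apply hinj
    rw [apply_decompFun]
    change (d * d') (ι x) = ι (decompFun ι d (decompFun ι d' x))
    rw [apply_decompFun, apply_decompFun]
    rfl)

lemma apply_decompHom (ι : Emb q L) (d : GalQq q) (x : L) : ι (decompHom ι d x) = d (ι x) :=
  apply_decompFun ι d x

lemma smul_eq_comp_decompHom (ι : Emb q L) (d : GalQq q) :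
    d • ι = ι.comp (decompHom ι d : L →ₐ[ℚ] L) := smul_eq_comp_decompFun ι d

/-- the decomposition group of the embedding `ι` -/
def decomp (ι : Emb q L) : Subgroup (L ≃ₐ[ℚ] L) := (decompHom ι).range

lemma mem_decomp_iff (ι : Emb q L) (γ : L ≃ₐ[ℚ] L) :
    γ ∈ decomp ι ↔ ∃ d : GalQq q, d • ι = ι.comp (γ : L →ₐ[ℚ] L) := by
  constructor
  · rintro ⟨d, rfl⟩
    exact ⟨d, smul_eq_comp_decompHom ι d⟩
  · rintro ⟨d, hd⟩
    refine ⟨d, ?_⟩
    apply comp_aut_injective ι
    rw [← hd, smul_eq_comp_decompHom]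

lemma decompHom_eq_one_iff (ι : Emb q L) (d : GalQq q) :
    decompHom ι d = 1 ↔ d ∈ (localField q L ι).fixingSubgroup := by
  rw [← Emb.smul_eq_self_iff]
  constructor
  · intro h
    rw [smul_eq_comp_decompHom, h]
    rfl
  · intro h
    apply comp_aut_injective ι
    rw [← smul_eq_comp_decompHom, h]
    rfl

lemma ker_decompHom (ι : Emb q L) :
    (decompHom ι).ker = (localField q L ι).fixingSubgroup := by
  ext d
  rw [MonoidHom.mem_ker, decompHom_eq_one_iff]

end Decomp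

/-! ### The local field at an embedding -/

section LocalField

open IntermediateField

lemma range_subset_localField (ι : Emb q L) (x : L) : ι x ∈ localField q L ι :=
  IntermediateField.subset_adjoin _ _ ⟨x, rfl⟩

lemma localField_comp_aut (ι : Emb q L) (γ : L ≃ₐ[ℚ] L) :
    localField q L (ι.comp (γ : L →ₐ[ℚ] L)) = localField q L ι := by
  unfold localField
  congr 1
  ext y
  constructor
  · rintro ⟨x, rfl⟩; exact ⟨γ x, rfl⟩
  · rintro ⟨x, rfl⟩; exact ⟨γ.symm x, by simp⟩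

lemma localField_smul (ι : Emb q L) (d : GalQq q) :
    localField q L (d • ι) = (localField q L ι).map (d : PadicAlgCl q →ₐ[ℚ_[q]] PadicAlgCl q) := by
  unfold localField
  rw [IntermediateField.adjoin_map]
  congr 1
  ext y
  constructor
  · rintro ⟨x, rfl⟩; exact ⟨ι x, ⟨x, rfl⟩, rfl⟩
  · rintro ⟨_, ⟨x, rfl⟩, rfl⟩; exact ⟨x, rfl⟩

instance localField_normal [Normal ℚ L] (ι : Emb q L) : Normal ℚ_[q] (localField q L ι) := by
  rw [IntermediateField.normal_iff_forall_map_eq']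
  intro d
  rw [← localField_smul, smul_eq_comp_decompHom, localField_comp_aut]

/-- the local field is generated by the image of a primitive element -/
lemma localField_eq_adjoin_simple (ι : Emb q L) {α : L} (hα : ℚ⟮α⟯ = ⊤) :
    localField q L ι = ℚ_[q]⟮ι α⟯ := by
  apply le_antisymm
  · unfold localField
    rw [IntermediateField.adjoin_le_iff]
    rintro _ ⟨x, rfl⟩
    have hx : x ∈ ℚ⟮α⟯ := by rw [hα]; trivial
    induction hx using IntermediateField.adjoin_induction with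
    | mem x hx =>
      rw [Set.mem_singleton_iff] at hx
      subst hx
      exact IntermediateField.mem_adjoin_simple_self _ _
    | algebraMap r =>
      rw [SetLike.mem_coe, AlgHom.commutes, IsScalarTower.algebraMap_apply ℚ ℚ_[q] (PadicAlgCl q)]
      exact IntermediateField.algebraMap_mem _ _
    | add x y _ _ hx hy => rw [SetLike.mem_coe, map_add]; exact add_mem hx hy
    | inv x _ hx => rw [SetLike.mem_coe, map_inv₀]; exact inv_mem hx
    | mul x y _ _ hx hy => rw [SetLike.mem_coe, map_mul]; exact mul_mem hx hy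
  · rw [IntermediateField.adjoin_le_iff]
    intro y hy
    rw [Set.mem_singleton_iff] at hy
    subst hy
    exact range_subset_localField ι α

instance localField_finiteDimensional [FiniteDimensional ℚ L] (ι : Emb q L) :
    FiniteDimensional ℚ_[q] (localField q L ι) := by
  obtain ⟨α, hα⟩ := Field.exists_primitive_element ℚ L
  rw [localField_eq_adjoin_simple ι hα]
  apply IntermediateField.adjoin.finiteDimensional
  have h1 : IsIntegral ℚ α := Algebra.IsIntegral.isIntegral α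
  have h2 : IsIntegral ℚ (ι α) := h1.map ι
  exact h2.tower_top

instance localField_isGalois [Normal ℚ L] (ι : Emb q L) : IsGalois ℚ_[q] (localField q L ι) where
  to_isSeparable := inferInstance
  to_normal := inferInstance

end LocalField

/-! ### `Gal(L_q/ℚ_q) ≃ D_q` -/

section DecompEquiv

variable [Normal ℚ L]

/-- restriction `G_q → Gal(L_q/ℚ_q)` -/
def resLoc (ι : Emb q L) : GalQq q →* (localField q L ι ≃ₐ[ℚ_[q]] localField q L ι) :=
  AlgEquiv.restrictNormalHom (localField q L ι)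

lemma resLoc_surjective (ι : Emb q L) : Function.Surjective (resLoc ι) :=
  AlgEquiv.restrictNormalHom_surjective _

lemma resLoc_apply (ι : Emb q L) (d : GalQq q) (y : localField q L ι) :
    ((resLoc ι d y : localField q L ι) : PadicAlgCl q) = d y :=
  AlgEquiv.restrictNormal_commutes d (localField q L ι) y

lemma ker_resLoc (ι : Emb q L) : (resLoc ι).ker = (localField q L ι).fixingSubgroup :=
  IntermediateField.restrictNormalHom_ker _

/-- `Gal(L_q/ℚ_q) → Aut(L/ℚ)`: the automorphism `γ` with `ι ∘ γ = σ ∘ ι` -/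
def locToAut (ι : Emb q L) : (localField q L ι ≃ₐ[ℚ_[q]] localField q L ι) →* (L ≃ₐ[ℚ] L) :=
  (resLoc ι).liftOfSurjective (resLoc_surjective ι)
    ⟨decompHom ι, by rw [ker_resLoc, ker_decompHom]⟩

lemma locToAut_resLoc (ι : Emb q L) (d : GalQq q) : locToAut ι (resLoc ι d) = decompHom ι d :=
  MonoidHom.liftOfRightInverse_comp_apply _ _ _ _ _

lemma apply_locToAut (ι : Emb q L) (σ : localField q L ι ≃ₐ[ℚ_[q]] localField q L ι) (x : L) :
    ι (locToAut ι σ x) = σ ⟨ι x, range_subset_localField ι x⟩ := by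
  obtain ⟨d, rfl⟩ := resLoc_surjective ι σ
  rw [locToAut_resLoc, apply_decompHom, resLoc_apply]

lemma locToAut_injective (ι : Emb q L) : Function.Injective (locToAut ι) := by
  rw [injective_iff_map_eq_one]
  intro σ hσ
  obtain ⟨d, rfl⟩ := resLoc_surjective ι σ
  rw [locToAut_resLoc, decompHom_eq_one_iff, ← ker_resLoc] at hσ
  exact hσ

lemma range_locToAut (ι : Emb q L) : (locToAut ι).range = decomp ι := by
  ext γ
  constructor
  · rintro ⟨σ, rfl⟩
    obtain ⟨d, rfl⟩ := resLoc_surjective ι σ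
    exact ⟨d, (locToAut_resLoc ι d).symm⟩
  · rintro ⟨d, rfl⟩
    exact ⟨resLoc ι d, locToAut_resLoc ι d⟩

/-- `Gal(L_q/ℚ_q) ≃* D_q(ι)` -/
def decompEquiv (ι : Emb q L) : (localField q L ι ≃ₐ[ℚ_[q]] localField q L ι) ≃* decomp ι :=
  (MonoidHom.ofInjective (locToAut_injective ι)).trans (MulEquiv.subgroupCongr (range_locToAut ι))

lemma coe_decompEquiv (ι : Emb q L) (σ : localField q L ι ≃ₐ[ℚ_[q]] localField q L ι) :
    (decompEquiv ι σ : L ≃ₐ[ℚ] L) = locToAut ι σ := rfl

lemma decompEquiv_resLoc (ι : Emb q L) (d : GalQq q) :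
    (decompEquiv ι (resLoc ι d) : L ≃ₐ[ℚ] L) = decompHom ι d := by
  rw [coe_decompEquiv, locToAut_resLoc]

lemma decompEquiv_symm_decompHom (ι : Emb q L) (d : GalQq q) :
    (decompEquiv ι).symm ⟨decompHom ι d, ⟨d, rfl⟩⟩ = resLoc ι d := by
  rw [MulEquiv.symm_apply_eq]
  apply Subtype.ext
  rw [decompEquiv_resLoc]

/-- the defining property: `ι (γ x) = σ (ι x)` for `σ = (decompEquiv ι).symm γ` -/
lemma apply_decompEquiv_symm (ι : Emb q L) (γ : decomp ι) (x : L) :
    (((decompEquiv ι).symm γ ⟨ι x, range_subset_localField ι x⟩ : localField q L ι) : PadicAlgCl q)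
      = ι ((γ : L ≃ₐ[ℚ] L) x) := by
  obtain ⟨σ, rfl⟩ := (decompEquiv ι).surjective γ
  rw [MulEquiv.symm_apply_apply, coe_decompEquiv, apply_locToAut]

lemma card_decomp [FiniteDimensional ℚ L] (ι : Emb q L) :
    Nat.card (decomp ι) = Module.finrank ℚ_[q] (localField q L ι) := by
  rw [← Nat.card_congr (decompEquiv ι).toEquiv, IsGalois.card_aut_eq_finrank]

end DecompEquiv

/-! ### `J_q(L) ≅ Coind_{D_q}^{Γ} L_q^×` -/

section Shapiro

variable [Normal ℚ L]

/-- a unit of `ℚ̄_q` lying in an intermediate field, as a unit of that field -/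
def unitOfMem (E : IntermediateField ℚ_[q] (PadicAlgCl q)) (u : (PadicAlgCl q)ˣ)
    (h : (u : PadicAlgCl q) ∈ E) : (↥E)ˣ :=
  Units.mk0 ⟨u, h⟩ (fun h0 => u.ne_zero (congrArg Subtype.val h0))

@[simp] lemma unitOfMem_val (E : IntermediateField ℚ_[q] (PadicAlgCl q)) (u : (PadicAlgCl q)ˣ)
    (h : (u : PadicAlgCl q) ∈ E) : (((unitOfMem E u h : (↥E)ˣ) : ↥E) : PadicAlgCl q) = u := rfl

variable (q L) in
/-- `J_q(L)` as a representation of `Aut(L/ℚ)` -/
abbrev JqRep : Rep ℤ (L ≃ₐ[ℚ] L) := Rep.ofMulDistribMulAction (L ≃ₐ[ℚ] L) (Jq q L)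

/-- `L_q^×` as a representation of the decomposition group `D_q(ι)` -/
abbrev locRep (ι : Emb q L) : Rep ℤ (decomp ι) :=
  Rep.res (decompEquiv ι).symm.toMonoidHom (Rep.ofAlgebraAutOnUnits ℚ_[q] (localField q L ι))

omit [Normal ℚ L] in
lemma Jq_val_comp_mem (ι : Emb q L) (f : Jq q L) (γ : L ≃ₐ[ℚ] L) :
    ((f.1 (ι.comp (γ : L →ₐ[ℚ] L)) : (PadicAlgCl q)ˣ) : PadicAlgCl q) ∈ localField q L ι := by
  have := Jq.val_mem_localField f.2 (ι.comp (γ : L →ₐ[ℚ] L))
  rwa [localField_comp_aut] at this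

/-- `f ↦ (γ ↦ f (ι ∘ γ))` -/
def toCoindFun (ι : Emb q L) (f : Jq q L) (γ : L ≃ₐ[ℚ] L) : (localField q L ι)ˣ :=
  unitOfMem _ (f.1 (ι.comp (γ : L →ₐ[ℚ] L))) (Jq_val_comp_mem ι f γ)

lemma locRep_ρ_val (ι : Emb q L) (g : decomp ι) (y : (localField q L ι)ˣ) :
    (((Additive.toMul ((locRep ι).ρ g (Additive.ofMul y)) : (localField q L ι)ˣ) :
      localField q L ι) : PadicAlgCl q) = ((decompEquiv ι).symm g (y : localField q L ι) : localField q L ι) := rfl

omit [Normal ℚ L] in
lemma comp_mul (ι : Emb q L) (γ γ' : L ≃ₐ[ℚ] L) :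
    ι.comp ((γ * γ' : L ≃ₐ[ℚ] L) : L →ₐ[ℚ] L)
      = (ι.comp (γ : L →ₐ[ℚ] L)).comp (γ' : L →ₐ[ℚ] L) := rfl

omit [Normal ℚ L] in
lemma smul_comp (ι : Emb q L) (d : GalQq q) (γ : L ≃ₐ[ℚ] L) :
    d • (ι.comp (γ : L →ₐ[ℚ] L)) = (d • ι).comp (γ : L →ₐ[ℚ] L) := rfl

lemma toCoindFun_mul (ι : Emb q L) (f : Jq q L) (g : decomp ι) (γ : L ≃ₐ[ℚ] L) :
    toCoindFun ι f ((g : L ≃ₐ[ℚ] L) * γ)
      = (decompEquiv ι).symm g • toCoindFun ι f γ := by
  obtain ⟨g, ⟨d, rfl⟩⟩ := g
  rw [decompEquiv_symm_decompHom]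
  apply Units.ext
  apply Subtype.ext
  change ((f.1 (ι.comp ((decompHom ι d * γ : L ≃ₐ[ℚ] L) : L →ₐ[ℚ] L)) : (PadicAlgCl q)ˣ) :
    PadicAlgCl q) = ((resLoc ι d ((toCoindFun ι f γ : (localField q L ι)ˣ) : localField q L ι) :
      localField q L ι) : PadicAlgCl q)
  rw [resLoc_apply, comp_mul, ← smul_eq_comp_decompHom, ← smul_comp, f.2 d]
  rfl

/-- the `Γ`-equivariant map `J_q(L) → Coind_{D_q}^Γ L_q^×` -/
def toCoind (ι : Emb q L) : Additive (Jq q L) →+ (Rep.coind (decomp ι).subtype (locRep ι)) where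
  toFun f := ⟨fun γ => Additive.ofMul (toCoindFun ι (Additive.toMul f) γ), by
    intro g γ
    change Additive.ofMul (toCoindFun ι (Additive.toMul f) ((g : L ≃ₐ[ℚ] L) * γ)) = _
    rw [toCoindFun_mul]
    rfl⟩
  map_zero' := by
    apply Subtype.ext
    funext γ
    change Additive.ofMul (toCoindFun ι 1 γ) = 0
    have : toCoindFun ι (1 : Jq q L) γ = 1 := by
      apply Units.ext; apply Subtype.ext; rfl
    rw [this]; rfl
  map_add' f g := by
    apply Subtype.ext
    funext γ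
    change Additive.ofMul (toCoindFun ι (Additive.toMul f * Additive.toMul g) γ)
      = Additive.ofMul (toCoindFun ι (Additive.toMul f) γ)
        + Additive.ofMul (toCoindFun ι (Additive.toMul g) γ)
    have : toCoindFun ι (Additive.toMul f * Additive.toMul g) γ
        = toCoindFun ι (Additive.toMul f) γ * toCoindFun ι (Additive.toMul g) γ := by
      apply Units.ext; apply Subtype.ext; rfl
    rw [this]; rfl

/-- the automorphism `γ` with `ι' = ι ∘ γ` -/
def autOf (ι ι' : Emb q L) : L ≃ₐ[ℚ] L :=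
  (Emb.exists_aut_of_res_eq (F := ℚ) ι ι' (Subsingleton.elim _ _)).choose

lemma comp_autOf (ι ι' : Emb q L) : ι.comp (autOf ι ι' : L →ₐ[ℚ] L) = ι' :=
  (Emb.exists_aut_of_res_eq (F := ℚ) ι ι' (Subsingleton.elim _ _)).choose_spec.symm

lemma autOf_comp (ι : Emb q L) (γ : L ≃ₐ[ℚ] L) : autOf ι (ι.comp (γ : L →ₐ[ℚ] L)) = γ :=
  comp_aut_injective ι (comp_autOf ι _)

lemma autOf_smul (ι ι' : Emb q L) (d : GalQq q) :
    autOf ι (d • ι') = decompHom ι d * autOf ι ι' := by
  apply comp_aut_injective ι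
  rw [comp_autOf, comp_mul, ← smul_eq_comp_decompHom, ← smul_comp, comp_autOf]

/-- the inverse map `Coind_{D_q}^Γ L_q^× → J_q(L)` -/
def ofCoindFun (ι : Emb q L) (F : Rep.coind (decomp ι).subtype (locRep ι)) : Jq q L :=
  ⟨fun ι' => Units.map ((localField q L ι).val : localField q L ι →* PadicAlgCl q)
      (Additive.toMul (F.1 (autOf ι ι'))), by
    intro d ι'
    have h := F.2 ⟨decompHom ι d, ⟨d, rfl⟩⟩ (autOf ι ι')
    change ((Additive.toMul (F.1 (autOf ι (d • ι'))) : (localField q L ι)ˣ) : localField q L ι).1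
      = d ((Additive.toMul (F.1 (autOf ι ι')) : (localField q L ι)ˣ) : localField q L ι).1
    rw [autOf_smul]
    have h' : F.1 (decompHom ι d * autOf ι ι') = (locRep ι).ρ ⟨decompHom ι d, ⟨d, rfl⟩⟩
      (F.1 (autOf ι ι')) := h
    rw [h']
    change (((decompEquiv ι).symm ⟨decompHom ι d, ⟨d, rfl⟩⟩
      ((Additive.toMul (F.1 (autOf ι ι')) : (localField q L ι)ˣ) : localField q L ι) :
        localField q L ι) : PadicAlgCl q) = _
    rw [decompEquiv_symm_decompHom, resLoc_apply]⟩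

lemma toCoindFun_ofCoindFun (ι : Emb q L) (F : Rep.coind (decomp ι).subtype (locRep ι))
    (γ : L ≃ₐ[ℚ] L) : toCoindFun ι (ofCoindFun ι F) γ = Additive.toMul (F.1 γ) := by
  apply Units.ext; apply Subtype.ext
  change ((Additive.toMul (F.1 (autOf ι (ι.comp (γ : L →ₐ[ℚ] L)))) : (localField q L ι)ˣ) :
    localField q L ι).1 = _
  rw [autOf_comp]
  rfl

lemma ofCoindFun_toCoind (ι : Emb q L) (f : Jq q L) :
    ofCoindFun ι (toCoind ι (Additive.ofMul f)) = f := by
  apply Subtype.ext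
  funext ι'
  apply Units.ext
  change ((f.1 (ι.comp (autOf ι ι' : L →ₐ[ℚ] L)) : (PadicAlgCl q)ˣ) : PadicAlgCl q) = _
  rw [comp_autOf]

/-- the additive equivalence `J_q(L) ≃ Coind` -/
def coindAddEquiv (ι : Emb q L) :
    Additive (Jq q L) ≃+ (Rep.coind (decomp ι).subtype (locRep ι)) :=
  { toCoind ι with
    invFun := fun F => Additive.ofMul (ofCoindFun ι F)
    left_inv := fun f => congrArg Additive.ofMul (ofCoindFun_toCoind ι (Additive.toMul f))
    right_inv := fun F => by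
      apply Subtype.ext
      funext γ
      change Additive.ofMul (toCoindFun ι (ofCoindFun ι F) γ) = F.1 γ
      rw [toCoindFun_ofCoindFun]
      rfl }

/-- **Shapiro, intrinsic form**: `J_q(L) ≅ Coind_{D_q(ι)}^{Aut(L/ℚ)} L_q^×` as representations of
`Aut(L/ℚ)`, `f ↦ (γ ↦ f (ι ∘ γ))`. -/
def JqCoindIso (ι : Emb q L) : JqRep q L ≅ Rep.coind (decomp ι).subtype (locRep ι) :=
  Rep.mkIso <| Representation.Equiv.mk (coindAddEquiv ι).toIntLinearEquiv (fun γ₀ => by
    ext f
    rfl)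

lemma JqCoindIso_hom_apply (ι : Emb q L) (f : Jq q L) (γ : L ≃ₐ[ℚ] L) :
    (((JqCoindIso ι).hom.hom (Additive.ofMul f) : Rep.coind (decomp ι).subtype (locRep ι)).1 γ)
      = Additive.ofMul (toCoindFun ι f γ) := rfl

/-- evaluation at `ι`: the `D_q`-equivariant map `J_q(L) → L_q^×` -/
def evRep (ι : Emb q L) : Rep.res (decomp ι).subtype (JqRep q L) ⟶ locRep ι :=
  Rep.ofHom ⟨(AddMonoidHom.toIntLinearMap
    { toFun := fun f => Additive.ofMul (toCoindFun ι (Additive.toMul f) 1)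
      map_zero' := (congrArg (fun F => F.1 1) (toCoind ι).map_zero)
      map_add' := fun f g => (congrArg (fun F => F.1 1) ((toCoind ι).map_add f g)) } :
      Additive (Jq q L) →ₗ[ℤ] Additive (localField q L ι)ˣ), fun g => by
    ext (f : Additive (Jq q L))
    have h := toCoindFun_mul ι (Additive.toMul f) g 1
    rw [mul_one] at h
    change Additive.ofMul (toCoindFun ι ((g : L ≃ₐ[ℚ] L) • Additive.toMul f) 1) =
      Additive.ofMul ((decompEquiv ι).symm g • toCoindFun ι (Additive.toMul f) 1)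
    rw [← h]
    rfl⟩

lemma evRep_apply (ι : Emb q L) (f : Jq q L) :
    (((Additive.toMul ((evRep ι).hom (Additive.ofMul f)) : (localField q L ι)ˣ) :
      localField q L ι) : PadicAlgCl q) = f.1 ι := rfl

open groupCohomology CategoryTheory

/-- the local component map `H²(Aut(L/ℚ), J_q(L)) → H²(D_q, L_q^×)`:
restriction to `D_q` followed by evaluation at `ι` -/
def loc₂ (ι : Emb q L) : H2 (JqRep q L) ⟶ H2 (locRep ι) :=
  groupCohomology.map (decomp ι).subtype (evRep ι) 2

lemma loc₂_eq (ι : Emb q L) :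
    loc₂ ι = groupCohomology.map (A := JqRep q L) (MonoidHom.id (L ≃ₐ[ℚ] L)) (JqCoindIso ι).hom 2 ≫
      shapiro₂ (decomp ι) (locRep ι) := by
  unfold loc₂ shapiro₂
  rw [← groupCohomology.map_comp]
  apply groupCohomology.map_congr
  · rfl
  · ext f
    rfl

theorem loc₂_bijective (ι : Emb q L) [Finite (H2 (locRep ι))] :
    Function.Bijective (loc₂ ι) := by
  rw [loc₂_eq]
  have h1 : Function.Bijective
      (groupCohomology.map (A := JqRep q L) (MonoidHom.id (L ≃ₐ[ℚ] L)) (JqCoindIso ι).hom 2) := by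
    have : IsIso (groupCohomology.map (A := JqRep q L) (MonoidHom.id (L ≃ₐ[ℚ] L)) (JqCoindIso ι).hom 2) := by
      have := (groupCohomology.functor ℤ (L ≃ₐ[ℚ] L) 2).map_isIso (JqCoindIso ι).hom
      exact this
    exact ConcreteCategory.bijective_of_isIso _
  exact (shapiro₂_bijective (S := decomp ι) (A := locRep ι)).comp h1

end Shapiro

end Fermat.Agent.S55lib.Recip
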