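import Mathlib

/-!
# S55lib / Recip / Elementary

Elementary number theory used by the reciprocity block: orders modulo prime powers,
auxiliary primes, primes with a `ℓ`-adic root of a separable polynomial, Hensel roots.
-/

set_option autoImplicit false

namespace Fermat.Agent.S55lib.Recip

open Polynomial

/-- If `x` is a unit mod `p^t` whose order is not divisible by `p^k` then its order divides
`p^(k-1) * (p-1)`. -/
lemma orderOf_dvd_of_not_pow_dvd {p : ℕ} (hp : p.Prime) {t k : ℕ} (hk : 0 < k)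
    (x : (ZMod (p ^ t))ˣ) (h : ¬ p ^ k ∣ orderOf x) : orderOf x ∣ p ^ (k - 1) * (p - 1) := by
  rcases Nat.eq_zero_or_pos t with ht | ht
  · subst ht
    have : Subsingleton (ZMod (p ^ 0))ˣ := by
      rw [pow_zero]; infer_instance
    rw [Subsingleton.elim x 1, orderOf_one]; exact one_dvd _
  have hcard : orderOf x ∣ p ^ (t - 1) * (p - 1) := by
    have : NeZero (p ^ t) := ⟨pow_ne_zero _ hp.ne_zero⟩
    have h1 := orderOf_dvd_card (x := x)
    rwa [ZMod.card_units_eq_totient, Nat.totient_prime_pow hp ht] at h1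
  have hpos : orderOf x ≠ 0 := by
    intro h0; rw [h0] at hcard
    have := Nat.eq_zero_of_zero_dvd hcard
    have h2 : p ^ (t - 1) * (p - 1) ≠ 0 :=
      Nat.mul_ne_zero (pow_ne_zero _ hp.ne_zero) (by have := hp.two_le; omega)
    exact h2 this
  obtain ⟨j, d, hd, hjd⟩ := Nat.exists_eq_pow_mul_and_not_dvd hpos p hp.ne_one
  have hj : j < k := by
    by_contra hjk
    rw [not_lt] at hjk
    exact h (hjd ▸ Dvd.dvd.mul_right (pow_dvd_pow p hjk) d)
  have hd' : d ∣ p - 1 := by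
    have h1 : d ∣ p ^ (t - 1) * (p - 1) := Dvd.dvd.trans ⟨p ^ j, by rw [hjd, mul_comm]⟩ hcard
    have hcop : Nat.Coprime d (p ^ (t - 1)) :=
      Nat.Coprime.pow_right _ ((Nat.Prime.coprime_iff_not_dvd hp).2 hd).symm
    exact hcop.dvd_of_dvd_mul_left h1
  rw [hjd]
  exact Nat.mul_dvd_mul (pow_dvd_pow p (by omega)) hd'

/-- **(E2)** For `u > 1` prime to `p`, the order of `u` modulo `p^t` is divisible by `p^k`
as soon as `p^t > u ^ (p^(k-1) * (p-1))`. -/
theorem pow_dvd_orderOf_of_lt {p : ℕ} (hp : p.Prime) {u : ℕ} (hu : 1 < u) {t k : ℕ} (hk : 0 < k)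
    (ht : u ^ (p ^ (k - 1) * (p - 1)) < p ^ t) (x : (ZMod (p ^ t))ˣ)
    (hx : (x : ZMod (p ^ t)) = (u : ZMod (p ^ t))) : p ^ k ∣ orderOf x := by
  by_contra h
  have h1 := orderOf_dvd_of_not_pow_dvd hp hk x h
  have h2 : x ^ (p ^ (k - 1) * (p - 1)) = 1 := orderOf_dvd_iff_pow_eq_one.1 h1
  have h3 : ((u ^ (p ^ (k - 1) * (p - 1)) : ℕ) : ZMod (p ^ t)) = ((1 : ℕ) : ZMod (p ^ t)) := by
    have := congrArg (fun y : (ZMod (p ^ t))ˣ => (y : ZMod (p ^ t))) h2
    simp only [Units.val_pow_eq_pow_val, hx, Units.val_one] at this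
    push_cast
    exact this
  rw [ZMod.natCast_eq_natCast_iff] at h3
  have h4 : 1 < u ^ (p ^ (k - 1) * (p - 1)) := by
    apply Nat.one_lt_pow _ hu
    exact Nat.mul_ne_zero (pow_ne_zero _ hp.ne_zero) (by have := hp.two_le; omega)
  have h5 := (Nat.modEq_iff_dvd' h4.le).1 h3.symm
  have h6 := Nat.le_of_dvd (by omega) h5
  omega


/-- **(E1)** For a prime `p`, `k` and a bound `B` there is a prime `ℓ > B`, `ℓ ≠ p`, such that the
order of `p` modulo `ℓ` is `p ^ J` with `J ≥ k`. -/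
theorem exists_prime_orderOf_eq_pow {p : ℕ} (hp : p.Prime) (k B : ℕ) :
    ∃ ℓ : ℕ, ℓ.Prime ∧ B < ℓ ∧ ℓ ≠ p ∧ ∃ J : ℕ, k ≤ J ∧
      ∀ x : (ZMod ℓ)ˣ, (x : ZMod ℓ) = (p : ZMod ℓ) → orderOf x = p ^ J := by
  obtain ⟨J', hJ'⟩ : ∃ J' : ℕ, k ≤ J' + 1 ∧ B < p ^ (J' + 1) := by
    refine ⟨max k B, by omega, ?_⟩
    calc B < 2 ^ B := Nat.lt_two_pow_self
      _ ≤ 2 ^ (max k B + 1) := Nat.pow_le_pow_right (by norm_num) (by omega)
      _ ≤ p ^ (max k B + 1) := Nat.pow_le_pow_left hp.two_le _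
  set w : ℕ := p ^ (p ^ J') with hw
  set S : ℕ := ∑ i ∈ Finset.range p, w ^ i with hS
  have hpw : p ∣ w := dvd_pow_self p (pow_ne_zero _ hp.ne_zero)
  have hS1 : S % p = 1 := by
    have : (S : ZMod p) = 1 := by
      rw [hS]; push_cast
      have hw0 : (w : ZMod p) = 0 := (ZMod.natCast_eq_zero_iff _ _).2 hpw
      rw [hw0, Finset.sum_eq_single 0]
      · simp
      · intro i _ hi; exact zero_pow hi
      · intro h; exfalso; exact h (Finset.mem_range.2 hp.pos)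
    have h2 : ((S : ℕ) : ZMod p) = ((1 : ℕ) : ZMod p) := by simpa using this
    rw [ZMod.natCast_eq_natCast_iff, Nat.ModEq, Nat.mod_eq_of_lt hp.one_lt] at h2
    exact h2
  have hSne : S ≠ 1 := by
    intro h
    have : w ^ 1 ≤ S := by
      rw [hS]
      exact Finset.single_le_sum (f := fun i => w ^ i) (fun _ _ => Nat.zero_le _)
        (Finset.mem_range.2 hp.one_lt)
    have hw2 : 2 ≤ w := le_trans hp.two_le (Nat.le_of_dvd (pow_pos hp.pos _) hpw)
    rw [pow_one] at this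
    omega
  obtain ⟨ℓ, hℓ, hℓS⟩ := Nat.exists_prime_and_dvd hSne
  have hℓp : ℓ ≠ p := by
    rintro rfl
    have := Nat.mod_eq_zero_of_dvd hℓS
    omega
  have : Fact ℓ.Prime := ⟨hℓ⟩
  have : Fact p.Prime := ⟨hp⟩
  have hS0 : (S : ZMod ℓ) = 0 := (ZMod.natCast_eq_zero_iff _ _).2 hℓS
  have hgeom : ((w : ZMod ℓ) - 1) * (S : ZMod ℓ) = (w : ZMod ℓ) ^ p - 1 := by
    rw [hS]; push_cast
    rw [mul_comm]; exact geom_sum_mul _ _
  have hwp : (w : ZMod ℓ) ^ p = 1 := by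
    rw [hS0, mul_zero] at hgeom
    exact (sub_eq_zero.1 hgeom.symm)
  have hw1 : (w : ZMod ℓ) ≠ 1 := by
    intro h
    have : (S : ZMod ℓ) = (p : ZMod ℓ) := by
      rw [hS]; push_cast; rw [h]; simp
    rw [hS0] at this
    have := (ZMod.natCast_eq_zero_iff _ _).1 this.symm
    exact hℓp ((Nat.prime_dvd_prime_iff_eq hℓ hp).1 this)
  refine ⟨ℓ, hℓ, ?_, hℓp, J' + 1, hJ'.1, ?_⟩
  · -- ℓ > B
    have hpu : IsUnit (p : ZMod ℓ) := by
      rw [ZMod.isUnit_iff_coprime]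
      exact (Nat.coprime_primes hp hℓ).2 hℓp.symm
    obtain ⟨x, hx⟩ := hpu
    have hord : orderOf x = p ^ (J' + 1) := by
      apply orderOf_eq_prime_pow
      · intro h
        apply hw1
        have := congrArg (fun y : (ZMod ℓ)ˣ => (y : ZMod ℓ)) h
        simp only [Units.val_pow_eq_pow_val, hx, Units.val_one] at this
        rw [hw]; push_cast; exact this
      · apply Units.ext
        rw [Units.val_pow_eq_pow_val, hx, Units.val_one, pow_succ, pow_mul]
        rw [hw] at hwp; push_cast at hwp; exact hwp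
    have h1 := orderOf_dvd_card (x := x)
    rw [ZMod.card_units_eq_totient, Nat.totient_prime hℓ, hord] at h1
    have h2 := Nat.le_of_dvd (by have := hℓ.two_le; omega) h1
    omega
  · intro x hx
    apply orderOf_eq_prime_pow
    · intro h
      apply hw1
      have := congrArg (fun y : (ZMod ℓ)ˣ => (y : ZMod ℓ)) h
      simp only [Units.val_pow_eq_pow_val, hx, Units.val_one] at this
      rw [hw]; push_cast; exact this
    · apply Units.ext
      rw [Units.val_pow_eq_pow_val, hx, Units.val_one, pow_succ, pow_mul]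
      rw [hw] at hwp; push_cast at hwp; exact hwp



/-- A nonconstant integer polynomial has values divisible by arbitrarily large primes. -/
theorem exists_prime_gt_dvd_eval (f : ℤ[X]) (hf : 0 < f.natDegree) (B : ℕ) :
    ∃ ℓ : ℕ, ℓ.Prime ∧ B < ℓ ∧ ∃ c : ℤ, (ℓ : ℤ) ∣ f.eval c := by
  set a₀ : ℤ := f.eval 0 with ha₀
  by_cases h0 : a₀ = 0
  · obtain ⟨ℓ, hℓB, hℓ⟩ := Nat.exists_infinite_primes (B + 1)
    exact ⟨ℓ, hℓ, by omega, 0, by rw [← ha₀, h0]; exact dvd_zero _⟩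
  set P : ℤ := (B.factorial : ℤ) with hP
  have hP0 : P ≠ 0 := by rw [hP]; exact_mod_cast B.factorial_ne_zero
  -- the polynomial F(Y) = f(a₀ P Y)
  set F : ℤ[X] := f.comp (C (a₀ * P) * X) with hF
  have hFdeg : F.natDegree = f.natDegree := by
    rw [hF, natDegree_comp, natDegree_C_mul_X _ (mul_ne_zero h0 hP0), mul_one]
  have hFeval : ∀ y : ℤ, F.eval y = f.eval (a₀ * P * y) := by
    intro y; rw [hF, eval_comp]; simp
  -- find y with F(y) ∉ {0, a₀, -a₀}  or F(y) = 0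
  have hne : F * (F - C a₀) * (F + C a₀) ≠ 0 := by
    have h1 : F ≠ 0 := by
      intro h; rw [h, natDegree_zero] at hFdeg; omega
    have h2 : F - C a₀ ≠ 0 := by
      intro h
      have : F = C a₀ := sub_eq_zero.1 h
      rw [this, natDegree_C] at hFdeg; omega
    have h3 : F + C a₀ ≠ 0 := by
      intro h
      have : F = C (-a₀) := by rw [C_neg]; exact eq_neg_of_add_eq_zero_left h
      rw [this, natDegree_C] at hFdeg; omega
    exact mul_ne_zero (mul_ne_zero h1 h2) h3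
  obtain ⟨y, hy⟩ : ∃ y : ℤ, (F * (F - C a₀) * (F + C a₀)).eval y ≠ 0 := by
    by_contra hcon
    push Not at hcon
    exact hne (Polynomial.funext (fun y => by rw [hcon y, eval_zero]))
  simp only [eval_mul, eval_sub, eval_add, eval_C, mul_ne_zero_iff] at hy
  obtain ⟨⟨hy0, hy1⟩, hy2⟩ := hy
  -- F(y) = a₀ (1 + P y h)
  have hdvd : a₀ * P * y - 0 ∣ f.eval (a₀ * P * y) - f.eval 0 := sub_dvd_eval_sub _ _ _
  rw [sub_zero, ← ha₀, ← hFeval] at hdvd
  obtain ⟨h, hh⟩ := hdvd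
  have hFy : F.eval y = a₀ * (1 + P * (y * h)) := by
    have : F.eval y = a₀ + a₀ * P * y * h := by rw [← hh]; ring
    rw [this]; ring
  set g : ℤ := 1 + P * (y * h) with hg
  have hg1 : g ≠ 1 := by
    intro h1; apply hy1; rw [hFy, h1]; ring
  have hg2 : g ≠ -1 := by
    intro h1; apply hy2; rw [hFy, h1]; ring
  have hg0 : g ≠ 0 := by
    intro h1; apply hy0; rw [hFy, h1]; ring
  have hgabs : g.natAbs ≠ 1 := by
    intro h1
    rcases Int.natAbs_eq g with h2 | h2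
    · rw [h1] at h2; exact hg1 (by simpa using h2)
    · rw [h1] at h2; exact hg2 (by simpa using h2)
  obtain ⟨ℓ, hℓ, hℓg⟩ := Nat.exists_prime_and_dvd hgabs
  have hℓg' : (ℓ : ℤ) ∣ g := Int.natCast_dvd.2 hℓg
  refine ⟨ℓ, hℓ, ?_, a₀ * P * y, ?_⟩
  · by_contra hle
    rw [not_lt] at hle
    have h1 : (ℓ : ℤ) ∣ P := by
      rw [hP]
      exact_mod_cast (Nat.dvd_factorial hℓ.pos hle)
    have h2 : (ℓ : ℤ) ∣ 1 := by
      have : (1 : ℤ) = g - P * (y * h) := by rw [hg]; ring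
      rw [this]
      exact dvd_sub hℓg' (Dvd.dvd.mul_right h1 _)
    have := Int.natCast_dvd_natCast.1 (by simpa using h2 : ((ℓ : ℕ) : ℤ) ∣ ((1 : ℕ) : ℤ))
    exact hℓ.one_lt.ne' (Nat.dvd_one.1 this)
  · rw [← hFeval, hFy]
    exact Dvd.dvd.mul_left hℓg' _



/-- Integral Bezout relation for a polynomial separable over `ℚ`. -/
theorem exists_bezout_int (f : ℤ[X]) (hsep : (f.map (Int.castRingHom ℚ)).Separable) :
    ∃ (U V : ℤ[X]) (D : ℤ), D ≠ 0 ∧ U * f + V * derivative f = C D := by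
  obtain ⟨a, b, hab⟩ := hsep
  obtain ⟨dA, hdA, hA⟩ := IsLocalization.integerNormalization_spec (nonZeroDivisors ℤ) a
  obtain ⟨dB, hdB, hB⟩ := IsLocalization.integerNormalization_spec (nonZeroDivisors ℤ) b
  set A := IsLocalization.integerNormalization (nonZeroDivisors ℤ) a
  set Bp := IsLocalization.integerNormalization (nonZeroDivisors ℤ) b
  refine ⟨dB • A, dA • Bp, dA * dB, ?_, ?_⟩
  · exact mul_ne_zero (nonZeroDivisors.ne_zero hdA) (nonZeroDivisors.ne_zero hdB)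
  · apply Polynomial.map_injective (algebraMap ℤ ℚ) Int.cast_injective
    rw [Polynomial.map_add, Polynomial.map_mul, Polynomial.map_mul, Polynomial.map_smul,
      Polynomial.map_smul, hA, hB, ← derivative_map]
    have hab' : a * f.map (algebraMap ℤ ℚ) + b * derivative (f.map (algebraMap ℤ ℚ)) = 1 := hab
    have e : algebraMap ℤ ℚ dB • dA • a * map (algebraMap ℤ ℚ) f
        + algebraMap ℤ ℚ dA • dB • b * derivative (map (algebraMap ℤ ℚ) f)
        = ((dA : ℚ) * (dB : ℚ)) • (a * f.map (algebraMap ℤ ℚ)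
          + b * derivative (f.map (algebraMap ℤ ℚ))) := by
      simp only [Algebra.smul_def, eq_intCast, algebraMap_int_eq, map_intCast]
      simp only [map_mul, map_intCast]
      ring
    rw [e, hab']
    simp [smul_eq_C_mul]

/-- **(S)** A nonconstant integer polynomial which is separable over `ℚ` has a root in `ℤ_ℓ`
for arbitrarily large primes `ℓ`. -/
theorem exists_prime_gt_root_padicInt (f : ℤ[X]) (hf : 0 < f.natDegree)
    (hsep : (f.map (Int.castRingHom ℚ)).Separable) (B : ℕ) :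
    ∃ (ℓ : ℕ) (_ : Fact ℓ.Prime), B < ℓ ∧ ∃ z : ℤ_[ℓ], aeval z f = 0 := by
  obtain ⟨U, V, D, hD, hUV⟩ := exists_bezout_int f hsep
  obtain ⟨ℓ, hℓ, hℓB, c, hc⟩ := exists_prime_gt_dvd_eval f hf (max B D.natAbs)
  have hFact : Fact ℓ.Prime := ⟨hℓ⟩
  refine ⟨ℓ, hFact, lt_of_le_of_lt (le_max_left _ _) hℓB, ?_⟩
  have hℓD : ¬ (ℓ : ℤ) ∣ D := by
    intro h
    have h1 := Int.natAbs_dvd_natAbs.2 h
    rw [Int.natAbs_natCast] at h1
    have h2 := Nat.le_of_dvd (Int.natAbs_pos.2 hD) h1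
    have := lt_of_le_of_lt (le_max_right B D.natAbs) hℓB
    omega
  have hder : ¬ (ℓ : ℤ) ∣ (derivative f).eval c := by
    intro h
    apply hℓD
    have := congrArg (eval c) hUV
    simp only [eval_add, eval_mul, eval_C] at this
    rw [← this]
    exact dvd_add (Dvd.dvd.mul_left hc _) (Dvd.dvd.mul_left h _)
  -- Hensel
  have haeval : ∀ g : ℤ[X], aeval (c : ℤ_[ℓ]) g = ((g.eval c : ℤ) : ℤ_[ℓ]) := by
    intro g
    rw [← eq_intCast (algebraMap ℤ ℤ_[ℓ]) c, aeval_algebraMap_apply, eq_intCast]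
    simp
  have h1 : ‖aeval (c : ℤ_[ℓ]) f‖ < 1 := by
    have : aeval (c : ℤ_[ℓ]) f = ((f.eval c : ℤ) : ℤ_[ℓ]) := haeval f
    rw [this, PadicInt.norm_int_lt_one_iff_dvd]
    exact hc
  have h2 : ‖aeval (c : ℤ_[ℓ]) (derivative f)‖ = 1 := by
    have : aeval (c : ℤ_[ℓ]) (derivative f) = (((derivative f).eval c : ℤ) : ℤ_[ℓ]) :=
      haeval _
    rw [this]
    apply le_antisymm (PadicInt.norm_le_one _)
    by_contra hlt
    rw [not_le] at hlt
    exact hder ((PadicInt.norm_int_lt_one_iff_dvd _).1 hlt)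
  obtain ⟨z, hz, -⟩ := hensels_lemma (F := f) (a := (c : ℤ_[ℓ])) (by rw [h2]; simpa using h1)
  exact ⟨z, hz⟩


/-- **(P1)** `m`-th roots of `ℓ`-adic integers close to `1`. -/
theorem exists_pow_eq_of_norm_sub_one_lt {ℓ : ℕ} [Fact ℓ.Prime] (m : ℕ) (u : ℤ_[ℓ])
    (hu : ‖u - 1‖ < ‖(m : ℤ_[ℓ])‖ ^ 2) : ∃ y : ℤ_[ℓ], y ^ m = u := by
  have h1 : aeval (1 : ℤ_[ℓ]) (X ^ m - C u : ℤ_[ℓ][X]) = 1 - u := by simp
  have h2 : aeval (1 : ℤ_[ℓ]) (derivative (X ^ m - C u : ℤ_[ℓ][X])) = (m : ℤ_[ℓ]) := by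
    simp [derivative_X_pow]
  obtain ⟨z, hz, -⟩ := hensels_lemma (F := (X ^ m - C u : ℤ_[ℓ][X])) (a := (1 : ℤ_[ℓ]))
    (by rw [h1, h2, norm_sub_rev]; exact hu)
  refine ⟨z, ?_⟩
  have : aeval z (X ^ m - C u : ℤ_[ℓ][X]) = z ^ m - u := by simp
  rw [this] at hz
  exact sub_eq_zero.1 hz

end Fermat.Agent.S55lib.Recip
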