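/-
S55 sprint, block K9 (reciprocity, invariant-free route #lead-122), R2 definitions (helper2).

The local components of the arithmetic Artin map `Φ` attached to a homomorphism
`lam : (ℤ/p^(m+1))ˣ →* Multiplicative (ℤ/p^m)`:
* `valHom : ℚ_qˣ →* Multiplicative ℤ` the valuation, `unitPart : ℚ_qˣ →* ℤ_qˣ` the unit part
  (`a = q^{v(a)} · unitPart a`);
* `phiWild p m lam : ℚ_pˣ →* Multiplicative (ℤ/p^m)`, `a ↦ lam (unitPart a mod p^(m+1))`;
* `phiTame p m lam q : ℚ_qˣ →* Multiplicative (ℤ/p^m)`, `a ↦ lam (q mod p^(m+1)) ^ (-v_q a)`;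
* `phiLoc p m lam q` := `phiWild` if `q = p`, `phiTame` otherwise (`phiLoc_self`, `phiLoc_of_ne`);
* **`LNAt p m lam q K`** : `Φ_q` kills the norms from the local field `K ⊂ ℚ̄_q`;
  **`LN p m lam M`** : `LNAt` at every `localField q M ι` (the statement (LN) of #lead-122).
-/
import Mathlib
import Fermat.Agent.S55lib.Iface.Layers
import Fermat.Agent.S55lib.Places.PadicPow
import Fermat.Agent.S55lib.FirstIneq.CycloArith

set_option autoImplicit false

noncomputable section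

namespace Fermat.Agent.S55lib.Recip

open Fermat.Agent.S55lib Fermat.Agent.S55lib.Places Fermat.Agent.S55lib.CycloArith

section Local

variable {q : ℕ} [hq : Fact q.Prime]

/-- the valuation `ℚ_qˣ → ℤ` as a homomorphism -/
def valHom : ℚ_[q]ˣ →* Multiplicative ℤ where
  toFun a := Multiplicative.ofAdd (a : ℚ_[q]).valuation
  map_one' := by
    rw [Units.val_one, Padic.valuation_one]
    rfl
  map_mul' a b := by
    rw [Units.val_mul, Padic.valuation_mul a.ne_zero b.ne_zero]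
    rfl

@[simp] theorem toAdd_valHom (a : ℚ_[q]ˣ) :
    Multiplicative.toAdd (valHom a) = (a : ℚ_[q]).valuation := rfl

theorem norm_mul_zpow_neg_valuation (a : ℚ_[q]ˣ) :
    ‖(a : ℚ_[q]) * (q : ℚ_[q]) ^ (-(a : ℚ_[q]).valuation)‖ = 1 := by
  have hqpos : (0 : ℝ) < q := by exact_mod_cast hq.out.pos
  rw [norm_mul, norm_zpow, Padic.norm_eq_zpow_neg_valuation a.ne_zero, Padic.norm_p,
    inv_zpow', neg_neg, ← zpow_add₀ hqpos.ne', neg_add_cancel, zpow_zero]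

/-- the unit part of `a`, `a · q^{-v(a)}`, as an element of `ℤ_qˣ` -/
def unitPartFun (a : ℚ_[q]ˣ) : ℤ_[q]ˣ := PadicInt.mkUnits (norm_mul_zpow_neg_valuation a)

theorem coe_unitPartFun (a : ℚ_[q]ˣ) :
    (((unitPartFun a : ℤ_[q]ˣ) : ℤ_[q]) : ℚ_[q]) =
      (a : ℚ_[q]) * (q : ℚ_[q]) ^ (-(a : ℚ_[q]).valuation) :=
  PadicInt.mkUnits_eq _

/-- the unit part `ℚ_qˣ → ℤ_qˣ`, `a ↦ a · q^{-v(a)}` -/
def unitPart : ℚ_[q]ˣ →* ℤ_[q]ˣ where
  toFun := unitPartFun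
  map_one' := by
    apply Units.ext
    apply PadicInt.ext
    rw [coe_unitPartFun, Units.val_one, Padic.valuation_one, neg_zero, zpow_zero, mul_one]
    rfl
  map_mul' a b := by
    have hq0 : (q : ℚ_[q]) ≠ 0 := by exact_mod_cast hq.out.ne_zero
    apply Units.ext
    apply PadicInt.ext
    rw [Units.val_mul, PadicInt.coe_mul, coe_unitPartFun, coe_unitPartFun, coe_unitPartFun,
      Units.val_mul, Padic.valuation_mul a.ne_zero b.ne_zero, neg_add, zpow_add₀ hq0]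
    ring

theorem coe_unitPart (a : ℚ_[q]ˣ) :
    (((unitPart a : ℤ_[q]ˣ) : ℤ_[q]) : ℚ_[q]) =
      (a : ℚ_[q]) * (q : ℚ_[q]) ^ (-(a : ℚ_[q]).valuation) :=
  coe_unitPartFun a

/-- `a = q^{v(a)} · unitPart a` -/
theorem eq_unifQ_zpow_mul_unitPart (a : ℚ_[q]ˣ) :
    a = (unifQ : ℚ_[q]ˣ) ^ (a : ℚ_[q]).valuation * unitsIncl (unitPart a) := by
  have hq0 : (q : ℚ_[q]) ≠ 0 := by exact_mod_cast hq.out.ne_zero
  apply Units.ext
  rw [Units.val_mul, Units.val_zpow_eq_zpow_val, coe_unifQ, coe_unitsIncl, coe_unitPart,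
    mul_comm ((q : ℚ_[q]) ^ _), mul_assoc, ← zpow_add₀ hq0, neg_add_cancel, zpow_zero, mul_one]

theorem valuation_unitsIncl (u : ℤ_[q]ˣ) : ((unitsIncl u : ℚ_[q]ˣ) : ℚ_[q]).valuation = 0 := by
  have h1 : ‖((unitsIncl u : ℚ_[q]ˣ) : ℚ_[q])‖ = 1 := by
    rw [coe_unitsIncl, PadicInt.padic_norm_e_of_padicInt]
    exact PadicInt.norm_units u
  have h2 := Padic.norm_eq_zpow_neg_valuation (unitsIncl u : ℚ_[q]ˣ).ne_zero
  rw [h1] at h2
  have hq1 : (1 : ℝ) < q := by exact_mod_cast hq.out.one_lt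
  have h3 : (q : ℝ) ^ (0 : ℤ) = (q : ℝ) ^ (-((unitsIncl u : ℚ_[q]ˣ) : ℚ_[q]).valuation) := by
    rw [zpow_zero]; exact h2
  have h4 := zpow_right_injective₀ (by positivity : (0 : ℝ) < q) hq1.ne' h3
  omega

theorem valuation_unifQ_zpow_mul (j : ℤ) (u : ℤ_[q]ˣ) :
    ((((unifQ : ℚ_[q]ˣ) ^ j * unitsIncl u : ℚ_[q]ˣ)) : ℚ_[q]).valuation = j := by
  have hq0 : (q : ℚ_[q]) ≠ 0 := by exact_mod_cast hq.out.ne_zero
  rw [Units.val_mul, Padic.valuation_mul (Units.ne_zero _) (Units.ne_zero _), valuation_unitsIncl,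
    add_zero, Units.val_zpow_eq_zpow_val, coe_unifQ, Padic.valuation_zpow, Padic.valuation_p,
    mul_one]

theorem valHom_unifQ_zpow_mul (j : ℤ) (u : ℤ_[q]ˣ) :
    valHom ((unifQ : ℚ_[q]ˣ) ^ j * unitsIncl u) = Multiplicative.ofAdd j := by
  apply Multiplicative.toAdd.injective
  rw [toAdd_valHom, valuation_unifQ_zpow_mul]
  rfl

theorem unitPart_unifQ_zpow_mul (j : ℤ) (u : ℤ_[q]ˣ) :
    unitPart ((unifQ : ℚ_[q]ˣ) ^ j * unitsIncl u) = u := by
  have hq0 : (q : ℚ_[q]) ≠ 0 := by exact_mod_cast hq.out.ne_zero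
  apply Units.ext
  apply PadicInt.ext
  rw [coe_unitPart, valuation_unifQ_zpow_mul, Units.val_mul, Units.val_zpow_eq_zpow_val,
    coe_unifQ, coe_unitsIncl, mul_comm ((q : ℚ_[q]) ^ j), mul_assoc, ← zpow_add₀ hq0,
    add_neg_cancel, zpow_zero, mul_one]

theorem unitPart_unitsIncl (u : ℤ_[q]ˣ) : unitPart (unitsIncl u) = u := by
  have := unitPart_unifQ_zpow_mul (q := q) 0 u
  rwa [zpow_zero, one_mul] at this

theorem unitPart_unifQ : unitPart (unifQ : ℚ_[q]ˣ) = 1 := by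
  have := unitPart_unifQ_zpow_mul (q := q) 1 1
  rwa [zpow_one, map_one, mul_one] at this

theorem valHom_unifQ : valHom (unifQ : ℚ_[q]ˣ) = Multiplicative.ofAdd 1 := by
  have := valHom_unifQ_zpow_mul (q := q) 1 1
  rwa [zpow_one, map_one, mul_one] at this

theorem valHom_unitsIncl (u : ℤ_[q]ˣ) : valHom (unitsIncl u) = 1 := by
  have := valHom_unifQ_zpow_mul (q := q) 0 u
  rwa [zpow_zero, one_mul] at this

end Local

section Phi

variable (p : ℕ) [hp : Fact p.Prime] (m : ℕ)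
  (lam : (ZMod (p ^ (m + 1)))ˣ →* Multiplicative (ZMod (p ^ m)))

/-- the component of `Φ` at `p`: `a ↦ lam (unit part of a mod p^(m+1))` -/
def phiWild : ℚ_[p]ˣ →* Multiplicative (ZMod (p ^ m)) :=
  lam.comp ((unitsRed (q := p) (m + 1)).comp unitPart)

/-- the component of `Φ` at `q ≠ p`: `a ↦ lam (q mod p^(m+1)) ^ (-v_q a)` -/
def phiTame (q : ℕ) [Fact q.Prime] : ℚ_[q]ˣ →* Multiplicative (ZMod (p ^ m)) :=
  (zpowersHom (Multiplicative (ZMod (p ^ m))) (lam (natUnit (p ^ (m + 1)) q))⁻¹).comp valHom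

/-- the local component `Φ_q : ℚ_qˣ →* Multiplicative (ℤ/p^m)` of the arithmetic Artin map -/
def phiLoc (q : ℕ) [hq : Fact q.Prime] : ℚ_[q]ˣ →* Multiplicative (ZMod (p ^ m)) :=
  if h : q = p then by
    subst h
    exact phiWild q m lam
  else phiTame p m lam q

variable {p m}

@[simp] theorem phiWild_apply (a : ℚ_[p]ˣ) :
    phiWild p m lam a = lam (unitsRed (q := p) (m + 1) (unitPart a)) := rfl

omit hp in
@[simp] theorem phiTame_apply (q : ℕ) [Fact q.Prime] (a : ℚ_[q]ˣ) :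
    phiTame p m lam q a = (lam (natUnit (p ^ (m + 1)) q))⁻¹ ^ (a : ℚ_[q]).valuation := rfl

theorem phiLoc_self : phiLoc p m lam p = phiWild p m lam := by
  unfold phiLoc
  rw [dif_pos rfl]

theorem phiLoc_of_ne {q : ℕ} [Fact q.Prime] (hqp : q ≠ p) :
    phiLoc p m lam q = phiTame p m lam q := by
  unfold phiLoc
  rw [dif_neg hqp]

/-- `Φ_q` is trivial on the units `ℤ_qˣ` for `q ≠ p` -/
theorem phiLoc_unitsIncl_of_ne {q : ℕ} [Fact q.Prime] (hqp : q ≠ p) (u : ℤ_[q]ˣ) :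
    phiLoc p m lam q (unitsIncl u) = 1 := by
  rw [phiLoc_of_ne lam hqp, phiTame_apply, valuation_unitsIncl, zpow_zero]

/-- `Φ_q(q) = lam(q)⁻¹` for `q ≠ p` -/
theorem phiLoc_unifQ_of_ne {q : ℕ} [Fact q.Prime] (hqp : q ≠ p) :
    phiLoc p m lam q (unifQ : ℚ_[q]ˣ) = (lam (natUnit (p ^ (m + 1)) q))⁻¹ := by
  have h : ((unifQ : ℚ_[q]ˣ) : ℚ_[q]).valuation = 1 := by
    rw [coe_unifQ, Padic.valuation_p]
  rw [phiLoc_of_ne lam hqp, phiTame_apply, h, zpow_one]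

/-- `Φ_p(p) = 1` -/
theorem phiLoc_unifQ_self : phiLoc p m lam p (unifQ : ℚ_[p]ˣ) = 1 := by
  rw [phiLoc_self, phiWild_apply, unitPart_unifQ, map_one, map_one]

/-- `Φ_p(u) = lam (u mod p^(m+1))` for `u ∈ ℤ_pˣ` -/
theorem phiLoc_unitsIncl_self (u : ℤ_[p]ˣ) :
    phiLoc p m lam p (unitsIncl u) = lam (unitsRed (q := p) (m + 1) u) := by
  rw [phiLoc_self, phiWild_apply, unitPart_unitsIncl]

variable (p m)

/-- **(LN) at a local field** `K ⊂ ℚ̄_q`: `Φ_q` kills the norms from `K`. -/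
def LNAt (q : ℕ) [Fact q.Prime] (K : IntermediateField ℚ_[q] (PadicAlgCl q)) : Prop :=
  ∀ z : (↥K)ˣ, phiLoc p m lam q (Units.map (Algebra.norm ℚ_[q] : ↥K →* ℚ_[q]) z) = 1

/-- **(LN)** for a field `M` algebraic over `ℚ`: `Φ_q` kills the local norms from every completion
`localField q M ι` of `M`, for every prime `q`. -/
def LN (M : Type*) [Field M] [Algebra ℚ M] : Prop :=
  ∀ (q : ℕ) [Fact q.Prime] (ι : Emb q M), LNAt p m lam q (localField q M ι)

end Phi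

end Fermat.Agent.S55lib.Recip
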