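/-
S55 sprint, block K9 (reciprocity, invariant-free route #lead-122), R2 (helper2).

The arithmetic Artin map `Φ : I(ℚ) →* Multiplicative (ℤ/p^m)` attached to
`lam : (ℤ/p^(m+1))ˣ →* Multiplicative (ℤ/p^m)`:
* `jqRat q : Jq q ℚ ≃* ℚ_qˣ`;
* `Phi p m lam : Idele ℚ →* Multiplicative (ZMod (p^m))`, `x ↦ ∏_q Φ_q(x_q)` (`phiLoc`);
* `Phi_single`, `Phi_diagI` (`Φ` kills the principal ideles, `p` odd),
* `Phi_norm` : under `LN p m lam M`, `Φ` kills the norms of the ideles of `M`.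
-/
import Mathlib
import Fermat.Agent.S55lib.Recip.ArtinPhiDefs
import Fermat.Agent.S55lib.Dev.IdeleNorm

set_option autoImplicit false

noncomputable section

namespace Fermat.Agent.S55lib.Recip

open Fermat.Agent.S55lib Fermat.Agent.S55lib.Places Fermat.Agent.S55lib.CycloArith
  Fermat.Agent.S55lib.Dev

section JqRat

variable (q : ℕ) [hq : Fact q.Prime]

/-- the local field of `ℚ` is `ℚ_q` -/
theorem localField_rat (ι : Emb q ℚ) : localField q ℚ ι = ⊥ := by
  rw [eq_bot_iff]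
  unfold localField
  rw [IntermediateField.adjoin_le_iff]
  rintro _ ⟨r, rfl⟩
  rw [SetLike.mem_coe, IntermediateField.mem_bot]
  refine ⟨(r : ℚ_[q]), ?_⟩
  rw [map_ratCast]
  exact (eq_ratCast ι r).symm

/-- `ℚ_qˣ → J_q(ℚ)`, the constant functions -/
def ofRatJq : ℚ_[q]ˣ →* Jq q ℚ where
  toFun y := ⟨fun _ => Units.map (algebraMap ℚ_[q] (PadicAlgCl q) : ℚ_[q] →* PadicAlgCl q) y,
    fun d _ => (d.commutes (y : ℚ_[q])).symm⟩
  map_one' := by
    apply Subtype.ext
    funext ι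
    exact map_one _
  map_mul' a b := by
    apply Subtype.ext
    funext ι
    exact map_mul _ a b

@[simp] theorem ofRatJq_apply (y : ℚ_[q]ˣ) (ι : Emb q ℚ) :
    (((ofRatJq q y).1 ι : (PadicAlgCl q)ˣ) : PadicAlgCl q) =
      algebraMap ℚ_[q] (PadicAlgCl q) (y : ℚ_[q]) := rfl

theorem ofRatJq_bijective : Function.Bijective (ofRatJq q) := by
  constructor
  · intro a b h
    have h1 := congrArg (fun f : Jq q ℚ =>
      ((f.1 (Algebra.ofId ℚ (PadicAlgCl q)) : (PadicAlgCl q)ˣ) : PadicAlgCl q)) h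
    simp only [ofRatJq_apply] at h1
    exact Units.ext ((algebraMap ℚ_[q] (PadicAlgCl q)).injective h1)
  · intro f
    have hmem := Jq.val_mem_localField f.2 (Algebra.ofId ℚ (PadicAlgCl q))
    rw [localField_rat, IntermediateField.mem_bot] at hmem
    obtain ⟨y, hy⟩ := hmem
    have hy0 : y ≠ 0 := by
      rintro rfl
      rw [map_zero] at hy
      exact (Units.ne_zero _) hy.symm
    refine ⟨Units.mk0 y hy0, ?_⟩
    apply Subtype.ext
    funext ι
    apply Units.ext
    rw [ofRatJq_apply, Units.val_mk0, hy, Subsingleton.elim ι (Algebra.ofId ℚ (PadicAlgCl q))]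

/-- `J_q(ℚ) ≃ ℚ_qˣ` -/
def jqRat : Jq q ℚ ≃* ℚ_[q]ˣ := (MulEquiv.ofBijective (ofRatJq q) (ofRatJq_bijective q)).symm

theorem ofRatJq_jqRat (f : Jq q ℚ) : ofRatJq q (jqRat q f) = f :=
  (MulEquiv.ofBijective (ofRatJq q) (ofRatJq_bijective q)).apply_symm_apply f

theorem jqRat_ofRatJq (y : ℚ_[q]ˣ) : jqRat q (ofRatJq q y) = y :=
  (MulEquiv.ofBijective (ofRatJq q) (ofRatJq_bijective q)).symm_apply_apply y

/-- the defining property of `jqRat` -/
theorem algebraMap_jqRat (f : Jq q ℚ) (ι : Emb q ℚ) :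
    algebraMap ℚ_[q] (PadicAlgCl q) ((jqRat q f : ℚ_[q]ˣ) : ℚ_[q]) =
      ((f.1 ι : (PadicAlgCl q)ˣ) : PadicAlgCl q) := by
  conv_rhs => rw [← ofRatJq_jqRat q f]
  rfl

theorem jqRat_eq_iff (f : Jq q ℚ) (y : ℚ_[q]ˣ) (ι : Emb q ℚ) :
    jqRat q f = y ↔
      ((f.1 ι : (PadicAlgCl q)ˣ) : PadicAlgCl q) = algebraMap ℚ_[q] (PadicAlgCl q) (y : ℚ_[q]) := by
  constructor
  · rintro rfl
    exact (algebraMap_jqRat q f ι).symm
  · intro h
    rw [← algebraMap_jqRat q f ι] at h
    exact Units.ext ((algebraMap ℚ_[q] (PadicAlgCl q)).injective h)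

/-- `jqRat` of a principal element -/
theorem coe_jqRat_diag (a : ℚˣ) : ((jqRat q (diag q ℚ a) : ℚ_[q]ˣ) : ℚ_[q]) = ((a : ℚ) : ℚ_[q]) := by
  apply (algebraMap ℚ_[q] (PadicAlgCl q)).injective
  rw [algebraMap_jqRat q _ (Algebra.ofId ℚ (PadicAlgCl q)), diag_apply, map_ratCast]
  exact (eq_ratCast (Algebra.ofId ℚ (PadicAlgCl q)) (a : ℚ))

/-- units correspond to units -/
theorem norm_jqRat_eq_one {f : Jq q ℚ} (hf : f ∈ Uq q ℚ) : ‖((jqRat q f : ℚ_[q]ˣ) : ℚ_[q])‖ = 1 := by
  have h := hf (Algebra.ofId ℚ (PadicAlgCl q))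
  rw [← algebraMap_jqRat q f, PadicAlgCl.norm_extends] at h
  exact h

/-- a unit of `ℚ_q` of norm one comes from `ℤ_qˣ` -/
theorem exists_unitsIncl_eq {y : ℚ_[q]ˣ} (hy : ‖(y : ℚ_[q])‖ = 1) : ∃ u : ℤ_[q]ˣ, unitsIncl u = y :=
  ⟨PadicInt.mkUnits hy, Units.ext (PadicInt.mkUnits_eq hy)⟩

end JqRat

section Phi

variable (p : ℕ) [hp : Fact p.Prime] (m : ℕ)
  (lam : (ZMod (p ^ (m + 1)))ˣ →* Multiplicative (ZMod (p ^ m)))

/-- the factor of `Φ` at the prime `q` -/
def phiAt (q : Nat.Primes) : Idele ℚ →* Multiplicative (ZMod (p ^ m)) :=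
  ((phiLoc p m lam (q : ℕ)).comp (jqRat (q : ℕ)).toMonoidHom).comp (Idele.proj ℚ q)

variable {p m}

@[simp] theorem phiAt_apply (q : Nat.Primes) (x : Idele ℚ) :
    phiAt p m lam q x = phiLoc p m lam (q : ℕ) (jqRat (q : ℕ) (x.1 q)) := rfl

theorem phiAt_eq_one_of_mem_Uq {q : Nat.Primes} (hqp : (q : ℕ) ≠ p) {x : Idele ℚ}
    (hx : x.1 q ∈ Uq (q : ℕ) ℚ) : phiAt p m lam q x = 1 := by
  obtain ⟨u, hu⟩ := exists_unitsIncl_eq (q : ℕ) (norm_jqRat_eq_one (q : ℕ) hx)
  rw [phiAt_apply, ← hu, phiLoc_unitsIncl_of_ne lam hqp]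

theorem mulSupport_phiAt_finite (x : Idele ℚ) :
    (Function.mulSupport fun q : Nat.Primes => phiAt p m lam q x).Finite := by
  refine ((Idele.finite_notMem_Uq x).union (Set.finite_singleton (⟨p, hp.out⟩ : Nat.Primes))).subset ?_
  intro q hq
  by_contra hcon
  have h1 : x.1 q ∈ Uq (q : ℕ) ℚ := by
    by_contra h
    exact hcon (Set.mem_union_left _ h)
  apply hq
  apply phiAt_eq_one_of_mem_Uq lam _ h1
  intro h
  exact hcon (Set.mem_union_right _ (Subtype.ext h))

variable (p m)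

/-- **the arithmetic Artin map** `Φ : I(ℚ) →* Multiplicative (ℤ/p^m)` -/
def Phi : Idele ℚ →* Multiplicative (ZMod (p ^ m)) where
  toFun x := ∏ᶠ q : Nat.Primes, phiAt p m lam q x
  map_one' := by
    simp only [map_one]
    exact finprod_one
  map_mul' x y := by
    simp only [map_mul]
    exact finprod_mul_distrib (mulSupport_phiAt_finite lam x) (mulSupport_phiAt_finite lam y)

variable {p m}

theorem Phi_apply (x : Idele ℚ) : Phi p m lam x = ∏ᶠ q : Nat.Primes, phiAt p m lam q x := rfl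

/-- `Φ` as a finite product -/
theorem Phi_eq_prod (x : Idele ℚ) (T : Finset Nat.Primes)
    (hT : ∀ q : Nat.Primes, q ∉ T → phiAt p m lam q x = 1) :
    Phi p m lam x = ∏ q ∈ T, phiAt p m lam q x := by
  rw [Phi_apply]
  apply finprod_eq_prod_of_mulSupport_subset
  intro q hq
  by_contra hcon
  exact hq (hT q hcon)

/-- `Φ` on an idele concentrated at `q` -/
theorem Phi_single (q : Nat.Primes) (f : Jq (q : ℕ) ℚ) :
    Phi p m lam (Idele.single q f) = phiLoc p m lam (q : ℕ) (jqRat (q : ℕ) f) := by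
  rw [Phi_apply, finprod_eq_single _ q, phiAt_apply, Idele.single_apply_same]
  intro q' hne
  rw [phiAt_apply, Idele.single_apply_of_ne hne, map_one, map_one]

/-- if every local component is killed, so is the idele -/
theorem Phi_eq_one_of_forall (x : Idele ℚ) (h : ∀ q : Nat.Primes, phiAt p m lam q x = 1) :
    Phi p m lam x = 1 := by
  rw [Phi_apply]
  exact finprod_eq_one_of_forall_eq_one h

end Phi

section Diag

variable {p : ℕ} [hp : Fact p.Prime] {m : ℕ}
  (lam : (ZMod (p ^ (m + 1)))ˣ →* Multiplicative (ZMod (p ^ m)))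

theorem pow_self_multiplicative_zmod (n : ℕ) (x : Multiplicative (ZMod n)) : x ^ n = 1 := by
  apply Multiplicative.toAdd.injective
  rw [toAdd_pow, toAdd_one, nsmul_eq_mul, ZMod.natCast_self, zero_mul]

include hp in
/-- `lam (-1) = 1` for odd `p` -/
theorem lam_neg_one (hp2 : p ≠ 2) : lam (-1) = 1 := by
  have h2 : lam (-1) ^ 2 = 1 := by
    rw [← map_pow, neg_one_sq, map_one]
  have hpm : lam (-1) ^ (p ^ m) = 1 := pow_self_multiplicative_zmod _ _
  have hcop : Nat.Coprime 2 (p ^ m) := by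
    apply Nat.Coprime.pow_right
    rw [Nat.coprime_primes Nat.prime_two hp.out]
    exact fun h => hp2 h.symm
  have h1 := pow_gcd_eq_one.2 ⟨h2, hpm⟩
  rwa [hcop.gcd_eq_one, pow_one] at h1

include hp in
theorem lam_neg (hp2 : p ≠ 2) (u : (ZMod (p ^ (m + 1)))ˣ) : lam (-u) = lam u := by
  rw [← neg_one_mul, map_mul, lam_neg_one lam hp2, one_mul]

/-- the valuation of the `q`-component of a principal idele -/
theorem valuation_jqRat_diag (q : ℕ) [Fact q.Prime] (a : ℚˣ) :
    ((jqRat q (diag q ℚ a) : ℚ_[q]ˣ) : ℚ_[q]).valuation = padicValRat q (a : ℚ) := by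
  rw [coe_jqRat_diag, Padic.valuation_ratCast]

/-- the component of `Φ(a)` at `q ≠ p` -/
theorem phiAt_diagI_of_ne {q : Nat.Primes} (hqp : (q : ℕ) ≠ p) (a : ℚˣ) :
    phiAt p m lam q (diagI ℚ a) =
      (lam (natUnit (p ^ (m + 1)) q))⁻¹ ^ padicValRat q (a : ℚ) := by
  rw [phiAt_apply, diagI_apply, phiLoc_of_ne lam hqp, phiTame_apply, valuation_jqRat_diag]

/-- the component of `Φ(a)` at `p` -/
theorem phiAt_diagI_self (hp2 : p ≠ 2) (a : ℚˣ) :
    phiAt p m lam ⟨p, hp.out⟩ (diagI ℚ a) = lam (theta (p ^ (m + 1)) (a : ℚ)) := by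
  set y : ℚ_[p]ˣ := jqRat p (diag p ℚ a) with hy
  have h1 : phiAt p m lam ⟨p, hp.out⟩ (diagI ℚ a) = lam (unitsRed (q := p) (m + 1) (unitPart y)) := by
    change phiLoc p m lam p y = _
    rw [phiLoc_self, phiWild_apply]
  have h2 : (((a : ℚ) : ℚ) : ℚ_[p]) = (p : ℚ_[p]) ^ ((y : ℚ_[p]).valuation) *
      ((((unitPart y) ^ 1 : ℤ_[p]ˣ) : ℤ_[p]) : ℚ_[p]) := by
    have h3 := congrArg (fun z : ℚ_[p]ˣ => (z : ℚ_[p])) (eq_unifQ_zpow_mul_unitPart y)
    simp only [Units.val_mul, Units.val_zpow_eq_zpow_val, coe_unifQ, coe_unitsIncl] at h3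
    rw [pow_one, ← h3, hy, coe_jqRat_diag]
  rw [h1]
  rcases theta_eq_of_eq_zpow_mul_pow (q := p) (k := m + 1) (Nat.succ_ne_zero m) a.ne_zero _ _ 1 h2
    with h4 | h4
  · rw [h4, pow_one]
  · rw [h4, pow_one, lam_neg lam hp2]

omit hp in
/-- `lam ∘ theta` as a finite product -/
theorem lam_theta_eq_prod (a : ℚ) (T : Finset Nat.Primes)
    (hT : ∀ q : Nat.Primes, padicValRat q a ≠ 0 → q ∈ T) :
    lam (theta (p ^ (m + 1)) a) = ∏ q ∈ T, lam (natUnit (p ^ (m + 1)) q) ^ padicValRat q a := by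
  have h1 : theta (p ^ (m + 1)) a = ∏ q ∈ T, natUnit (p ^ (m + 1)) q ^ padicValRat q a := by
    unfold theta
    apply finprod_eq_prod_of_mulSupport_subset
    intro q hq
    apply Finset.mem_coe.2
    apply hT
    intro hcon
    apply hq
    show natUnit (p ^ (m + 1)) q ^ padicValRat q a = 1
    rw [hcon, zpow_zero]
  rw [h1, map_prod]
  exact Finset.prod_congr rfl fun q _ => map_zpow lam _ _

/-- **`Φ` kills the principal ideles** (`p` odd) -/
theorem Phi_diagI (hp2 : p ≠ 2) (a : ℚˣ) : Phi p m lam (diagI ℚ a) = 1 := by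
  classical
  set pp : Nat.Primes := ⟨p, hp.out⟩ with hpp
  set T : Finset Nat.Primes := insert pp (finite_padicValRat_ne_zero (a : ℚ)).toFinset with hT
  have hne : ∀ q : Nat.Primes, q ≠ pp → (q : ℕ) ≠ p := fun q hq h => hq (Subtype.ext h)
  have hT1 : ∀ q : Nat.Primes, padicValRat q (a : ℚ) ≠ 0 → q ∈ T := by
    intro q hq
    rw [hT, Finset.mem_insert]
    right
    rw [Set.Finite.mem_toFinset]
    exact hq
  have hT2 : ∀ q : Nat.Primes, q ∉ T → phiAt p m lam q (diagI ℚ a) = 1 := by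
    intro q hq
    have hqpp : q ≠ pp := by
      rintro rfl
      exact hq (Finset.mem_insert_self _ _)
    have hv : padicValRat q (a : ℚ) = 0 := by
      by_contra h
      exact hq (hT1 q h)
    rw [phiAt_diagI_of_ne lam (hne q hqpp), hv, zpow_zero]
  have hppT : pp ∈ T := Finset.mem_insert_self _ _
  rw [Phi_eq_prod lam _ T hT2, ← Finset.mul_prod_erase T _ hppT, phiAt_diagI_self lam hp2,
    lam_theta_eq_prod lam (a : ℚ) T hT1, ← Finset.mul_prod_erase T _ hppT,
    natUnit_prime_of_dvd hp.out (dvd_pow_self p (Nat.succ_ne_zero m)), map_one, one_zpow, one_mul,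
    ← Finset.prod_mul_distrib]
  apply Finset.prod_eq_one
  intro q hq
  rw [phiAt_diagI_of_ne lam (hne q (Finset.ne_of_mem_erase hq)), inv_zpow, mul_inv_cancel]

end Diag

section LocalNorm

variable {q : ℕ} [hq : Fact q.Prime]

/-- every `ℚ_q`-embedding of a subfield of `ℚ̄_q` extends to an element of `G_q` -/
theorem exists_galQq_extend (K : IntermediateField ℚ_[q] (PadicAlgCl q))
    (σ : K →ₐ[ℚ_[q]] PadicAlgCl q) : ∃ d : GalQq q, ∀ x : K, d (x : PadicAlgCl q) = σ x := by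
  let ψ : PadicAlgCl q →ₐ[ℚ_[q]] PadicAlgCl q := σ.liftNormal (PadicAlgCl q)
  have hbij : Function.Bijective ψ :=
    AlgHom.normal_bijective ℚ_[q] (PadicAlgCl q) (PadicAlgCl q) ψ
  refine ⟨AlgEquiv.ofBijective ψ hbij, fun x => ?_⟩
  exact AlgHom.liftNormal_commutes σ (PadicAlgCl q) x

variable {M : Type*} [Field M] [Algebra ℚ M]

theorem map_mem_localField' (ι : Emb q M) (x : M) : ι x ∈ localField q M ι :=
  IntermediateField.subset_adjoin _ _ ⟨x, rfl⟩

/-- the embedding `σ ∘ ι` for a `ℚ_q`-embedding `σ` of the local field at `ι` -/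
def Emb.twist (ι : Emb q M) (σ : localField q M ι →ₐ[ℚ_[q]] PadicAlgCl q) : Emb q M where
  toFun x := σ ⟨ι x, map_mem_localField' ι x⟩
  map_one' := by
    have : (⟨ι 1, map_mem_localField' ι 1⟩ : localField q M ι) = 1 := Subtype.ext (map_one ι)
    rw [this, map_one]
  map_mul' x y := by
    have : (⟨ι (x * y), map_mem_localField' ι (x * y)⟩ : localField q M ι) =
        ⟨ι x, map_mem_localField' ι x⟩ * ⟨ι y, map_mem_localField' ι y⟩ := Subtype.ext (map_mul ι x y)
    rw [this, map_mul]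
  map_zero' := by
    have : (⟨ι 0, map_mem_localField' ι 0⟩ : localField q M ι) = 0 := Subtype.ext (map_zero ι)
    rw [this, map_zero]
  map_add' x y := by
    have : (⟨ι (x + y), map_mem_localField' ι (x + y)⟩ : localField q M ι) =
        ⟨ι x, map_mem_localField' ι x⟩ + ⟨ι y, map_mem_localField' ι y⟩ := Subtype.ext (map_add ι x y)
    rw [this, map_add]
  commutes' r := by
    have : (⟨ι (algebraMap ℚ M r), map_mem_localField' ι _⟩ : localField q M ι) =
        algebraMap ℚ_[q] (localField q M ι) (r : ℚ_[q]) := by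
      apply Subtype.ext
      change ι (algebraMap ℚ M r) = algebraMap ℚ_[q] (PadicAlgCl q) (r : ℚ_[q])
      rw [AlgHom.commutes, map_ratCast, eq_ratCast]
    rw [this, AlgHom.commutes, map_ratCast, eq_ratCast]

@[simp] theorem Emb.twist_apply (ι : Emb q M) (σ : localField q M ι →ₐ[ℚ_[q]] PadicAlgCl q)
    (x : M) : Emb.twist ι σ x = σ ⟨ι x, map_mem_localField' ι x⟩ := rfl

theorem Emb.twist_eq_smul (ι : Emb q M) (σ : localField q M ι →ₐ[ℚ_[q]] PadicAlgCl q)
    (d : GalQq q) (hd : ∀ x : localField q M ι, d (x : PadicAlgCl q) = σ x) :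
    Emb.twist ι σ = d • ι := by
  ext x
  rw [Emb.twist_apply, Emb.smul_apply, ← hd]

theorem Emb.smul_eq_twist (ι : Emb q M) (d : GalQq q) :
    d • ι = Emb.twist ι
      ((d : PadicAlgCl q →ₐ[ℚ_[q]] PadicAlgCl q).comp (localField q M ι).val) := by
  ext x
  rfl

theorem Emb.twist_injective (ι : Emb q M) : Function.Injective (Emb.twist ι) := by
  intro σ σ' h
  apply IntermediateField.adjoin_algHom_ext
  rintro _ ⟨x, rfl⟩
  have := congrArg (fun κ : Emb q M => κ x) h
  exact this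

/-- the value of an equivariant function at a twisted embedding -/
theorem Jq.val_twist (f : Jq q M) (ι : Emb q M)
    (σ : localField q M ι →ₐ[ℚ_[q]] PadicAlgCl q) :
    ((f.1 (Emb.twist ι σ) : (PadicAlgCl q)ˣ) : PadicAlgCl q) =
      σ ⟨((f.1 ι : (PadicAlgCl q)ˣ) : PadicAlgCl q), Jq.val_mem_localField f.2 ι⟩ := by
  obtain ⟨d, hd⟩ := exists_galQq_extend (localField q M ι) σ
  rw [Emb.twist_eq_smul ι σ d hd, f.2 d ι, ← hd]

end LocalNorm

section Regroup

variable {q : ℕ} [hq : Fact q.Prime] {M : Type*} [Field M] [Algebra ℚ M] [FiniteDimensional ℚ M]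

theorem finiteDimensional_localField' (ι : Emb q M) :
    FiniteDimensional ℚ_[q] (localField q M ι) := by
  classical
  let b := Module.finBasis ℚ M
  set S : Set (PadicAlgCl q) := Set.range (fun i => ι (b i)) with hS
  have hfin : Finite S := Set.finite_range _
  have hint : ∀ x ∈ S, IsIntegral ℚ_[q] x := by
    rintro _ ⟨i, rfl⟩
    exact ((Algebra.IsIntegral.isIntegral (R := ℚ) (b i)).map ι).tower_top
  have hle : localField q M ι ≤ IntermediateField.adjoin ℚ_[q] S := by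
    unfold localField
    rw [IntermediateField.adjoin_le_iff]
    rintro _ ⟨x, rfl⟩
    rw [SetLike.mem_coe, ← b.sum_repr x, map_sum]
    apply sum_mem
    intro i _
    rw [map_smul, Algebra.smul_def]
    apply mul_mem
    · have : algebraMap ℚ (PadicAlgCl q) (b.repr x i) =
          algebraMap ℚ_[q] (PadicAlgCl q) ((b.repr x i : ℚ) : ℚ_[q]) := by
        rw [map_ratCast, eq_ratCast]
      rw [this]
      exact IntermediateField.algebraMap_mem _ _
    · exact IntermediateField.subset_adjoin _ _ ⟨i, rfl⟩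
  have : FiniteDimensional ℚ_[q] (IntermediateField.adjoin ℚ_[q] S) :=
    IntermediateField.finiteDimensional_adjoin hint
  exact Module.Finite.of_injective (IntermediateField.inclusion hle).toLinearMap
    (IntermediateField.inclusion hle).injective

/-- the value of `f` at `ι`, as a unit of the local field at `ι` -/
def Jq.localUnit (f : Jq q M) (ι : Emb q M) : (localField q M ι)ˣ where
  val := ⟨((f.1 ι : (PadicAlgCl q)ˣ) : PadicAlgCl q), Jq.val_mem_localField f.2 ι⟩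
  inv := ⟨(((f⁻¹).1 ι : (PadicAlgCl q)ˣ) : PadicAlgCl q), Jq.val_mem_localField (f⁻¹).2 ι⟩
  val_inv := by
    apply Subtype.ext
    change ((f.1 ι : (PadicAlgCl q)ˣ) : PadicAlgCl q) * (((f⁻¹).1 ι : (PadicAlgCl q)ˣ) : PadicAlgCl q) = 1
    rw [← Units.val_mul]
    change (((f * f⁻¹).1 ι : (PadicAlgCl q)ˣ) : PadicAlgCl q) = 1
    rw [mul_inv_cancel]
    rfl
  inv_val := by
    apply Subtype.ext
    change (((f⁻¹).1 ι : (PadicAlgCl q)ˣ) : PadicAlgCl q) * ((f.1 ι : (PadicAlgCl q)ˣ) : PadicAlgCl q) = 1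
    rw [← Units.val_mul]
    change (((f⁻¹ * f).1 ι : (PadicAlgCl q)ˣ) : PadicAlgCl q) = 1
    rw [inv_mul_cancel]
    rfl

omit [FiniteDimensional ℚ M] in
@[simp] theorem Jq.coe_localUnit (f : Jq q M) (ι : Emb q M) :
    (((Jq.localUnit f ι : (localField q M ι)ˣ) : localField q M ι) : PadicAlgCl q) =
      ((f.1 ι : (PadicAlgCl q)ˣ) : PadicAlgCl q) := rfl

open Classical in
/-- the product of `f` over the `G_q`-orbit of `ι₀` is the local norm of `f ι₀` -/
theorem prod_orbit_eq_norm (f : Jq q M) (ι₀ : Emb q M) :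
    ∏ ι ∈ Finset.univ.filter (fun ι : Emb q M =>
        (Quotient.mk (MulAction.orbitRel (GalQq q) (Emb q M)) ι) =
          Quotient.mk (MulAction.orbitRel (GalQq q) (Emb q M)) ι₀),
      ((f.1 ι : (PadicAlgCl q)ˣ) : PadicAlgCl q) =
    algebraMap ℚ_[q] (PadicAlgCl q)
      (Algebra.norm ℚ_[q] ((Jq.localUnit f ι₀ : (localField q M ι₀)ˣ) : localField q M ι₀)) := by
  have hfd : FiniteDimensional ℚ_[q] (localField q M ι₀) := finiteDimensional_localField' ι₀
  rw [Algebra.norm_eq_prod_embeddings ℚ_[q] (PadicAlgCl q)]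
  symm
  apply Finset.prod_bij (fun σ _ => Emb.twist ι₀ σ)
  · intro σ _
    rw [Finset.mem_filter]
    refine ⟨Finset.mem_univ _, ?_⟩
    obtain ⟨d, hd⟩ := exists_galQq_extend (localField q M ι₀) σ
    rw [Emb.twist_eq_smul ι₀ σ d hd]
    apply Quotient.sound
    exact ⟨d, rfl⟩
  · intro σ _ σ' _ h
    exact Emb.twist_injective ι₀ h
  · intro ι hι
    rw [Finset.mem_filter] at hι
    obtain ⟨d, hd⟩ := Quotient.exact hι.2
    refine ⟨(d : PadicAlgCl q →ₐ[ℚ_[q]] PadicAlgCl q).comp (localField q M ι₀).val,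
      Finset.mem_univ _, ?_⟩
    rw [← Emb.smul_eq_twist]
    exact hd
  · intro σ _
    exact (Jq.val_twist f ι₀ σ).symm

open Classical in
/-- **regrouping**: the `ℚ_q`-component of the norm of `f ∈ J_q(M)` is the product of the local norms
of the values of `f` at a set of representatives of the places above `q` -/
theorem jqRat_norm_eq_prod (φ : ℚ →ₐ[ℚ] M) (f : Jq q M) :
    jqRat q (Jq.norm φ f) =
      ∏ ω : Quotient (MulAction.orbitRel (GalQq q) (Emb q M)),
        Units.map (Algebra.norm ℚ_[q] : localField q M ω.out →* ℚ_[q]) (Jq.localUnit f ω.out) := by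
  apply Units.ext
  apply (algebraMap ℚ_[q] (PadicAlgCl q)).injective
  rw [algebraMap_jqRat q _ (Algebra.ofId ℚ (PadicAlgCl q)), Jq.norm_apply, Units.coe_prod,
    Units.coe_prod, map_prod]
  have h1 : (Finset.univ.filter (fun ι : Emb q M => Emb.res φ ι = Algebra.ofId ℚ (PadicAlgCl q))) =
      Finset.univ := Finset.filter_true_of_mem (fun ι _ => Subsingleton.elim _ _)
  rw [h1, ← Finset.prod_fiberwise Finset.univ
    (Quotient.mk (MulAction.orbitRel (GalQq q) (Emb q M))) _]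
  apply Finset.prod_congr rfl
  intro ω _
  have h2 := prod_orbit_eq_norm f ω.out
  rw [Quotient.out_eq] at h2
  rw [h2]
  rfl

end Regroup

section Final

variable {p : ℕ} [hp : Fact p.Prime] {m : ℕ}
  (lam : (ZMod (p ^ (m + 1)))ˣ →* Multiplicative (ZMod (p ^ m)))
  {M : Type*} [Field M] [Algebra ℚ M] [FiniteDimensional ℚ M]

/-- `Φ_q` kills the `ℚ_q`-component of a norm from `M`, if it kills the local norms at all places of
`M` above `q` -/
theorem phiLoc_jqRat_norm (q : ℕ) [Fact q.Prime]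
    (hLN : ∀ ι : Emb q M, LNAt p m lam q (localField q M ι)) (φ : ℚ →ₐ[ℚ] M) (f : Jq q M) :
    phiLoc p m lam q (jqRat q (Jq.norm φ f)) = 1 := by
  classical
  rw [jqRat_norm_eq_prod, map_prod]
  exact Finset.prod_eq_one fun ω _ => hLN ω.out _

/-- **`Φ` kills the norms of the ideles of `M`**, under (LN) for `M` -/
theorem Phi_norm (hLN : LN p m lam M) (φ : ℚ →ₐ[ℚ] M) (j : Idele M) :
    Phi p m lam (Idele.norm φ j) = 1 := by
  apply Phi_eq_one_of_forall
  intro q
  rw [phiAt_apply, Idele.norm_apply]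
  exact phiLoc_jqRat_norm lam (q : ℕ) (fun ι => hLN (q : ℕ) ι) φ (j.1 q)

omit [FiniteDimensional ℚ M] in
/-- `Φ` on the idele of `ℚ` with `q`-component `y ∈ ℚ_qˣ` -/
theorem Phi_single_symm (q : Nat.Primes) (y : ℚ_[(q : ℕ)]ˣ) :
    Phi p m lam (Idele.single q ((jqRat (q : ℕ)).symm y)) = phiLoc p m lam (q : ℕ) y := by
  rw [Phi_single, MulEquiv.apply_symm_apply]

/-- (LN) for `M ∋ ζ_{p^(m+1)}` from the local statements (R3 at `q ≠ p`, R4 at `q = p`) -/
theorem LN_of_forall (ζ : M) (hζ : IsPrimitiveRoot ζ (p ^ (m + 1)))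
    (h : ∀ (q : ℕ) [Fact q.Prime] (K : IntermediateField ℚ_[q] (PadicAlgCl q))
      [FiniteDimensional ℚ_[q] K] (ζ' : K), IsPrimitiveRoot ζ' (p ^ (m + 1)) → LNAt p m lam q K) :
    LN p m lam M := by
  intro q _ ι
  have hfd : FiniteDimensional ℚ_[q] (localField q M ι) := finiteDimensional_localField' ι
  refine h q (localField q M ι) ⟨ι ζ, map_mem_localField' ι ζ⟩ ?_
  have h1 : IsPrimitiveRoot (ι ζ) (p ^ (m + 1)) := hζ.map_of_injective ι.injective
  exact IsPrimitiveRoot.coe_submonoidClass_iff.1 h1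

end Final

end Fermat.Agent.S55lib.Recip
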