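import Fermat.Agent.S55lib.Recip.TateLemma

set_option autoImplicit false
set_option linter.unusedSectionVars false

namespace Fermat.Agent.S55lib.Recip

open groupCohomology CategoryTheory

universe u

section ChangeChar

variable {k G : Type u} [CommRing k] [Group G] [Fintype G] {A : Rep k G}
  {n' : ℕ} [NeZero n'] {χ' : G → ZMod n'} (hχ' : ∀ g h, χ' (g * h) = χ' g + χ' h)
  (hinj : Function.Injective χ') {σ : G} (hσ : χ' σ = 1)
  {n : ℕ} [NeZero n] {ψ : G → ZMod n} (hψ : ∀ g h, ψ (g * h) = ψ g + ψ h)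

omit [Fintype G] in
lemma ψ_pow (hψ : ∀ g h, ψ (g * h) = ψ g + ψ h) (σ : G) (m : ℕ) : ψ (σ ^ m) = m • ψ σ := by
  induction m with
  | zero => simpa using χ_one hψ
  | succ m ih => rw [pow_succ, hψ, ih, succ_nsmul]

/-- telescoping sum of carries -/
lemma sum_carry_nsmul (t : ZMod n) (N : ℕ) (hN : N • t = 0) :
    n * ∑ i ∈ Finset.range N, carry (i • t) t = N * t.val := by
  have h : ∀ M : ℕ, n * ∑ i ∈ Finset.range M, carry (i • t) t + (M • t).val = M * t.val := by
    intro M
    induction M with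
    | zero => simp
    | succ M ih =>
      rw [Finset.sum_range_succ, Nat.mul_add, succ_nsmul]
      have := carry_spec (M • t) t
      have e : (M + 1) * t.val = M * t.val + t.val := by ring
      rw [e]
      omega
  have := h N
  rw [hN, ZMod.val_zero, add_zero] at this
  exact this

include hχ' hinj hσ hψ

/-- On a cyclic group every `a ∪ δψ` is a `cupδ` for the standard character. -/
theorem cupδ_eq_cupδ_standard (a : A) (ha : ∀ g : G, A.ρ g a = a) :
    n ∣ n' * (ψ σ).val ∧
    cupδ ψ hψ a ha = cupδ χ' hχ' ((n' * (ψ σ).val / n) • a) (fun g => by rw [map_nsmul, ha]) := by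
  have hN : n' • ψ σ = 0 := by
    rw [← ψ_pow hψ σ n', pow_n_eq_one hχ' hinj hσ]
    exact χ_one hψ
  have hsum := sum_carry_nsmul (ψ σ) n' hN
  have hdvd : n ∣ n' * (ψ σ).val := ⟨_, hsum.symm⟩
  refine ⟨hdvd, ?_⟩
  have h1 := H2π_eq_cupδ hχ' hinj hσ (cupδCocycle ψ hψ a ha)
  change cupδ ψ hψ a ha = _ at h1
  rw [h1]
  apply cupδ_congr hχ'
  rw [sum_univ_eq_sum_range hχ' hinj hσ]
  simp only [cupδCocycle_apply, ψ_pow hψ]
  rw [← Finset.sum_smul]
  congr 1
  have hn : 0 < n := Nat.pos_of_ne_zero (NeZero.ne n)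
  rw [← hsum, Nat.mul_div_cancel_left _ hn]

end ChangeChar

end Fermat.Agent.S55lib.Recip
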