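/-
S55lib / Recip / TateGen  (helper8, block R1 of #lead-122).

Pure `Rep` algebra for the invariant-free proof of the existence of the top class:

* (a) `tateGen_cupδ_eq_zero`: the generalized Tate lemma (helper9's `res_map_cupδ_eq_zero` with
  `inv ∘ cupδ_χ` replaced by an arbitrary additive `Ψ` on the `Γ`-invariants of `J` killing the
  invariants coming from `E` and the norms);
* (b) `tateGen_res_map_cupδ_eq_zero`: the same for an arbitrary character `χ` of `Γ`;
* (c) `inflMap_two_injective_pPrimary`: inflation `H²(G ⧸ S, A^S) → H²(G, A)` is injective on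
  `p`-power torsion if `H¹(S, A)` has no `p`-power torsion;
* (d) `nsmul_Psi_eq_zero_of_nsmul_map_cupδ_eq_zero`: the order of `π_*(x ∪ δχ)` is bounded below by
  the order of `Ψ x`.
-/
import Fermat.Agent.S55lib.Recip.ChangeChar
import Fermat.Agent.S55lib.Dev.InfRes2
import Fermat.Agent.S55lib.Dev.Transfer

set_option autoImplicit false
set_option linter.unusedSectionVars false

namespace Fermat.Agent.S55lib.Recip

open groupCohomology CategoryTheory

universe u

/-! ### A character killed by `m` has `m • (a ∪ δχ) = 0` -/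

section Kill

variable {k G : Type u} [CommRing k] [Group G] {A : Rep k G} {n : ℕ} [NeZero n]
  {χ : G → ZMod n} (hχ : ∀ g h, χ (g * h) = χ g + χ h)

/-- If `m • χ = 0` then `m • (a ∪ δχ) = 0` (`m • δχ = δ(m • χ) = 0`). -/
theorem nsmul_cupδ_eq_zero {m : ℕ} (hm : ∀ g, m • χ g = 0) (a : A) (ha : ∀ g : G, A.ρ g a = a) :
    m • cupδ χ hχ a ha = 0 := by
  have hn : n ≠ 0 := NeZero.ne n
  have hdvd : ∀ x : ZMod n, m • x = 0 → n ∣ m * x.val := by
    intro x hx
    rw [← ZMod.natCast_eq_zero_iff, Nat.cast_mul, ZMod.natCast_zmod_val, ← nsmul_eq_mul]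
    exact hx
  rw [← cupδ_nsmul hχ m a ha]
  unfold cupδ
  rw [H2π_eq_zero_iff]
  refine ⟨fun g => (m * (χ g).val / n) • a, ?_⟩
  funext ⟨g, h⟩
  have hφ : ∀ g : G, n * (m * (χ g).val / n) = m * (χ g).val := fun g =>
    Nat.mul_div_cancel' (hdvd _ (hm g))
  have hcs := carry_spec (χ g) (χ h)
  have key : m * (χ h).val / n + m * (χ g).val / n =
      carry (χ g) (χ h) * m + m * (χ (g * h)).val / n := by
    apply Nat.eq_of_mul_eq_mul_left (Nat.pos_of_ne_zero hn)
    rw [Nat.mul_add, Nat.mul_add, hφ, hφ, hφ, hχ]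
    have : n * (carry (χ g) (χ h) * m) = m * (n * carry (χ g) (χ h)) := by ring
    rw [this]
    have e2 : m * (χ h).val + m * (χ g).val = m * ((χ g).val + (χ h).val) := by ring
    rw [e2, hcs]
    ring
  simp only [d₁₂_hom_apply, map_nsmul, ha]
  change _ = carry (χ g) (χ h) • (m • a)
  rw [sub_add_eq_add_sub, sub_eq_iff_eq_add, ← add_smul, ← mul_smul, ← add_smul, key]

end Kill

/-! ### (a), (b): the generalized Tate lemma -/

section TateGen

variable {k Γ : Type u} [CommRing k] [Group Γ] [Fintype Γ] (H : Subgroup Γ)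
  {E J C : Rep k Γ} (ι : E ⟶ J) (π : J ⟶ C)
  {T : Type*} [AddCommGroup T] (Ψ : J.ρ.invariants →+ T)
  {n' : ℕ} [NeZero n'] {χH : H → ZMod n'} (hχH : ∀ g h, χH (g * h) = χH g + χH h)

open Classical in
/-- **Generalized Tate lemma.**  Let `H ≤ Γ` be cyclic of order `n'` with standard character `χH`,
`E → J → C` be `Γ`-modules with `H²(H,E) → H²(H,J) → H²(H,C)` exact and `|H²(H,C)| ≤ n'`, and let
`Ψ` be additive on `J^Γ`, killing the invariants coming from `E^Γ` and the norms `N_Γ j`.  If some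
`H`-invariant `j₁` has `Ψ (N_{Γ/H} j₁)` of order `n'`, then for every `Γ`-invariant `x` with
`[Γ:H] • Ψ x = 0` the class `x ∪ δχH` dies in `H²(H,C)`. -/
theorem tateGen_cupδ_eq_zero
    (hex : ∀ z : H2 (Rep.res H.subtype J),
      groupCohomology.map (MonoidHom.id H) ((Rep.resFunctor H.subtype).map π) 2 z = 0 →
      ∃ e : H2 (Rep.res H.subtype E),
        groupCohomology.map (MonoidHom.id H) ((Rep.resFunctor H.subtype).map ι) 2 e = z)
    (hΨE : ∀ y : J.ρ.invariants, (∃ e : E, (∀ g, E.ρ g e = e) ∧ ι.hom e = y.1) → Ψ y = 0)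
    (hΨN : ∀ y : J.ρ.invariants, (∃ j : J, J.ρ.norm j = y.1) → Ψ y = 0)
    (hinj : Function.Injective χH) (σ : H) (hσ : χH σ = 1)
    [Finite (H2 (Rep.res H.subtype C))] (hcard : Nat.card (H2 (Rep.res H.subtype C)) ≤ n')
    (j₁ : J) (hj₁ : ∀ h ∈ H, J.ρ h j₁ = j₁)
    (hord : ∀ m : ℕ, m • Ψ ⟨Nrel H J j₁, Nrel_invariant hj₁⟩ = 0 → n' ∣ m)
    (x : J) (hx : ∀ g, J.ρ g x = x) (hx0 : H.index • Ψ ⟨x, hx⟩ = 0) :
    groupCohomology.map (MonoidHom.id H) ((Rep.resFunctor H.subtype).map π) 2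
      (cupδ (A := Rep.res H.subtype J) χH hχH x (fun h => hx h)) = 0 := by
  -- the two additive maps on the `H`-invariants of `J`
  let Inv := (Rep.res H.subtype J).ρ.invariants
  have memInv : ∀ j : J, j ∈ Inv ↔ ∀ h ∈ H, J.ρ h j = j := fun j =>
    ⟨fun hj h hh => hj ⟨h, hh⟩, fun hj h => hj h h.2⟩
  let f : Inv →ₗ[k] H2 (Rep.res H.subtype C) :=
    (groupCohomology.map (MonoidHom.id H) ((Rep.resFunctor H.subtype).map π) 2).hom ∘ₗ
      cupδLin (A := Rep.res H.subtype J) hχH
  let NrelHom : Inv →+ J.ρ.invariants :=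
    { toFun := fun j => ⟨Nrel H J j.1, Nrel_invariant ((memInv _).1 j.2)⟩
      map_zero' := by
        apply Subtype.ext
        change Nrel H J 0 = 0
        simp [Nrel]
      map_add' := fun a b => by
        apply Subtype.ext
        exact Nrel_add _ _ }
  let ψ : Inv →+ T := Ψ.comp NrelHom
  -- Claim 1
  have claim1 : ∀ j : Inv, f j = 0 → ψ j = 0 := by
    intro j hj
    obtain ⟨e, he⟩ := hex _ hj
    obtain ⟨a, ha, rfl⟩ := exists_eq_cupδ (A := Rep.res H.subtype E) hχH hinj hσ e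
    rw [map_cupδ] at he
    have haJ : ∀ h : H, (Rep.res H.subtype J).ρ h (ι.hom a) = ι.hom a := fun h => by
      have := Rep.hom_comm_apply ι (h : Γ) a
      change J.ρ (h : Γ) (ι.hom a) = _
      rw [← this]
      congr 1
      exact ha h
    have hsub : cupδ (A := Rep.res H.subtype J) χH hχH (j.1 - ι.hom a)
        (fun h => by rw [map_sub, j.2 h, haJ h]) = 0 := by
      rw [cupδ_sub hχH j.1 (ι.hom a) j.2 haJ, sub_eq_zero]
      exact he.symm
    rw [cupδ_eq_zero_iff hχH hinj hσ] at hsub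
    obtain ⟨j₀, hj₀⟩ := hsub
    have hj₀' : ∑ h : H, J.ρ (h : Γ) j₀ = j.1 - ι.hom a := by
      rw [← hj₀]; simp [Representation.norm]
    have hNj : Nrel H J j.1 = ι.hom (Nrel H E a) + J.ρ.norm j₀ := by
      rw [← Nrel_norm (H := H) j₀, hj₀', Nrel_map, ← Nrel_add]
      congr 1; abel
    have haE : ∀ g : Γ, E.ρ g (Nrel H E a) = Nrel H E a :=
      Nrel_invariant (fun h hh => ha ⟨h, hh⟩)
    -- split `N_{Γ/H} j` in `J^Γ`
    have hEinv : ∀ g : Γ, J.ρ g (ι.hom (Nrel H E a)) = ι.hom (Nrel H E a) := fun g => by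
      rw [← Rep.hom_comm_apply ι g, haE g]
    have hsplit : NrelHom j = (⟨ι.hom (Nrel H E a), hEinv⟩ : J.ρ.invariants) +
        ⟨J.ρ.norm j₀, fun g => Representation.self_norm_apply _ g j₀⟩ :=
      Subtype.ext hNj
    change Ψ (NrelHom j) = 0
    rw [hsplit, map_add, hΨE _ ⟨Nrel H E a, haE, rfl⟩, hΨN _ ⟨j₀, rfl⟩, add_zero]
  -- the elements
  have hxInv : x ∈ Inv := (memInv x).2 (fun h _ => hx h)
  have hj₁Inv : j₁ ∈ Inv := (memInv j₁).2 hj₁
  let X : Inv := ⟨x, hxInv⟩
  let J1 : Inv := ⟨j₁, hj₁Inv⟩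
  have hψJ1 : ∀ m : ℕ, m • ψ J1 = 0 → n' ∣ m := hord
  have hψX : ψ X = 0 := by
    change Ψ (NrelHom X) = 0
    have hNX : NrelHom X = H.index • (⟨x, hx⟩ : J.ρ.invariants) :=
      Subtype.ext (Nrel_of_invariant (H := H) hx)
    rw [hNX, map_nsmul]
    exact hx0
  have hinjF : Function.Injective (fun a : Fin n' => f ((a : ℕ) • J1)) := by
    intro a b hab
    wlog hle : (a : ℕ) ≤ b generalizing a b
    · exact (this hab.symm (le_of_not_ge hle)).symm
    have h0 : f (((b : ℕ) - a) • J1) = 0 := by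
      rw [sub_nsmul _ hle, map_add, map_neg]
      simp only at hab
      rw [hab]; abel
    have h1 := claim1 _ h0
    rw [map_nsmul] at h1
    have h2 := hψJ1 _ h1
    have h3 : (b : ℕ) - a = 0 := Nat.eq_zero_of_dvd_of_lt h2 (by omega)
    exact Fin.ext (by omega)
  have hbij : Function.Bijective (fun a : Fin n' => f ((a : ℕ) • J1)) :=
    Function.Injective.bijective_of_nat_card_le hinjF (by simpa using hcard)
  obtain ⟨a, ha⟩ := hbij.2 (f X)
  simp only at ha
  have h0 : f (X - (a : ℕ) • J1) = 0 := by rw [map_sub, ha, sub_self]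
  have h1 := claim1 _ h0
  rw [map_sub, hψX, map_nsmul, zero_sub, neg_eq_zero] at h1
  have h2 := hψJ1 _ h1
  have ha0 : (a : ℕ) = 0 := Nat.eq_zero_of_dvd_of_lt h2 a.2
  have hfX : f X = 0 := by rw [← ha, ha0, zero_smul, map_zero]
  exact hfX

include hχH in
open Classical in
/-- **Generalized Tate lemma, for an arbitrary character `χ` of `Γ`**: under the hypotheses of
`tateGen_cupδ_eq_zero`, the class `π_*(x ∪ δχ) ∈ H²(Γ, C)` restricts to `0` on `H`. -/
theorem tateGen_res_map_cupδ_eq_zero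
    (hex : ∀ z : H2 (Rep.res H.subtype J),
      groupCohomology.map (MonoidHom.id H) ((Rep.resFunctor H.subtype).map π) 2 z = 0 →
      ∃ e : H2 (Rep.res H.subtype E),
        groupCohomology.map (MonoidHom.id H) ((Rep.resFunctor H.subtype).map ι) 2 e = z)
    (hΨE : ∀ y : J.ρ.invariants, (∃ e : E, (∀ g, E.ρ g e = e) ∧ ι.hom e = y.1) → Ψ y = 0)
    (hΨN : ∀ y : J.ρ.invariants, (∃ j : J, J.ρ.norm j = y.1) → Ψ y = 0)
    (hinj : Function.Injective χH) (σ : H) (hσ : χH σ = 1)
    [Finite (H2 (Rep.res H.subtype C))] (hcard : Nat.card (H2 (Rep.res H.subtype C)) ≤ n')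
    (j₁ : J) (hj₁ : ∀ h ∈ H, J.ρ h j₁ = j₁)
    (hord : ∀ m : ℕ, m • Ψ ⟨Nrel H J j₁, Nrel_invariant hj₁⟩ = 0 → n' ∣ m)
    {N : ℕ} [NeZero N] {χ : Γ → ZMod N} (hχ : ∀ g h, χ (g * h) = χ g + χ h)
    (x : J) (hx : ∀ g, J.ρ g x = x) (hx0 : H.index • Ψ ⟨x, hx⟩ = 0) :
    groupCohomology.map H.subtype (𝟙 (Rep.res H.subtype C)) 2
      (groupCohomology.map (MonoidHom.id Γ) π 2 (cupδ χ hχ x hx)) = 0 := by
  have key := tateGen_cupδ_eq_zero H ι π Ψ hχH hex hΨE hΨN hinj σ hσ hcard j₁ hj₁ hord x hx hx0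
  have hπx : ∀ h : H, (Rep.res H.subtype C).ρ h (π.hom x) = π.hom x := fun h => by
    have := Rep.hom_comm_apply π (h : Γ) x
    change C.ρ (h : Γ) (π.hom x) = _
    rw [← this, hx]
  have e1 := map_cupδ (A := Rep.res H.subtype J) hχH (MonoidHom.id H)
    ((Rep.resFunctor H.subtype).map π) x (fun h => hx h)
  have key' : cupδ (A := Rep.res H.subtype C) χH hχH (π.hom x) hπx = 0 := e1.symm.trans key
  rw [map_cupδ, map_cupδ]
  obtain ⟨-, hstd⟩ := cupδ_eq_cupδ_standard (A := Rep.res H.subtype C) hχH hinj hσ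
    (ψ := χres H χ) (χres_add H hχ) (π.hom x) hπx
  have hgoal : cupδ (A := Rep.res H.subtype C) (χres H χ) (χres_add H hχ) (π.hom x) hπx = 0 := by
    rw [hstd]
    exact (cupδ_nsmul (A := Rep.res H.subtype C) hχH _ (π.hom x) hπx).trans
      (by rw [key', smul_zero])
  exact hgoal

end TateGen

/-! ### (d): the order of `π_*(x ∪ δχ)` -/

section Ord

variable {k Γ : Type u} [CommRing k] [Group Γ] [Fintype Γ] (P : Subgroup Γ)
  {E J C : Rep k Γ} (ι : E ⟶ J) (π : J ⟶ C)
  {T : Type*} [AddCommGroup T] (Ψ : J.ρ.invariants →+ T)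
  {N : ℕ} [NeZero N] {χ : Γ → ZMod N} (hχ : ∀ g h, χ (g * h) = χ g + χ h)

open Classical in
/-- **(ORD).**  `E → J → C` short exact, `P ≤ Γ` on which `χ` restricts to a standard character,
`Ψ` additive on `J^Γ` killing `E^Γ` and the norms.  If `m • π_*(x ∪ δχ) = 0` in `H²(Γ, C)` then
`[Γ:P] m • Ψ x = 0`. -/
theorem nsmul_Psi_eq_zero_of_nsmul_map_cupδ_eq_zero
    (hιinj : Function.Injective ι.hom) (hπsurj : Function.Surjective π.hom)
    (hker : ∀ y : J, π.hom y = 0 → ∃ e : E, ι.hom e = y)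
    (hΨE : ∀ y : J.ρ.invariants, (∃ e : E, (∀ g, E.ρ g e = e) ∧ ι.hom e = y.1) → Ψ y = 0)
    (hΨN : ∀ y : J.ρ.invariants, (∃ j : J, J.ρ.norm j = y.1) → Ψ y = 0)
    (hinj : Function.Injective (χres P χ)) (σ : P) (hσ : χres P χ σ = 1)
    (x : J) (hx : ∀ g, J.ρ g x = x) (m : ℕ)
    (hm : m • groupCohomology.map (MonoidHom.id Γ) π 2 (cupδ χ hχ x hx) = 0) :
    (P.index * m) • Ψ ⟨x, hx⟩ = 0 := by
  have hπx : ∀ g : Γ, C.ρ g (π.hom x) = π.hom x := fun g => by
    rw [← Rep.hom_comm_apply π g x, hx]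
  have hmπx : ∀ g : Γ, C.ρ g (m • π.hom x) = m • π.hom x := fun g => by
    rw [map_nsmul, hπx]
  -- the class `m • π_*(x ∪ δχ)` as a `cupδ`
  have h1 : cupδ χ hχ (m • π.hom x) hmπx = 0 := by
    rw [cupδ_nsmul hχ m (π.hom x) hπx]
    have e := map_cupδ hχ (MonoidHom.id Γ) π x hx
    have e' : groupCohomology.map (MonoidHom.id Γ) π 2 (cupδ χ hχ x hx) =
        cupδ χ hχ (π.hom x) hπx := e
    rw [← e']
    exact hm
  -- restrict to `P`
  have hmπxP : ∀ h : P, (Rep.res P.subtype C).ρ h (m • π.hom x) = m • π.hom x :=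
    fun h => hmπx h
  have h2 : cupδ (A := Rep.res P.subtype C) (χres P χ) (χres_add P hχ) (m • π.hom x)
      hmπxP = 0 := by
    have e := map_cupδ hχ P.subtype (𝟙 (Rep.res P.subtype C)) (m • π.hom x) hmπx
    rw [h1, map_zero] at e
    exact e.symm
  obtain ⟨c, hc⟩ := (cupδ_eq_zero_iff (A := Rep.res P.subtype C) (χres_add P hχ) hinj hσ
    (m • π.hom x) hmπxP).1 h2
  have hc' : ∑ h : P, C.ρ (h : Γ) c = m • π.hom x := by
    rw [← hc]; simp [Representation.norm]
  obtain ⟨j, rfl⟩ := hπsurj c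
  have hNPinv : ∀ g ∈ P, J.ρ g (∑ h : P, J.ρ (h : Γ) j) = ∑ h : P, J.ρ (h : Γ) j := by
    intro g hg
    rw [map_sum]
    exact Fintype.sum_equiv (Equiv.mulLeft (⟨g, hg⟩ : P)) _ _ (fun h => by
      simp only [Equiv.coe_mulLeft, Subgroup.coe_mul, map_mul]
      rfl)
  have hz : π.hom (m • x - ∑ h : P, J.ρ (h : Γ) j) = 0 := by
    rw [map_sub, map_nsmul, map_sum, ← hc', sub_eq_zero]
    refine Finset.sum_congr rfl (fun h _ => ?_)
    exact (Rep.hom_comm_apply π _ _).symm
  obtain ⟨e, he⟩ := hker _ hz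
  have heP : ∀ h ∈ P, E.ρ h e = e := by
    intro h hh
    apply hιinj
    rw [Rep.hom_comm_apply ι h e, he, map_sub, map_nsmul, hx, hNPinv h hh]
  have hsum : m • x = ι.hom e + ∑ h : P, J.ρ (h : Γ) j := by rw [he]; abel
  have hNrel : Nrel P J (m • x) = ι.hom (Nrel P E e) + J.ρ.norm j := by
    rw [hsum, Nrel_add, Nrel_norm, Nrel_map]
  have hmx : ∀ g : Γ, J.ρ g (m • x) = m • x := fun g => by rw [map_nsmul, hx]
  rw [Nrel_of_invariant (H := P) hmx] at hNrel
  have hEinv : ∀ g : Γ, E.ρ g (Nrel P E e) = Nrel P E e := Nrel_invariant heP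
  have hιEinv : ∀ g : Γ, J.ρ g (ι.hom (Nrel P E e)) = ι.hom (Nrel P E e) := fun g => by
    rw [← Rep.hom_comm_apply ι g, hEinv g]
  have hsplit : (P.index * m) • (⟨x, hx⟩ : J.ρ.invariants) =
      (⟨ι.hom (Nrel P E e), hιEinv⟩ : J.ρ.invariants) +
        ⟨J.ρ.norm j, fun g => Representation.self_norm_apply _ g j⟩ := by
    apply Subtype.ext
    rw [mul_smul]
    exact hNrel
  rw [← map_nsmul, hsplit, map_add, hΨE _ ⟨Nrel P E e, hEinv, rfl⟩, hΨN _ ⟨j, rfl⟩, add_zero]

end Ord

/-! ### (c): `p`-primary injectivity of inflation in degree 2 -/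

section PII

open Fermat.Agent.S55lib.Dev Rep

variable {k G : Type u} [CommRing k] [Group G] (A : Rep k G) (S : Subgroup G) [S.Normal]

/-- Raw injectivity with the vanishing of `H¹` only used for the one relevant cocycle
(helper5's `Dev.infRes_raw_injective` with a weaker hypothesis). -/
theorem infRes_raw_injective_of_coboundary {c : G × G → A} (hc : IsZ2 c)
    (hr1 : ∀ s ∈ S, ∀ g h, c (g * s, h) = c (g, h))
    (hr2 : ∀ s ∈ S, ∀ g h, c (g, h * s) = c (g, h))
    (φ : G → A) (hφ : c = dOne φ)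
    (hb : ∃ b : A, ∀ s : S, φ (s : G) - c (1, 1) = A.ρ (s : G) b - b) :
    ∃ ψ : G → A, c = dOne ψ ∧ (∀ s ∈ S, ∀ g, ψ (g * s) = ψ g) ∧
      (∀ s ∈ S, ∀ g, A.ρ s (ψ g) = ψ g) := by
  obtain ⟨b, hb⟩ := hb
  have hψS : ∀ s ∈ S, φ s - (A.ρ s b - b) = c (1, 1) := by
    intro s hs
    have := hb ⟨s, hs⟩
    simp only at this
    rw [← this]
    abel
  have hd : c = dOne (fun g => φ g - (A.ρ g b - b)) := by
    have : (fun g => φ g - (A.ρ g b - b)) = φ - (fun g => A.ρ g b - b) := rfl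
    rw [this]
    have h2 : dOne (φ - fun g => A.ρ g b - b) = dOne φ - dOne (fun g => A.ρ g b - b) := by
      funext ⟨g, h⟩
      simp only [dOne_apply, Pi.sub_apply, map_sub]
      abel
    rw [h2, dOne_dZero, sub_zero, hφ]
  refine ⟨fun g => φ g - (A.ρ g b - b), hd, ?_, ?_⟩
  · intro s hs g
    have h1 : c (g, s) = A.ρ g (c (1, 1)) := by
      have := hr2 s hs g 1
      rw [one_mul] at this
      rw [this, hc.one_snd]
    have h2 := congrFun hd (g, s)
    rw [h1, dOne_apply, hψS s hs] at h2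
    beta_reduce at h2 ⊢
    linear_combination (norm := abel) h2
  · intro s hs g
    have h1 : c (s, g) = c (1, 1) := by
      have := hr1 s hs 1 g
      rw [one_mul] at this
      rw [this, hc.one_fst]
    have h2 := congrFun hd (s, g)
    rw [h1, dOne_apply, hψS s hs] at h2
    have h3 : φ (s * g) - (A.ρ (s * g) b - b) = φ g - (A.ρ g b - b) := by
      have e : s * g = g * (g⁻¹ * s * g) := by group
      have h4 : c (g, g⁻¹ * s * g) = A.ρ g (c (1, 1)) := by
        have := hr2 _ (Subgroup.Normal.conj_mem' ‹S.Normal› _ hs g) g 1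
        rw [one_mul] at this
        rw [this, hc.one_snd]
      have h5 := congrFun hd (g, g⁻¹ * s * g)
      rw [h4, dOne_apply, hψS _ (Subgroup.Normal.conj_mem' ‹S.Normal› _ hs g), ← e] at h5
      linear_combination (norm := abel) h5
    beta_reduce at h2 ⊢
    rw [h3] at h2
    linear_combination (norm := abel) -h2

/-- A 2-cocycle of `G ⧸ S` with values in `A^S` whose inflation is the coboundary of `φ`, such that
`s ↦ φ s - c̄(1,1)` is a coboundary on `S`, is a coboundary. -/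
theorem H2π_eq_zero_of_infl_coboundary (cbar : cocycles₂ (A.quotientToInvariants S))
    (φ : G → A)
    (hφ : ∀ g h : G, (d₁₂ A).hom φ (g, h) = (cbar ((g : G ⧸ S), (h : G ⧸ S))).1)
    (hb : ∃ b : A, ∀ s : S, φ (s : G) - (cbar (((1 : G) : G ⧸ S), ((1 : G) : G ⧸ S))).1 =
      A.ρ (s : G) b - b) :
    H2π _ cbar = 0 := by
  obtain ⟨c, hcdef⟩ : ∃ c : G × G → A, c = fun p : G × G =>
      (cbar ((p.1 : G ⧸ S), (p.2 : G ⧸ S))).1 := ⟨_, rfl⟩
  have hcval : ∀ g h : G, c (g, h) = (cbar ((g : G ⧸ S), (h : G ⧸ S))).1 := fun g h => by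
    rw [hcdef]
  have hφ' : (d₁₂ A).hom φ = c := by
    funext ⟨g, h⟩
    rw [hφ, hcval]
  have hc : IsZ2 c := by
    rw [← hφ']
    exact isZ2_dOne φ
  have hmk : ∀ s ∈ S, ∀ g : G, ((g * s : G) : G ⧸ S) = (g : G ⧸ S) := by
    intro s hs g
    rw [QuotientGroup.mk_mul, (QuotientGroup.eq_one_iff s).2 hs, mul_one]
  obtain ⟨ψ, hψ, hψ1, hψ2⟩ := infRes_raw_injective_of_coboundary A S hc
    (fun s hs g h => by rw [hcval, hcval, hmk s hs])
    (fun s hs g h => by rw [hcval, hcval, hmk s hs])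
    φ hφ'.symm (by rw [hcval]; exact hb)
  rw [H2π_eq_zero_iff]
  let ψbar : (G ⧸ S) → A.quotientToInvariants S := fun x => ⟨ψ x.out, fun s => hψ2 s.1 s.2 _⟩
  have key : ∀ g : G, (ψbar (g : G ⧸ S)).1 = ψ g := by
    intro g
    obtain ⟨s, hs⟩ := QuotientGroup.mk_out_eq_mul S g
    change ψ ((g : G ⧸ S).out) = ψ g
    rw [hs, hψ1 s s.2]
  refine ⟨ψbar, ?_⟩
  funext ⟨x, y⟩
  induction x using QuotientGroup.induction_on with | @H g =>
  induction y using QuotientGroup.induction_on with | @H h =>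
  apply Subtype.ext
  have e := congrFun hψ (g, h)
  rw [hcval, dOne_apply] at e
  rw [e]
  change ((A.ρ.quotientToInvariants S (g : G ⧸ S)) (ψbar (h : G ⧸ S)) -
    ψbar ((g : G ⧸ S) * (h : G ⧸ S)) + ψbar (g : G ⧸ S)).1 = _
  have e2 : (((A.ρ.quotientToInvariants S) (g : G ⧸ S)) (ψbar (h : G ⧸ S))).1 =
      A.ρ g (ψbar (h : G ⧸ S)).1 := by
    rw [Representation.quotientToInvariants, Representation.ofQuotient_coe_apply]
    rfl
  rw [← QuotientGroup.mk_mul]
  simp only [Submodule.coe_add, Submodule.coe_sub, key, e2]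

/-- If `e` kills `H¹(S, A)`, then `e` kills the kernel of inflation
`H²(G ⧸ S, A^S) → H²(G, A)`. -/
theorem nsmul_eq_zero_of_inflMap_eq_zero (e : ℕ)
    (he : ∀ x : groupCohomology (res S.subtype A) 1, e • x = 0)
    (y : groupCohomology (A.quotientToInvariants S) 2) (hy : inflMap A S 2 y = 0) :
    e • y = 0 := by
  induction y using H2_induction_on with | @h cbar =>
  rw [H2π_comp_map_apply, H2π_eq_zero_iff] at hy
  obtain ⟨φ, hφ⟩ := hy
  have hφv : ∀ g h : G, (d₁₂ A).hom φ (g, h) = (cbar ((g : G ⧸ S), (h : G ⧸ S))).1 :=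
    fun g h => congrFun hφ (g, h)
  -- the relevant 1-cocycle on `S`
  have hmkS : ∀ s : S, ((s : G) : G ⧸ S) = ((1 : G) : G ⧸ S) := fun s =>
    (QuotientGroup.eq_one_iff (s : G)).2 s.2
  set c11 : A := (cbar (((1 : G) : G ⧸ S), ((1 : G) : G ⧸ S))).1 with hc11
  have hinv : ∀ s : S, A.ρ (s : G) c11 = c11 := fun s =>
    (cbar (((1 : G) : G ⧸ S), ((1 : G) : G ⧸ S))).2 s
  have hf : ∀ s t : S, (fun s : S => φ (s : G) - c11) (s * t) =
      A.ρ (s : G) ((fun s : S => φ (s : G) - c11) t) + (fun s : S => φ (s : G) - c11) s := by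
    intro s t
    have e1 := hφv (s : G) (t : G)
    rw [hmkS s, hmkS t] at e1
    change A.ρ (s : G) (φ (t : G)) - φ ((s : G) * (t : G)) + φ (s : G) = c11 at e1
    simp only [Subgroup.coe_mul, map_sub, hinv s]
    linear_combination (norm := abel) -e1
  let z : cocycles₁ (res S.subtype A) :=
    ⟨fun s : S => φ (s : G) - c11, (mem_cocycles₁_iff (A := res S.subtype A) _).2 hf⟩
  have hz : H1π _ (e • z) = 0 := by
    rw [map_nsmul]
    exact he _
  rw [H1π_eq_zero_iff] at hz
  obtain ⟨b, hb⟩ := hz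
  -- apply the criterion to `e • cbar` and `e • φ`
  have key := H2π_eq_zero_of_infl_coboundary A S (e • cbar) (e • φ)
    (fun g h => by
      have e1 : (d₁₂ A).hom (e • φ) (g, h) = e • (d₁₂ A).hom φ (g, h) := by
        rw [map_nsmul]; rfl
      rw [e1, hφv]
      rfl)
    ⟨b, fun s => by
      have := congrFun hb s
      change A.ρ (s : G) b - b = e • (φ (s : G) - c11) at this
      change e • φ (s : G) - e • c11 = _
      rw [← smul_sub, this]⟩
  rw [← map_nsmul]
  exact key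

/-- **(PII)** Inflation `H²(G ⧸ S, A^S) → H²(G, A)` is injective on `p`-power torsion classes if
`H¹(S, A)` has no `p`-power torsion (`S` finite). -/
theorem inflMap_two_injective_pPrimary [Finite S] (p : ℕ) [hp : Fact p.Prime]
    (h1 : ∀ (x : groupCohomology (res S.subtype A) 1) (m : ℕ), p ^ m • x = 0 → x = 0)
    (y : groupCohomology (A.quotientToInvariants S) 2) (m : ℕ) (hy : p ^ m • y = 0)
    (hinf : inflMap A S 2 y = 0) : y = 0 := by
  have hS0 : Nat.card S ≠ 0 := Nat.card_pos.ne'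
  -- `H¹(S, A)` is killed by the prime-to-`p` part of `|S|`
  have hkill : ∀ x : groupCohomology (res S.subtype A) 1, (ordCompl[p] (Nat.card S)) • x = 0 := by
    intro x
    apply h1 _ ((Nat.card S).factorization p)
    rw [← mul_smul, Nat.ordProj_mul_ordCompl_eq_self]
    have h0 := index_nsmul_eq_zero_of_shapiroRes_eq_zero (res S.subtype A) (⊥ : Subgroup S) 1 x
      (by
        have hz : Limits.IsZero (groupCohomology
            (Rep.res (⊥ : Subgroup S).subtype (res S.subtype A)) (0 + 1)) :=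
          isZero_groupCohomology_succ_of_subsingleton _ 0
        have := ModuleCat.subsingleton_of_isZero hz
        exact Subsingleton.elim _ _)
    rwa [Subgroup.index_bot] at h0
  have h2 := nsmul_eq_zero_of_inflMap_eq_zero A S _ hkill y hinf
  have hd1 : addOrderOf y ∣ ordCompl[p] (Nat.card S) := addOrderOf_dvd_of_nsmul_eq_zero h2
  have hd2 : addOrderOf y ∣ p ^ m := addOrderOf_dvd_of_nsmul_eq_zero hy
  have hcop : Nat.Coprime (ordCompl[p] (Nat.card S)) (p ^ m) :=
    (Nat.Coprime.pow_left m (Nat.coprime_ordCompl hp.out hS0)).symm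
  exact AddMonoid.addOrderOf_eq_one_iff.1 (Nat.eq_one_of_dvd_coprimes hcop hd1 hd2)

end PII

/-! ### (c′), (e′): the hom forms of inflation–restriction in degree 2

`r : G →* G'` surjective, `A' = A^{ker r}` through an injective `φ : Rep.res r A' ⟶ A` whose range is
the `ker r`-invariants (helper4's `Lvl` shape).  Then `groupCohomology.map r φ 2` is "inflation". -/

section HomForm

open Fermat.Agent.S55lib.Dev Rep

variable {k G G' : Type u} [CommRing k] [Group G] [Group G'] (r : G →* G')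
  (hr : Function.Surjective r) (A : Rep k G) (A' : Rep k G') (φ : Rep.res r A' ⟶ A)
  (hφinj : Function.Injective φ.hom)
  (hφrange : ∀ a : A, (∀ s ∈ r.ker, A.ρ s a = a) → ∃ a' : A', φ.hom a' = a)

/-- `φ` takes values in the `ker r`-invariants -/
lemma hom_mem_invariants_ker (a' : A') :
    φ.hom a' ∈ Representation.invariants (A.ρ.comp r.ker.subtype) := by
  intro s
  have h := Rep.hom_comm_apply φ (s : G) a'
  change A.ρ (s : G) (φ.hom a') = φ.hom a'
  rw [← h]
  congr 1
  change A'.ρ (r (s : G)) a' = a'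
  rw [(MonoidHom.mem_ker).1 s.2, map_one]
  rfl

/-- `A' ≃ A^{ker r}` -/
noncomputable def invEquivOfHom : A'.V ≃ₗ[k] (A.quotientToInvariants r.ker).V :=
  LinearEquiv.ofBijective
    (LinearMap.codRestrict (Representation.invariants (A.ρ.comp r.ker.subtype))
      φ.hom.toLinearMap
      (hom_mem_invariants_ker r A A' φ))
    ⟨fun x y h => hφinj (congrArg Subtype.val h), fun ⟨a, ha⟩ => by
      obtain ⟨a', ha'⟩ := hφrange a (fun s hs => ha ⟨s, hs⟩)
      exact ⟨a', Subtype.ext ha'⟩⟩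

lemma invEquivOfHom_coe (a' : A') :
    ((invEquivOfHom r A A' φ hφinj hφrange a' : (A.quotientToInvariants r.ker).V) : A) =
      φ.hom a' := rfl

include hr in
lemma invEquivOfHom_comm (g' : G') :
    (invEquivOfHom r A A' φ hφinj hφrange).toLinearMap ∘ₗ A'.ρ g' =
      (A.quotientToInvariants r.ker).ρ
        ((QuotientGroup.quotientKerEquivOfSurjective r hr).symm g') ∘ₗ
        (invEquivOfHom r A A' φ hφinj hφrange).toLinearMap := by
  obtain ⟨g, rfl⟩ := hr g'
  have hq : (QuotientGroup.quotientKerEquivOfSurjective r hr).symm (r g) =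
      (g : G ⧸ r.ker) := by
    rw [MulEquiv.symm_apply_eq]
    rfl
  rw [hq]
  apply LinearMap.ext
  intro a'
  apply Subtype.ext
  change φ.hom (A'.ρ (r g) a') = _
  have e2 : (((A.ρ.quotientToInvariants r.ker) (g : G ⧸ r.ker))
      (invEquivOfHom r A A' φ hφinj hφrange a')).1 =
      A.ρ g (invEquivOfHom r A A' φ hφinj hφrange a').1 := by
    rw [Representation.quotientToInvariants, Representation.ofQuotient_coe_apply]
    rfl
  refine Eq.trans ?_ e2.symm
  rw [invEquivOfHom_coe]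
  exact Rep.hom_comm_apply φ g a'

/-- the comparison isomorphism `Hⁿ(G', A') ≅ Hⁿ(G ⧸ ker r, A^{ker r})` -/
noncomputable def homFormIso (n : ℕ) :
    groupCohomology A' n ≅ groupCohomology (A.quotientToInvariants r.ker) n :=
  mapIso (QuotientGroup.quotientKerEquivOfSurjective r hr).symm
    (invEquivOfHom r A A' φ hφinj hφrange) (invEquivOfHom_comm r hr A A' φ hφinj hφrange) n

/-- `map r φ` is the comparison isomorphism followed by inflation -/
lemma map_eq_homFormIso_comp_inflMap (n : ℕ) :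
    groupCohomology.map r φ n =
      (homFormIso r hr A A' φ hφinj hφrange n).hom ≫ inflMap A r.ker n := by
  unfold homFormIso inflMap
  rw [mapIso_hom, ← groupCohomology.map_comp]
  apply groupCohomology.map_congr
  · ext g
    rfl
  · rfl

include hr hφinj hφrange in
/-- **(c′)** `p`-primary injectivity of inflation, hom form. -/
theorem map_two_injective_pPrimary [Finite r.ker] (p : ℕ) [hp : Fact p.Prime]
    (h1 : ∀ (x : groupCohomology (res r.ker.subtype A) 1) (m : ℕ), p ^ m • x = 0 → x = 0)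
    (y : groupCohomology A' 2) (m : ℕ) (hy : p ^ m • y = 0)
    (hinf : groupCohomology.map r φ 2 y = 0) : y = 0 := by
  have hiso := map_eq_homFormIso_comp_inflMap r hr A A' φ hφinj hφrange 2
  have h2 : inflMap A r.ker 2 ((homFormIso r hr A A' φ hφinj hφrange 2).hom y) = 0 := by
    have := congrArg (fun F => F.hom y) hiso
    simp only [ModuleCat.hom_comp, LinearMap.comp_apply] at this
    rw [← this]
    exact hinf
  have h3 := inflMap_two_injective_pPrimary A r.ker p h1 _ m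
    (by rw [← map_nsmul, hy, map_zero]) h2
  have hinj : Function.Injective (homFormIso r hr A A' φ hφinj hφrange 2).hom :=
    (ConcreteCategory.bijective_of_isIso (homFormIso r hr A A' φ hφinj hφrange 2).hom).1
  apply hinj
  rw [h3, map_zero]

include hr hφinj hφrange in
/-- **(e′)** exactness of inflation–restriction in degree 2, hom form. -/
theorem exists_map_eq_of_res_eq_zero
    [Subsingleton (groupCohomology (res r.ker.subtype A) 1)]
    (x : groupCohomology A 2)
    (hx : groupCohomology.map r.ker.subtype (𝟙 (res r.ker.subtype A)) 2 x = 0) :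
    ∃ y : groupCohomology A' 2, groupCohomology.map r φ 2 y = x := by
  obtain ⟨ybar, hybar⟩ := exists_inflMap_eq_of_restMap_eq_zero A r.ker x hx
  have hiso := map_eq_homFormIso_comp_inflMap r hr A A' φ hφinj hφrange 2
  refine ⟨(homFormIso r hr A A' φ hφinj hφrange 2).inv ybar, ?_⟩
  have := congrArg (fun F => F.hom ((homFormIso r hr A A' φ hφinj hφrange 2).inv ybar)) hiso
  simp only [ModuleCat.hom_comp, LinearMap.comp_apply] at this
  rw [this]
  have e : (homFormIso r hr A A' φ hφinj hφrange 2).hom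
      ((homFormIso r hr A A' φ hφinj hφrange 2).inv ybar) = ybar := by
    have := congrArg (fun F => F.hom ybar) (homFormIso r hr A A' φ hφinj hφrange 2).inv_hom_id
    simp only [ModuleCat.hom_comp, LinearMap.comp_apply, ModuleCat.hom_id,
      LinearMap.id_apply] at this
    exact this
  rw [e]
  exact hybar

end HomForm

end Fermat.Agent.S55lib.Recip
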