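/-
S55 sprint, block K9 (reciprocity, invariant-free route), (ORD-all) (helper2, #lead-126).

For a number field `M`, Galois over `ℚ`, containing a primitive `p^(m+1)`-th root of unity `ζ`, and the
cyclotomic subfield `E = ℚ(ζ) ⊂ M`:
* `cycRes M E : Aut(M/ℚ) →* Aut(E/ℚ)` (restriction), `cycClassIncl M E : C(E) → C(M)` as a morphism
  `Rep.res (cycRes M E) (classRep E) ⟶ classRep M` (injective, range = the `Gal(M/E)`-invariants);
* `map_cycloClass` : the inflation of `cycloClass lam E hζE x` is `cycloClass lam M hζ x`;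
* **`orderOf_Phi_dvd_of_nsmul_cycloClass`** (ORD-all): `k • cycloClass lam M hζ x = 0` implies
  `orderOf (Φ x) ∣ k` (from (ORD) at `ℚ(ζ)`, `Places.orderOf_Phi_dvd_of_nsmul_cycloClass_cyclotomic`, the
  `p`-primary injectivity of inflation `Recip.map_two_injective_pPrimary` and K8
  `Places.classGroup_cohomology_uncond`).
-/
import Mathlib
import Fermat.Agent.S55lib.Places.CycloClass

set_option autoImplicit false
set_option linter.unusedSectionVars false

noncomputable section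

namespace Fermat.Agent.S55lib.Recip

open Fermat.Agent.S55lib Fermat.Agent.S55lib.Places Fermat.Agent.S55lib.Dev
  Fermat.Agent.S55lib.CycloArith groupCohomology CategoryTheory

universe u

/-- `cupδ` depends only on the values of its arguments -/
theorem cupδ_congr_chi {k G : Type u} [CommRing k] [Group G] {A : Rep k G} {n : ℕ} [NeZero n]
    {χ χ' : G → ZMod n} (hχ : ∀ g h, χ (g * h) = χ g + χ h)
    (hχ' : ∀ g h, χ' (g * h) = χ' g + χ' h) (h : χ = χ') {a b : A} (hab : a = b)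
    (ha : ∀ g : G, A.ρ g a = a) (hb : ∀ g : G, A.ρ g b = b) :
    cupδ χ hχ a ha = cupδ χ' hχ' b hb := by
  subst h
  subst hab
  rfl

/-- naturality of `π_*(a ∪ δχ)` under a change of group and modules -/
theorem map_map_cupδ_eq {k G G' : Type u} [CommRing k] [Group G] [Group G'] {J' C' : Rep k G'}
    {J C : Rep k G} (r : G →* G') (π' : J' ⟶ C') (π : J ⟶ C) (φ : Rep.res r C' ⟶ C) {n : ℕ}
    [NeZero n] {χ' : G' → ZMod n} (hχ' : ∀ g h, χ' (g * h) = χ' g + χ' h) {χ : G → ZMod n}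
    (hχ : ∀ g h, χ (g * h) = χ g + χ h) (hχχ' : ∀ g, χ' (r g) = χ g)
    (a' : J') (ha' : ∀ g : G', J'.ρ g a' = a') (a : J) (ha : ∀ g : G, J.ρ g a = a)
    (hcompat : φ.hom (π'.hom a') = π.hom a) :
    groupCohomology.map r φ 2
        (groupCohomology.map (MonoidHom.id G') π' 2 (cupδ χ' hχ' a' ha')) =
      groupCohomology.map (MonoidHom.id G) π 2 (cupδ χ hχ a ha) := by
  have hπ' : ∀ g : G', C'.ρ g (π'.hom a') = π'.hom a' := fun g => by
    rw [← Rep.hom_comm_apply π' g, ha']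
  have hπ : ∀ g : G, C.ρ g (π.hom a) = π.hom a := fun g => by
    rw [← Rep.hom_comm_apply π g, ha]
  have e1 : groupCohomology.map (MonoidHom.id G') π' 2 (cupδ χ' hχ' a' ha') =
      cupδ χ' hχ' (π'.hom a') hπ' := map_cupδ hχ' (MonoidHom.id G') π' a' ha'
  have e2 : groupCohomology.map (MonoidHom.id G) π 2 (cupδ χ hχ a ha) =
      cupδ χ hχ (π.hom a) hπ := map_cupδ hχ (MonoidHom.id G) π a ha
  have e3 := map_cupδ hχ' r φ (π'.hom a') hπ'
  rw [e1, e2]
  refine e3.trans ?_
  apply cupδ_congr_chi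
  · funext g
    exact hχχ' g
  · exact hcompat

section Tower

variable (M : Type) [Field M] [NumberField M] [IsGalois ℚ M] (E : IntermediateField ℚ M)
  [Normal ℚ E]

/-- restriction `Aut(M/ℚ) → Aut(E/ℚ)` -/
def cycRes : (M ≃ₐ[ℚ] M) →* (E ≃ₐ[ℚ] E) := AlgEquiv.restrictNormalHom E

theorem cycRes_surjective : Function.Surjective (cycRes M E) :=
  AlgEquiv.restrictNormalHom_surjective M

theorem coe_cycRes (σ : M ≃ₐ[ℚ] M) (x : E) : ((cycRes M E σ x : E) : M) = σ x :=
  AlgEquiv.restrictNormal_commutes σ E x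

theorem autToQ_mem_ker_cycRes (γ : M ≃ₐ[E] M) : autToQ E γ ∈ (cycRes M E).ker := by
  rw [MonoidHom.mem_ker]
  ext x
  rw [coe_cycRes, AlgEquiv.one_apply]
  exact γ.commutes x

/-- `C(E) → C(M)` as a morphism of representations of `Aut(M/ℚ)` -/
def cycClassIncl : Rep.res (cycRes M E) (classRep E) ⟶ classRep M :=
  Rep.ofHom
    { toLinearMap := (MonoidHom.toAdditive
        (ClassGrp.incl (IsScalarTower.toAlgHom ℚ E M))).toIntLinearMap
      isIntertwining' := fun σ => by
        apply LinearMap.ext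
        intro c
        exact congrArg Additive.ofMul
          (ClassGrp.incl_smul (IsScalarTower.toAlgHom ℚ E M) (cycRes M E σ) σ
            (fun x => coe_cycRes M E σ x) (Additive.toMul (α := ClassGrp E) c)) }

theorem cycClassIncl_apply (c : classRep E) :
    (cycClassIncl M E).hom c = Additive.ofMul (ClassGrp.incl (IsScalarTower.toAlgHom ℚ E M)
      (Additive.toMul (α := ClassGrp E) c)) := rfl

theorem cycClassIncl_injective : Function.Injective (cycClassIncl M E).hom := by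
  intro a b h
  have h1 := congrArg Additive.toMul h
  exact congrArg Additive.ofMul (ClassGrp.incl_injective E h1)

theorem cycClassIncl_range (a : classRep M)
    (ha : ∀ s ∈ (cycRes M E).ker, (classRep M).ρ s a = a) :
    ∃ a' : classRep E, (cycClassIncl M E).hom a' = a := by
  obtain ⟨c', hc'⟩ := ClassGrp.exists_incl_eq_of_invariant E
    (Additive.toMul (α := ClassGrp M) a) (fun γ => by
      have h1 := ha (autToQ E γ) (autToQ_mem_ker_cycRes M E γ)
      exact congrArg Additive.toMul h1)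
  exact ⟨Additive.ofMul c', congrArg Additive.ofMul hc'⟩

/-- `I(ℚ) → I(E) → I(M)` is `I(ℚ) → I(M)` -/
theorem incl_inclQ (x : Idele ℚ) :
    Idele.incl (IsScalarTower.toAlgHom ℚ E M) (inclQ E x) = inclQ M x := by
  apply Idele.ext
  intro q
  apply Subtype.ext
  funext ι
  change (x.1 q).1 _ = (x.1 q).1 _
  exact congrArg (x.1 q).1 (Subsingleton.elim _ _)

theorem cycClassIncl_inclQRep (x : Idele ℚ) :
    (cycClassIncl M E).hom ((ideleToClassRep E).hom (inclQRep E x)) =
      (ideleToClassRep M).hom (inclQRep M x) := by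
  change Additive.ofMul (ClassGrp.incl (IsScalarTower.toAlgHom ℚ E M)
    (QuotientGroup.mk (inclQ E x))) = Additive.ofMul (QuotientGroup.mk (inclQ M x))
  rw [ClassGrp.incl_mk, incl_inclQ]

end Tower

section Cyclo

variable {p : ℕ} [hp : Fact p.Prime] {m : ℕ}
  (lam : (ZMod (p ^ (m + 1)))ˣ →* Multiplicative (ZMod (p ^ m)))
  (M : Type) [Field M] [NumberField M] [IsGalois ℚ M] {ζ : M}
  (hζ : IsPrimitiveRoot ζ (p ^ (m + 1)))

/-- `ζ` as an element of `ℚ(ζ)` -/
def cycGen (ζ : M) : cycSub M ζ := ⟨ζ, IntermediateField.mem_adjoin_simple_self ℚ ζ⟩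

include hζ in
theorem isPrimitiveRoot_cycGen : IsPrimitiveRoot (cycGen M ζ) (p ^ (m + 1)) :=
  IsPrimitiveRoot.coe_submonoidClass_iff.1 hζ

include hζ in
theorem isGalois_cycSub : IsGalois ℚ (cycSub M ζ) := by
  have := isCyclotomicExtension_cycSub M hζ
  exact IsCyclotomicExtension.isGalois {p ^ (m + 1)} ℚ (cycSub M ζ)

/-- the cyclotomic character of `M` factors through `ℚ(ζ)` -/
theorem autToPow_cycRes [Normal ℚ (cycSub M ζ)] (σ : M ≃ₐ[ℚ] M) :
    (isPrimitiveRoot_cycGen M hζ).autToPow ℚ (cycRes M (cycSub M ζ) σ) = hζ.autToPow ℚ σ := by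
  have hN : 0 < p ^ (m + 1) := pow_pos hp.out.pos _
  apply Units.ext
  apply ZMod.val_injective
  have h1 := hζ.autToPow_spec ℚ σ
  have h2 := (isPrimitiveRoot_cycGen M hζ).autToPow_spec ℚ (cycRes M (cycSub M ζ) σ)
  have h3 := congrArg (fun y : cycSub M ζ => (y : M)) h2
  simp only [SubmonoidClass.coe_pow] at h3
  rw [coe_cycRes] at h3
  have h4 : ζ ^ (((isPrimitiveRoot_cycGen M hζ).autToPow ℚ (cycRes M (cycSub M ζ) σ) :
      (ZMod (p ^ (m + 1)))ˣ) : ZMod (p ^ (m + 1))).val =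
      ζ ^ ((hζ.autToPow ℚ σ : (ZMod (p ^ (m + 1)))ˣ) : ZMod (p ^ (m + 1))).val :=
    h3.trans h1.symm
  exact hζ.pow_inj (ZMod.val_lt _) (ZMod.val_lt _) h4

theorem chiM_cycRes [Normal ℚ (cycSub M ζ)] (σ : M ≃ₐ[ℚ] M) :
    chiM lam (isPrimitiveRoot_cycGen M hζ) (cycRes M (cycSub M ζ) σ) = chiM lam hζ σ := by
  unfold chiM
  rw [autToPow_cycRes]

/-- the inflation of the cyclotomic class of `ℚ(ζ)` is the cyclotomic class of `M` -/
theorem map_cycloClass [IsGalois ℚ (cycSub M ζ)] (x : Idele ℚ) :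
    groupCohomology.map (cycRes M (cycSub M ζ)) (cycClassIncl M (cycSub M ζ)) 2
      (cycloClass lam (cycSub M ζ) (isPrimitiveRoot_cycGen M hζ) x) = cycloClass lam M hζ x :=
  map_map_cupδ_eq (cycRes M (cycSub M ζ)) (ideleToClassRep (cycSub M ζ)) (ideleToClassRep M)
    (cycClassIncl M (cycSub M ζ)) (chiM_mul lam (isPrimitiveRoot_cycGen M hζ)) (chiM_mul lam hζ)
    (chiM_cycRes lam M hζ) (inclQRep (cycSub M ζ) x) (inclQRep_invariant (cycSub M ζ) x)
    (inclQRep M x) (inclQRep_invariant M x) (cycClassIncl_inclQRep M (cycSub M ζ) x)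

/-- **(ORD-all)**: for every number field `M`, Galois over `ℚ`, containing `ζ_{p^(m+1)}`: if `k` kills
the cyclotomic class `π_*(x ∪ δχ) ∈ H²(Aut(M/ℚ), C(M))` of an idele `x` of `ℚ`, then the order of
`Φ x` divides `k`. -/
theorem orderOf_Phi_dvd_of_nsmul_cycloClass (hp2 : p ≠ 2) (hlam : Function.Surjective lam)
    (M : Type) [Field M] [NumberField M] [IsGalois ℚ M] {ζ : M}
    (hζ : IsPrimitiveRoot ζ (p ^ (m + 1))) (x : Idele ℚ) (k : ℕ)
    (hk : k • cycloClass lam M hζ x = 0) : orderOf (Phi p m lam x) ∣ k := by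
  have hcyc : IsCyclotomicExtension {p ^ (m + 1)} ℚ (cycSub M ζ) :=
    isCyclotomicExtension_cycSub M hζ
  have hgal : IsGalois ℚ (cycSub M ζ) := isGalois_cycSub M hζ
  -- the class over `ℚ(ζ)` is killed by `p ^ m`
  have hpm : p ^ m • cycloClass lam (cycSub M ζ) (isPrimitiveRoot_cycGen M hζ) x = 0 := by
    unfold cycloClass
    rw [← map_nsmul, nsmul_cupδ_eq_zero (chiM_mul lam (isPrimitiveRoot_cycGen M hζ))
      (fun g => by rw [nsmul_eq_mul, ZMod.natCast_self, zero_mul]), map_zero]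
  have hy : p ^ m • (k • cycloClass lam (cycSub M ζ) (isPrimitiveRoot_cycGen M hζ) x) = 0 := by
    rw [smul_comm, hpm, smul_zero]
  -- its multiple by `k` dies in `H²(Aut M, C(M))`
  have hinf : groupCohomology.map (cycRes M (cycSub M ζ)) (cycClassIncl M (cycSub M ζ)) 2
      (k • cycloClass lam (cycSub M ζ) (isPrimitiveRoot_cycGen M hζ) x) = 0 := by
    rw [map_nsmul, map_cycloClass lam M hζ x]
    exact hk
  -- K8: `H¹(Gal(M/ℚ(ζ)), C(M))` has no `p`-torsion
  have hζp : IsPrimitiveRoot (ζ ^ (p ^ m)) p :=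
    hζ.pow (pow_pos hp.out.pos _) (pow_succ p m)
  obtain ⟨h1, -⟩ := Places.classGroup_cohomology_uncond hp2 M hζp
    (cycRes M (cycSub M ζ)).ker.subtype Subtype.val_injective
  have h0 : k • cycloClass lam (cycSub M ζ) (isPrimitiveRoot_cycGen M hζ) x = 0 :=
    map_two_injective_pPrimary (cycRes M (cycSub M ζ)) (cycRes_surjective M (cycSub M ζ))
      (classRep M) (classRep (cycSub M ζ)) (cycClassIncl M (cycSub M ζ))
      (cycClassIncl_injective M (cycSub M ζ)) (cycClassIncl_range M (cycSub M ζ)) p h1 _ m hy hinf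
  exact orderOf_Phi_dvd_of_nsmul_cycloClass_cyclotomic lam (cycSub M ζ)
    (isPrimitiveRoot_cycGen M hζ) hlam hp2
    (fun j => Phi_norm_of_isPrimitiveRoot lam hp2 (cycSub M ζ) (isPrimitiveRoot_cycGen M hζ) _ j)
    x k h0

end Cyclo

end Fermat.Agent.S55lib.Recip
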