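/-
S55lib / Recip / CycloKer (helper8).  The cyclotomic GROUP THEORY of the tower (helper3's ASK 1,
#1897).  Setting: `K ⊂ M = K(ζ)` fields of characteristic zero, `K/ℚ` normal, `ζ` a primitive
`n`-th root of unity, `c := hζ.autToPow ℚ : (M ≃ₐ[ℚ] M) →* (ZMod n)ˣ`,
`R := (AlgEquiv.restrictNormalHom K : (M ≃ₐ[ℚ] M) →* (K ≃ₐ[ℚ] K)).ker` (`= Gal(M/K)`).
* (i) `eq_one_of_autToPow_eq_one` : `σ ∈ R`, `c σ = 1` ⟹ `σ = 1`; `autToPow_injOn_ker`;
* (ii) `autToPow_val_cast_eq_one` : `ζ ^ d ∈ K`, `d ∣ n`, `σ ∈ R` ⟹ `(c σ).val ≡ 1 mod n/d`;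
* (iii) `Uw p m w` (`= ker (ZMod.unitsMap)`), `mem_Uw_iff`, `card_Uw : Nat.card (Uw p m w) = p^(m+1-w)`;
* (iv) `isCyclic_ker`, `isPGroup_ker`, `card_ker_dvd`, `chi_injective_ker`.
-/
import Mathlib
import Fermat.Agent.S55lib.Places.LamChar

set_option autoImplicit false

noncomputable section

namespace Fermat.Agent.S55lib.Recip

open Fermat.Agent.S55lib

section General

variable (K M : Type) [Field K] [Field M] [CharZero K] [CharZero M] [Algebra K M] [Normal ℚ K]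
  {n : ℕ} [NeZero n] {ζ : M} (hζ : IsPrimitiveRoot ζ n)

/-- the relative Galois group `Gal(M/K)` inside `Gal(M/ℚ)` -/
abbrev resKer : Subgroup (M ≃ₐ[ℚ] M) :=
  (AlgEquiv.restrictNormalHom K : (M ≃ₐ[ℚ] M) →* (K ≃ₐ[ℚ] K)).ker

variable {K M}

/-- elements of `Gal(M/K)` fix `K` -/
theorem apply_algebraMap_of_mem_resKer {σ : M ≃ₐ[ℚ] M} (hσ : σ ∈ resKer K M) (x : K) :
    σ (algebraMap K M x) = algebraMap K M x := by
  have h1 : AlgEquiv.restrictNormalHom K σ = 1 := hσ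
  have h2 := AlgEquiv.restrictNormal_commutes σ K x
  have h3 : σ.restrictNormal K = 1 := h1
  rw [h3] at h2
  simpa using h2.symm

omit [CharZero M] [NeZero n] in
include hζ in
theorem pow_one_val : ζ ^ ((1 : (ZMod n)ˣ) : ZMod n).val = ζ := by
  rw [Units.val_one, ZMod.val_one_eq_one_mod, ← pow_eq_pow_mod 1 hζ.pow_eq_one, pow_one]

/-- **(i)** `c` is injective on `Gal(M/K)` when `M = K(ζ)` -/
theorem eq_one_of_autToPow_eq_one (hgen : Algebra.adjoin K {ζ} = ⊤) {σ : M ≃ₐ[ℚ] M}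
    (hσ : σ ∈ resKer K M) (h1 : hζ.autToPow ℚ σ = 1) : σ = 1 := by
  have hfix : σ ζ = ζ := by
    rw [← hζ.autToPow_spec ℚ σ, h1]
    exact pow_one_val hζ
  let σK : M →ₐ[K] M :=
    { (σ : M →+* M) with commutes' := fun x => apply_algebraMap_of_mem_resKer hσ x }
  have hσK : σK = AlgHom.id K M := by
    apply AlgHom.ext_of_adjoin_eq_top hgen
    intro x hx
    rw [Set.mem_singleton_iff] at hx
    subst hx
    exact hfix
  ext x
  have := congrArg (fun f : M →ₐ[K] M => f x) hσK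
  exact this

/-- **(i)**, injectivity form -/
theorem autToPow_injOn_ker (hgen : Algebra.adjoin K {ζ} = ⊤) :
    Function.Injective ((hζ.autToPow ℚ).comp (resKer K M).subtype) := by
  rw [injective_iff_map_eq_one]
  intro σ h
  exact Subtype.ext (eq_one_of_autToPow_eq_one hζ hgen σ.2 h)

/-- **(ii)** if `ζ ^ d ∈ K`, `d ∣ n`, then `c σ ≡ 1 mod n/d` for `σ ∈ Gal(M/K)` -/
theorem autToPow_val_cast_eq_one {d : ℕ} (hdn : d ∣ n) (hd : ∃ y : K, algebraMap K M y = ζ ^ d)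
    {σ : M ≃ₐ[ℚ] M} (hσ : σ ∈ resKer K M) :
    (((hζ.autToPow ℚ σ : (ZMod n)ˣ) : ZMod n).val : ZMod (n / d)) = 1 := by
  obtain ⟨y, hy⟩ := hd
  set e := ((hζ.autToPow ℚ σ : (ZMod n)ˣ) : ZMod n).val with he
  have hn0 : n ≠ 0 := NeZero.ne n
  have hd0 : d ≠ 0 := by
    rintro rfl
    exact hn0 (Nat.eq_zero_of_zero_dvd hdn)
  have h1 : σ (ζ ^ d) = ζ ^ d := by
    rw [← hy]
    exact apply_algebraMap_of_mem_resKer hσ y
  have h2 : ζ ^ (e * d) = ζ ^ (1 * d) := by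
    rw [pow_mul, hζ.autToPow_spec ℚ σ, ← map_pow, h1, one_mul]
  have hfin : IsOfFinOrder ζ :=
    isOfFinOrder_iff_pow_eq_one.2 ⟨n, Nat.pos_of_ne_zero hn0, hζ.pow_eq_one⟩
  rw [hfin.pow_eq_pow_iff_modEq, ← hζ.eq_orderOf] at h2
  obtain ⟨k, hk⟩ := hdn
  have h3 : e ≡ 1 [MOD k] := by
    have : e * d ≡ 1 * d [MOD k * d] := by
      rw [mul_comm k d, ← hk]
      exact h2
    exact Nat.ModEq.mul_right_cancel' hd0 this
  have hk' : n / d = k := by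
    rw [hk]
    exact Nat.mul_div_cancel_left k (Nat.pos_of_ne_zero hd0)
  rw [hk']
  have := (ZMod.natCast_eq_natCast_iff e 1 k).2 h3
  simpa using this

end General

section PrimePow

variable (p : ℕ) [hp : Fact p.Prime] (m : ℕ) {w : ℕ}

/-- `U w ≤ (ℤ/p^(m+1))ˣ`: the units `≡ 1 mod p^w`, as the kernel of reduction -/
def Uw (hw : w ≤ m + 1) : Subgroup (ZMod (p ^ (m + 1)))ˣ :=
  (ZMod.unitsMap (pow_dvd_pow p hw)).ker

theorem mem_Uw_iff (hw : w ≤ m + 1) (u : (ZMod (p ^ (m + 1)))ˣ) :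
    u ∈ Uw p m hw ↔ (((u : ZMod (p ^ (m + 1))).val : ℕ) : ZMod (p ^ w)) = 1 := by
  have : NeZero (p ^ (m + 1)) := ⟨pow_ne_zero _ hp.out.ne_zero⟩
  rw [Uw, MonoidHom.mem_ker, Units.ext_iff, ZMod.unitsMap_def, Units.coe_map, Units.val_one,
    MonoidHom.coe_coe, ZMod.castHom_apply, ZMod.natCast_val]

/-- **(iii)** `|U w| = p^(m+1-w)` for `1 ≤ w ≤ m+1` -/
theorem card_Uw (hw1 : 1 ≤ w) (hw : w ≤ m + 1) : Nat.card (Uw p m hw) = p ^ (m + 1 - w) := by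
  have : NeZero (p ^ (m + 1)) := ⟨pow_ne_zero _ hp.out.ne_zero⟩
  have : NeZero (p ^ w) := ⟨pow_ne_zero _ hp.out.ne_zero⟩
  have hsurj := ZMod.unitsMap_surjective (pow_dvd_pow p hw)
  have h1 := Subgroup.card_mul_index (ZMod.unitsMap (pow_dvd_pow p hw)).ker
  rw [Subgroup.index_ker, MonoidHom.range_eq_top.2 hsurj, Subgroup.card_top,
    Places.card_units_prime_pow] at h1
  obtain ⟨v, rfl⟩ : ∃ v, w = v + 1 := ⟨w - 1, by omega⟩
  rw [Places.card_units_prime_pow] at h1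
  have hpos : 0 < p ^ v * (p - 1) :=
    Nat.mul_pos (pow_pos hp.out.pos v) (Nat.sub_pos_of_lt hp.out.one_lt)
  have hmv : m = (m + 1 - (v + 1)) + v := by omega
  have h2 : Nat.card (ZMod.unitsMap (pow_dvd_pow p hw)).ker * (p ^ v * (p - 1))
      = p ^ (m + 1 - (v + 1)) * (p ^ v * (p - 1)) := by
    rw [h1, ← mul_assoc, ← pow_add, ← hmv]
  exact Nat.eq_of_mul_eq_mul_right hpos h2

end PrimePow

section Tower

variable {K M : Type} [Field K] [Field M] [CharZero K] [CharZero M] [Algebra K M] [Normal ℚ K]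
  {p : ℕ} [hp : Fact p.Prime] {m : ℕ} [NeZero (p ^ (m + 1))] {ζ : M}
  (hζ : IsPrimitiveRoot ζ (p ^ (m + 1))) (hgen : Algebra.adjoin K {ζ} = ⊤)

include hζ hgen in
/-- **(iv)** `Gal(M/K)` is cyclic (`p` odd, `M = K(ζ_{p^(m+1)})`) -/
theorem isCyclic_ker (hp2 : p ≠ 2) : IsCyclic (resKer K M) := by
  have : IsCyclic (ZMod (p ^ (m + 1)))ˣ := ZMod.isCyclic_units_of_prime_pow p hp.out hp2 _
  exact isCyclic_of_injective _ (autToPow_injOn_ker hζ hgen)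

/-- `c` maps `Gal(M/K)` into `U w` when `ζ ^ (p^(m+1-w)) ∈ K` -/
theorem autToPow_mem_Uw {w : ℕ} (hw : w ≤ m + 1)
    (hd : ∃ y : K, algebraMap K M y = ζ ^ (p ^ (m + 1 - w))) {σ : M ≃ₐ[ℚ] M}
    (hσ : σ ∈ resKer K M) : hζ.autToPow ℚ σ ∈ Uw p m hw := by
  rw [mem_Uw_iff]
  have hdn : p ^ (m + 1 - w) ∣ p ^ (m + 1) := pow_dvd_pow p (Nat.sub_le _ _)
  have h := autToPow_val_cast_eq_one hζ hdn hd hσ
  have hdiv : p ^ (m + 1) / p ^ (m + 1 - w) = p ^ w := by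
    rw [Nat.pow_div (Nat.sub_le _ _) hp.out.pos]
    congr 1
    omega
  rw [hdiv] at h
  exact h

include hζ hgen in
/-- **(iv)** `|Gal(M/K)| ∣ p^(m+1-w)` when `ζ ^ (p^(m+1-w)) ∈ K`, `1 ≤ w ≤ m+1` -/
theorem card_ker_dvd {w : ℕ} (hw1 : 1 ≤ w) (hw : w ≤ m + 1)
    (hd : ∃ y : K, algebraMap K M y = ζ ^ (p ^ (m + 1 - w))) :
    Nat.card (resKer K M) ∣ p ^ (m + 1 - w) := by
  rw [← card_Uw p m hw1 hw]
  let f : resKer K M →* Uw p m hw :=
    ((hζ.autToPow ℚ).comp (resKer K M).subtype).codRestrict (Uw p m hw)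
      (fun σ => autToPow_mem_Uw hζ hw hd σ.2)
  apply Subgroup.card_dvd_of_injective f
  intro a b hab
  apply autToPow_injOn_ker hζ hgen
  exact congrArg Subtype.val hab

include hζ hgen in
/-- **(iv)** `Gal(M/K)` is a `p`-group when `ζ_p = ζ ^ (p^m) ∈ K` -/
theorem isPGroup_ker (hd : ∃ y : K, algebraMap K M y = ζ ^ (p ^ m)) :
    IsPGroup p (resKer K M) := by
  have h := card_ker_dvd hζ hgen (w := 1) le_rfl (Nat.succ_le_succ (Nat.zero_le m))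
    (by simpa using hd)
  obtain ⟨k, -, hk⟩ := (Nat.dvd_prime_pow hp.out).1 h
  exact IsPGroup.of_card hk

include hgen in
/-- **(iv)** `χ = toAdd ∘ lam ∘ c` is injective on `Gal(M/K)` when `ζ_p ∈ K` and `lam` is surjective -/
theorem chi_injective_ker (lam : (ZMod (p ^ (m + 1)))ˣ →* Multiplicative (ZMod (p ^ m)))
    (hlam : Function.Surjective lam) (hd : ∃ y : K, algebraMap K M y = ζ ^ (p ^ m)) :
    Function.Injective
      (fun h : resKer K M => Multiplicative.toAdd (lam (hζ.autToPow ℚ (h : M ≃ₐ[ℚ] M)))) := by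
  intro a b hab
  have hab' : lam (hζ.autToPow ℚ (a : M ≃ₐ[ℚ] M)) = lam (hζ.autToPow ℚ (b : M ≃ₐ[ℚ] M)) :=
    Multiplicative.toAdd.injective hab
  have h1 : lam (hζ.autToPow ℚ ((a⁻¹ * b : resKer K M) : M ≃ₐ[ℚ] M)) = 1 := by
    rw [Subgroup.coe_mul, Subgroup.coe_inv, map_mul, map_mul, map_inv, map_inv, hab']
    exact inv_mul_cancel _
  obtain ⟨k, hk⟩ := (isPGroup_ker hζ hgen hd) (a⁻¹ * b)
  have h2 : (hζ.autToPow ℚ ((a⁻¹ * b : resKer K M) : M ≃ₐ[ℚ] M)) ^ (p ^ k) = 1 := by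
    rw [← map_pow, ← Subgroup.coe_pow, hk, Subgroup.coe_one, map_one]
  have h3 := Places.eq_one_of_lam_eq_one_of_pow lam hlam h2 h1
  have h4 := eq_one_of_autToPow_eq_one hζ hgen (a⁻¹ * b).2 h3
  have h5 : a⁻¹ * b = 1 := Subtype.ext h4
  exact (inv_mul_eq_one.1 h5)

end Tower

end Fermat.Agent.S55lib.Recip
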