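/-
S55 sprint, block K9 "reciprocity" (R5, helper3), file 1: the abstract core of the fundamental class.
* `restMap_relIndex_nsmul_eq_zero`: a class of `H²(G, A)` dying on `H ≤ H₂` dies on `H₂` after
  multiplication by `[H₂ : H]` (transfer);
* `exists_map_eq_relIndex_nsmul`: hence (if `H¹(H₂, A) = 0`, `H₂ = ker (r : G → G₁)` and
  `A₁ = A^{H₂}`) `[H₂ : H] • z` comes from `H²(G₁, A₁)`, and the order of the preimage is controlled;
* `exists_standard_char`: the standard character of a finite cyclic group;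
* the final arithmetic.
-/
import Mathlib
import Fermat.Agent.S55lib.Dev.PClass
import Fermat.Agent.S55lib.Recip.TateGen

set_option autoImplicit false

namespace Fermat.Agent.S55lib.Recip

open CategoryTheory groupCohomology Rep Fermat.Agent.S55lib.Dev

section RelIndex

variable {G : Type} [Group G] [Finite G] (A : Rep.{0} ℤ G) (H H₂ : Subgroup G) (hle : H ≤ H₂)

include hle in
/-- a class dying on `H ≤ H₂` dies on `H₂` after multiplication by `[H₂ : H]` -/
theorem restMap_relIndex_nsmul_eq_zero [Finite (H2 (Rep.res H.subtype A))]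
    (z : H2 A) (hz : restMap A H 2 z = 0) :
    restMap A H₂ 2 (H.relIndex H₂ • z) = 0 := by
  have hf : Function.Injective (Subgroup.inclusion hle) := Subgroup.inclusion_injective hle
  have : Finite (H2 (Rep.res (Subgroup.inclusion hle) (Rep.res H₂.subtype A))) :=
    inferInstanceAs (Finite (H2 (Rep.res H.subtype A)))
  have h1 : resMap (Rep.res H₂.subtype A) (Subgroup.inclusion hle) 2 (restMap A H₂ 2 z) = 0 := by
    have := resMap_comp A H₂.subtype (Subgroup.inclusion hle) 2 z
    rw [this]
    exact hz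
  have h2 := index_nsmul_eq_zero_of_resMap_eq_zero (Rep.res H₂.subtype A)
    (Subgroup.inclusion hle) hf (restMap A H₂ 2 z) h1
  rw [Subgroup.inclusion_range] at h2
  rw [map_nsmul]
  exact h2

end RelIndex

section Descent

variable {G G₁ : Type} [Group G] [Finite G] [Group G₁] (r : G →* G₁)
  (hr : Function.Surjective r) (A : Rep.{0} ℤ G) (A₁ : Rep.{0} ℤ G₁) (φ : Rep.res r A₁ ⟶ A)
  (hφinj : Function.Injective φ.hom)
  (hφrange : ∀ a : A, (∀ s ∈ r.ker, A.ρ s a = a) → ∃ a₁ : A₁, φ.hom a₁ = a)

include hr hφinj hφrange in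
/-- **the descent step**: if `z ∈ H²(G, A)` dies on `H ≤ ker r` and `H¹(ker r, A) = 0`, then
`[ker r : H] • z` comes from `H²(G₁, A₁)`; a lower bound for the order of `z` gives one for the
preimage. -/
theorem exists_map_eq_relIndex_nsmul (H : Subgroup G) (hle : H ≤ r.ker)
    [Finite (H2 (Rep.res H.subtype A))]
    [Subsingleton (groupCohomology (Rep.res r.ker.subtype A) 1)]
    (z : H2 A) (hz : restMap A H 2 z = 0) (N : ℕ) (hN : ∀ k : ℕ, k • z = 0 → N ∣ k) :
    ∃ u : H2 A₁, groupCohomology.map r φ 2 u = H.relIndex r.ker • z ∧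
      ∀ k : ℕ, k • u = 0 → N ∣ k * H.relIndex r.ker := by
  have h0 := restMap_relIndex_nsmul_eq_zero A H r.ker hle z hz
  obtain ⟨u, hu⟩ := exists_map_eq_of_res_eq_zero r hr A A₁ φ hφinj hφrange
    (H.relIndex r.ker • z) h0
  refine ⟨u, hu, fun k hk => hN _ ?_⟩
  rw [mul_nsmul', ← hu, ← map_nsmul, hk, map_zero]

end Descent

/-- a finite cyclic group has a standard character -/
theorem exists_standard_char {H : Type*} [Group H] [Finite H] [hc : IsCyclic H] :
    ∃ χ : H → ZMod (Nat.card H), (∀ g h, χ (g * h) = χ g + χ h) ∧ Function.Injective χ ∧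
      ∃ σ : H, χ σ = 1 := by
  let e := zmodCyclicMulEquiv hc
  refine ⟨fun h => Multiplicative.toAdd (e.symm h), fun g h => ?_, ?_,
    e (Multiplicative.ofAdd 1), ?_⟩
  · simp
  · intro g h hgh
    exact e.symm.injective (Multiplicative.toAdd.injective hgh)
  · simp

/-- the final arithmetic: `p^a ∣ k * p^c` with `a = b + c` gives `p^b ∣ k` -/
theorem pow_dvd_of_pow_dvd_mul_pow {p : ℕ} (hp : p.Prime) {a b c k : ℕ} (hab : a = b + c)
    (h : p ^ a ∣ k * p ^ c) : p ^ b ∣ k := by
  rw [hab, pow_add] at h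
  exact Nat.dvd_of_mul_dvd_mul_right (pow_pos hp.pos c) h

end Fermat.Agent.S55lib.Recip
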