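/-
S55 sprint, block K9 (reciprocity, invariant-free route #lead-122), glue R2 → R1/R5 (helper2).

For a number field `M`, Galois over `ℚ`, `Γ = M ≃ₐ[ℚ] M`: the arithmetic Artin map `Φ` as an additive
map `Psi lam M : (Dev.ideleRep M).ρ.invariants →+ ZMod (p^m)` on the `Γ`-invariant ideles of `M`
(`= I(ℚ)` by Galois descent), in the shape consumed by helper8's `Recip/TateGen.lean`:
* `Psi_incl` : `Ψ (incl y) = toAdd (Φ y)` for `y : Idele ℚ`;
* `Psi_eq_zero_of_diag` (hΨE) : `Ψ` kills the invariants coming from `Mˣ` (`p` odd);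
* `Psi_eq_zero_of_norm` (hΨN) : `Ψ` kills the norms `N_Γ j` (under `LN p m lam M`).
-/
import Mathlib
import Fermat.Agent.S55lib.Recip.ArtinPhi
import Fermat.Agent.S55lib.Dev.IdeleRep

set_option autoImplicit false
set_option linter.unusedSectionVars false

noncomputable section

namespace Fermat.Agent.S55lib.Recip

open Fermat.Agent.S55lib Fermat.Agent.S55lib.Places Fermat.Agent.S55lib.CycloArith
  Fermat.Agent.S55lib.Dev

section Single

variable {F M : Type*} [Field F] [Field M] [Algebra ℚ F] [Algebra ℚ M] (φ : F →ₐ[ℚ] M)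

/-- the inclusion of ideles is compatible with the component inclusions -/
theorem Idele.incl_single (q : Nat.Primes) (f : Jq (q : ℕ) F) :
    Idele.incl φ (Idele.single q f) = Idele.single q (Jq.incl φ f) := by
  classical
  apply Idele.ext
  intro q'
  rw [Idele.incl_apply]
  by_cases h : q' = q
  · subst h
    rw [Idele.single_apply_same, Idele.single_apply_same]
  · rw [Idele.single_apply_of_ne h, Idele.single_apply_of_ne h, map_one]

end Single

section Psi

variable {p : ℕ} [hp : Fact p.Prime] {m : ℕ}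
  (lam : (ZMod (p ^ (m + 1)))ˣ →* Multiplicative (ZMod (p ^ m)))
  (M : Type) [Field M] [Algebra ℚ M] [FiniteDimensional ℚ M] [IsGalois ℚ M]

omit [FiniteDimensional ℚ M] [IsGalois ℚ M] in
theorem autToQ_rat (γ : M ≃ₐ[ℚ] M) : autToQ ℚ γ = γ := by
  ext x
  rfl

variable {M}

omit [FiniteDimensional ℚ M] [IsGalois ℚ M] in
theorem smul_toMul_of_mem_invariants {x : ideleRep M} (hx : x ∈ (ideleRep M).ρ.invariants)
    (γ : M ≃ₐ[ℚ] M) : γ • Additive.toMul (α := Idele M) x =
      Additive.toMul (α := Idele M) x := by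
  have := hx γ
  exact congrArg Additive.toMul this

/-- **Galois descent**: a `Γ`-invariant idele of `M` comes from a unique idele of `ℚ` -/
theorem exists_incl_eq_of_mem_invariants {x : ideleRep M} (hx : x ∈ (ideleRep M).ρ.invariants) :
    ∃ y : Idele ℚ, Idele.incl (Algebra.ofId ℚ M) y =
      Additive.toMul (α := Idele M) x := by
  obtain ⟨y, hy⟩ := Idele.exists_incl_eq_of_invariant ℚ
    (Additive.toMul (α := Idele M) x) (fun γ => by
      rw [autToQ_rat]
      exact smul_toMul_of_mem_invariants hx γ)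
  refine ⟨y, ?_⟩
  rw [← hy]
  congr 1

variable (M)

/-- the idele of `ℚ` underlying a `Γ`-invariant idele of `M` -/
def descend (x : (ideleRep M).ρ.invariants) : Idele ℚ :=
  (exists_incl_eq_of_mem_invariants x.2).choose

variable {M}

theorem incl_descend (x : (ideleRep M).ρ.invariants) :
    Idele.incl (Algebra.ofId ℚ M) (descend M x) =
      Additive.toMul (α := Idele M) x.1 :=
  (exists_incl_eq_of_mem_invariants x.2).choose_spec

theorem descend_eq_iff (x : (ideleRep M).ρ.invariants) (φ : ℚ →ₐ[ℚ] M) (y : Idele ℚ) :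
    descend M x = y ↔ Idele.incl φ y = Additive.toMul (α := Idele M) x.1 := by
  rw [Subsingleton.elim φ (Algebra.ofId ℚ M), ← incl_descend x]
  constructor
  · rintro rfl; rfl
  · intro h
    exact (Idele.incl_injective (Algebra.ofId ℚ M) h).symm

variable (M)

/-- Galois descent as an additive map `I(M)^Γ → I(ℚ)` -/
def descendHom : (ideleRep M).ρ.invariants →+ Additive (Idele ℚ) where
  toFun x := Additive.ofMul (descend M x)
  map_zero' := by
    apply congrArg Additive.ofMul
    change descend M 0 = 1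
    rw [descend_eq_iff _ (Algebra.ofId ℚ M), map_one]
    rfl
  map_add' x y := by
    apply congrArg Additive.ofMul
    change descend M (x + y) = descend M x * descend M y
    rw [descend_eq_iff _ (Algebra.ofId ℚ M), map_mul, incl_descend, incl_descend]
    rfl

/-- **the arithmetic Artin map on the invariant ideles of `M`** -/
def Psi : (ideleRep M).ρ.invariants →+ ZMod (p ^ m) :=
  (MonoidHom.toAdditiveLeft (Phi p m lam)).comp (descendHom M)

variable {M}

theorem Psi_apply (x : (ideleRep M).ρ.invariants) :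
    Psi lam M x = Multiplicative.toAdd (Phi p m lam (descend M x)) := rfl

/-- `Ψ` on an idele coming from `ℚ` -/
theorem Psi_eq_of_incl (x : (ideleRep M).ρ.invariants) (φ : ℚ →ₐ[ℚ] M) (y : Idele ℚ)
    (h : Idele.incl φ y = Additive.toMul (α := Idele M) x.1) :
    Psi lam M x = Multiplicative.toAdd (Phi p m lam y) := by
  rw [Psi_apply, (descend_eq_iff x φ y).2 h]

/-- the ideles coming from `ℚ` are invariant -/
theorem incl_mem_invariants (φ : ℚ →ₐ[ℚ] M) (y : Idele ℚ) :
    (Additive.ofMul (Idele.incl φ y) : ideleRep M) ∈ (ideleRep M).ρ.invariants := by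
  intro γ
  apply congrArg Additive.ofMul
  have h := Idele.smul_incl ℚ M γ y
  rw [autToQ_rat] at h
  rw [Subsingleton.elim φ (IsScalarTower.toAlgHom ℚ ℚ M)]
  exact h

theorem Psi_incl (φ : ℚ →ₐ[ℚ] M) (y : Idele ℚ) :
    Psi lam M ⟨Additive.ofMul (Idele.incl φ y), incl_mem_invariants φ y⟩ =
      Multiplicative.toAdd (Phi p m lam y) :=
  Psi_eq_of_incl lam _ φ y rfl

/-- **(hΨE)**: `Ψ` kills the invariant ideles coming from `Mˣ` (`p` odd) — literally the hypothesis
of helper8's `tateGen_cupδ_eq_zero` for `ι = Dev.diagRep M` -/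
theorem Psi_eq_zero_of_diag (hp2 : p ≠ 2) (y : (ideleRep M).ρ.invariants)
    (h : ∃ e : Rep.ofAlgebraAutOnUnits ℚ M,
      (∀ g, (Rep.ofAlgebraAutOnUnits ℚ M).ρ g e = e) ∧ (diagRep M).hom e = y.1) :
    Psi lam M y = 0 := by
  obtain ⟨e, he, hey⟩ := h
  set v : Mˣ := Additive.toMul (α := Mˣ) e with hv
  have hfix : ∀ γ : M ≃ₐ[ℚ] M, γ (v : M) = v := by
    intro γ
    have h1 := congrArg Additive.toMul (he γ)
    exact congrArg (fun w : Mˣ => (w : M)) h1
  obtain ⟨a, ha⟩ := exists_unit_map_eq_of_fixed ℚ v hfix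
  have h2 : Idele.incl (Algebra.ofId ℚ M) (diagI ℚ a) =
      Additive.toMul (α := Idele M) y.1 := by
    rw [Idele.incl_diagI, ← hey]
    change diagI M _ = diagI M v
    congr 1
  rw [Psi_eq_of_incl lam y _ _ h2, Phi_diagI lam hp2]
  rfl

/-- **(hΨN)**: `Ψ` kills the norms (under (LN) for `M`) — literally the hypothesis of helper8's
`tateGen_cupδ_eq_zero` -/
theorem Psi_eq_zero_of_norm [Fintype (M ≃ₐ[ℚ] M)] (hLN : LN p m lam M)
    (y : (ideleRep M).ρ.invariants) (h : ∃ j : ideleRep M, (ideleRep M).ρ.norm j = y.1) :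
    Psi lam M y = 0 := by
  obtain ⟨j, hj⟩ := h
  set x : Idele M := Additive.toMul (α := Idele M) j with hx
  have h1 : Additive.toMul (α := Idele M) y.1 = ∏ γ : M ≃ₐ[ℚ] M, γ • x := by
    rw [← hj]
    change Additive.toMul (α := Idele M) ((∑ γ : M ≃ₐ[ℚ] M, (ideleRep M).ρ γ) j) = _
    rw [LinearMap.sum_apply]
    change Additive.toMul (∑ γ : M ≃ₐ[ℚ] M, Additive.ofMul (γ • x)) = _
    rw [toMul_sum]
    rfl
  have h2 : Idele.incl (IsScalarTower.toAlgHom ℚ ℚ M)
      (Idele.norm (IsScalarTower.toAlgHom ℚ ℚ M) x) =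
      Additive.toMul (α := Idele M) y.1 := by
    rw [h1, Idele.incl_norm ℚ x]
    refine Finset.prod_congr (Finset.ext fun γ => ?_) (fun γ _ => by rw [autToQ_rat])
    simp only [Finset.mem_univ]
  rw [Psi_eq_of_incl lam y _ _ h2, Phi_norm lam hLN]
  rfl

end Psi

end Fermat.Agent.S55lib.Recip
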