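/-
S55 sprint, block K9 reciprocity, R5 inputs (helper1).
**Completely split primes.**  For a finite Galois extension `L/ℚ` there are arbitrarily large primes `ℓ`
which split completely in `L`, in the sense that every local field `ℚ_ℓ(ι L)` is `ℚ_ℓ`; such an `ℓ`
still splits completely in `L(ζ_N)` for `N ∣ ℓ - 1` (Hensel: `μ_{ℓ-1} ⊂ ℤ_ℓ`).
-/
import Mathlib
import Fermat.Agent.S55lib.Recip.Elementary
import Fermat.Agent.S55lib.Recip.LocalBridge
import Fermat.Agent.S55lib.Places.Cyclo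

set_option autoImplicit false

namespace Fermat.Agent.S55lib.Recip

open Polynomial IntermediateField Fermat.Agent.S55lib

section Split

variable (L : Type) [Field L] [NumberField L]

/-- an integral primitive element -/
theorem exists_integral_primitive_element :
    ∃ θ : L, IsIntegral ℤ θ ∧ ℚ⟮θ⟯ = ⊤ := by
  obtain ⟨α, hα⟩ := Field.exists_primitive_element ℚ L
  have halg : IsAlgebraic ℤ α := by
    have h1 : IsAlgebraic ℚ α := (Algebra.IsIntegral.isIntegral (R := ℚ) α).isAlgebraic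
    exact (IsFractionRing.isAlgebraic_iff ℤ ℚ L).2 h1
  obtain ⟨y, hy, hint⟩ := halg.exists_integral_multiple
  refine ⟨y • α, hint, ?_⟩
  have hy0 : (y : L) ≠ 0 := by exact_mod_cast hy
  apply le_antisymm le_top
  rw [← hα, adjoin_simple_le_iff]
  have h1 : y • α ∈ ℚ⟮y • α⟯ := mem_adjoin_simple_self ℚ _
  have h2 : (y : L) ∈ ℚ⟮y • α⟯ := intCast_mem _ y
  have h3 : α = (y : L)⁻¹ * (y • α) := by
    rw [zsmul_eq_mul, ← mul_assoc, inv_mul_cancel₀ hy0, one_mul]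
  have h4 : (y : L)⁻¹ * (y • α) ∈ ℚ⟮y • α⟯ := mul_mem (inv_mem h2) h1
  rwa [← h3] at h4

/-- an embedding of `L = ℚ(θ)` into `ℚ̄_ℓ` with prescribed image of `θ` -/
theorem exists_emb_apply_eq {ℓ : ℕ} [Fact ℓ.Prime] {θ : L} (hθ : ℚ⟮θ⟯ = ⊤) (y : PadicAlgCl ℓ)
    (hy : aeval y (minpoly ℚ θ) = 0) : ∃ ι : Emb ℓ L, ι θ = y := by
  have hint : IsIntegral ℚ θ := Algebra.IsIntegral.isIntegral θ
  let e : ℚ⟮θ⟯ ≃ₐ[ℚ] L := (IntermediateField.equivOfEq hθ).trans IntermediateField.topEquiv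
  let pb : PowerBasis ℚ L := (IntermediateField.adjoin.powerBasis hint).map e
  have hgen : pb.gen = θ := rfl
  have hy' : aeval y (minpoly ℚ pb.gen) = 0 := by rw [hgen]; exact hy
  refine ⟨pb.lift y hy', ?_⟩
  rw [← hgen]
  exact pb.lift_gen y hy'

variable [IsGalois ℚ L]

/-- **completely split primes exist**: for `L/ℚ` finite Galois there are arbitrarily large primes `ℓ` such that
every local field `ℚ_ℓ(ι L)` is `ℚ_ℓ`. -/
theorem exists_prime_split (B : ℕ) :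
    ∃ (ℓ : ℕ) (_ : Fact ℓ.Prime), B < ℓ ∧ ∀ ι : Emb ℓ L, localField ℓ L ι = ⊥ := by
  obtain ⟨θ, hθint, hθ⟩ := exists_integral_primitive_element L
  have hfmap : (minpoly ℤ θ).map (Int.castRingHom ℚ) = minpoly ℚ θ :=
    (minpoly.isIntegrallyClosed_eq_field_fractions' ℚ hθint).symm
  have hdeg : 0 < (minpoly ℤ θ).natDegree := minpoly.natDegree_pos hθint
  have hsep : ((minpoly ℤ θ).map (Int.castRingHom ℚ)).Separable := by
    rw [hfmap]
    exact (minpoly.irreducible (Algebra.IsIntegral.isIntegral θ)).separable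
  obtain ⟨ℓ, hℓ, hBℓ, z, hz⟩ := exists_prime_gt_root_padicInt (minpoly ℤ θ) hdeg hsep B
  refine ⟨ℓ, hℓ, hBℓ, ?_⟩
  -- the root in `ℚ̄_ℓ`
  have hz' : aeval (algebraMap ℚ_[ℓ] (PadicAlgCl ℓ) (z : ℚ_[ℓ])) (minpoly ℚ θ) = 0 := by
    rw [← hfmap, aeval_def, eval₂_map]
    have h1 := congrArg ((algebraMap ℚ_[ℓ] (PadicAlgCl ℓ)).comp (PadicInt.Coe.ringHom (p := ℓ))) hz
    rw [aeval_def, hom_eval₂, map_zero] at h1
    rw [← h1]
    congr 1
  obtain ⟨ι₀, hι₀⟩ := exists_emb_apply_eq L hθ _ hz'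
  have h0 : localField ℓ L ι₀ = ⊥ := by
    rw [localField_eq_adjoin_simple ι₀ hθ, hι₀, IntermediateField.adjoin_simple_eq_bot_iff]
    exact IntermediateField.algebraMap_mem _ _
  intro ι
  obtain ⟨γ, hγ⟩ := Emb.exists_aut_of_res_eq (F := ℚ) ι₀ ι (Subsingleton.elim _ _)
  rw [hγ]
  exact (localField_comp_aut ι₀ (autToQ ℚ γ)).trans h0

end Split

/-! ### Roots of unity in `ℤ_ℓ` -/

section Hensel

theorem norm_lt_one_iff_toZMod {ℓ : ℕ} [Fact ℓ.Prime] (x : ℤ_[ℓ]) : ‖x‖ < 1 ↔ PadicInt.toZMod x = 0 := by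
  rw [← RingHom.mem_ker, PadicInt.ker_toZMod, IsLocalRing.mem_maximalIdeal, PadicInt.mem_nonunits]

theorem exists_primitiveRoot_padicInt (ℓ : ℕ) [hℓ : Fact ℓ.Prime] :
    ∃ ω : ℤ_[ℓ], IsPrimitiveRoot ω (ℓ - 1) := by
  obtain ⟨g, hg⟩ := IsCyclic.exists_generator (α := (ZMod ℓ)ˣ)
  have hord : orderOf g = ℓ - 1 := by
    rw [orderOf_eq_card_of_forall_mem_zpowers hg, Nat.card_eq_fintype_card, ZMod.card_units_eq_totient,
      Nat.totient_prime hℓ.out]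
  set a : ℤ_[ℓ] := (((g : ZMod ℓ).val : ℕ) : ℤ_[ℓ]) with ha
  have hag : PadicInt.toZMod a = (g : ZMod ℓ) := by
    rw [ha, map_natCast, ZMod.natCast_zmod_val]
  have hg1 : (g : ZMod ℓ) ^ (ℓ - 1) = 1 := by
    rw [← hord, ← Units.val_pow_eq_pow_val, pow_orderOf_eq_one, Units.val_one]
  have hℓ1 : ((ℓ - 1 : ℕ) : ZMod ℓ) ≠ 0 := by
    rw [Ne, ZMod.natCast_eq_zero_iff]
    intro h
    have := Nat.le_of_dvd (Nat.sub_pos_of_lt hℓ.out.one_lt) h
    have := hℓ.out.one_lt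
    omega
  have hF : ‖(X ^ (ℓ - 1) - 1 : ℤ_[ℓ][X]).aeval a‖ < ‖(X ^ (ℓ - 1) - 1 : ℤ_[ℓ][X]).derivative.aeval a‖ ^ 2 := by
    have h1 : ‖(X ^ (ℓ - 1) - 1 : ℤ_[ℓ][X]).aeval a‖ < 1 := by
      rw [norm_lt_one_iff_toZMod]
      simp only [map_sub, map_pow, aeval_X, map_one, hag, hg1, sub_self]
    have h2 : ‖(X ^ (ℓ - 1) - 1 : ℤ_[ℓ][X]).derivative.aeval a‖ = 1 := by
      have hle := PadicInt.norm_le_one ((X ^ (ℓ - 1) - 1 : ℤ_[ℓ][X]).derivative.aeval a)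
      rcases lt_or_eq_of_le hle with h | h
      · exfalso
        rw [norm_lt_one_iff_toZMod] at h
        simp only [derivative_sub, derivative_X_pow, derivative_one, sub_zero, map_mul, map_pow,
          aeval_X, map_natCast, hag] at h
        rcases mul_eq_zero.1 h with h' | h'
        · exact hℓ1 h'
        · exact (pow_ne_zero _ g.ne_zero) h'
      · exact h
    rw [h2, one_pow]
    exact h1
  obtain ⟨z, hz, hza, -, -⟩ := hensels_lemma hF
  have hz1 : z ^ (ℓ - 1) = 1 := by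
    simp only [map_sub, map_pow, aeval_X, map_one] at hz
    exact sub_eq_zero.1 hz
  have hzg : PadicInt.toZMod z = (g : ZMod ℓ) := by
    rw [← hag]
    have h3 : ‖z - a‖ < 1 := lt_of_lt_of_le hza (PadicInt.norm_le_one _)
    rw [norm_lt_one_iff_toZMod, map_sub, sub_eq_zero] at h3
    exact h3
  refine ⟨z, ⟨hz1, fun k hk => ?_⟩⟩
  rw [← hord]
  apply orderOf_dvd_of_pow_eq_one
  apply Units.ext
  rw [Units.val_pow_eq_pow_val, Units.val_one, ← hzg, ← map_pow, hk, map_one]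

end Hensel

/-! ### Roots of unity and completely split primes -/

section Cyclo

variable {ℓ : ℕ} [hℓ : Fact ℓ.Prime]

/-- a primitive `N`-th root of unity in `ℚ_ℓ ⊂ ℚ̄_ℓ` for `N ∣ ℓ - 1` -/
theorem exists_primitiveRoot_mem_bot {N : ℕ} (hN : N ∣ ℓ - 1) :
    ∃ Ω : PadicAlgCl ℓ, IsPrimitiveRoot Ω N ∧
      Ω ∈ (⊥ : IntermediateField ℚ_[ℓ] (PadicAlgCl ℓ)) := by
  obtain ⟨ω, hω⟩ := exists_primitiveRoot_padicInt ℓ
  obtain ⟨d, hd⟩ := hN
  have hpos : 0 < ℓ - 1 := Nat.sub_pos_of_lt hℓ.out.one_lt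
  have hω' : IsPrimitiveRoot (ω ^ d) N := hω.pow hpos (by rw [hd, mul_comm])
  refine ⟨algebraMap ℚ_[ℓ] (PadicAlgCl ℓ) ((ω ^ d : ℤ_[ℓ]) : ℚ_[ℓ]), ?_,
    IntermediateField.algebraMap_mem _ _⟩
  have h1 : IsPrimitiveRoot ((ω ^ d : ℤ_[ℓ]) : ℚ_[ℓ]) N :=
    hω'.map_of_injective (f := PadicInt.Coe.ringHom (p := ℓ)) Subtype.coe_injective
  exact h1.map_of_injective (algebraMap ℚ_[ℓ] (PadicAlgCl ℓ)).injective

variable (L : Type) [Field L] [NumberField L]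

/-- **a completely split prime `ℓ` stays completely split in `L(ζ_N)` for `N ∣ ℓ - 1`** -/
theorem split_of_cyclotomic (L' : Type) [Field L'] [NumberField L'] [Algebra L L'] {N : ℕ}
    [NeZero N] [IsCyclotomicExtension {N} L L'] (hN : N ∣ ℓ - 1)
    (hsplit : ∀ ι : Emb ℓ L, localField ℓ L ι = ⊥) (ι' : Emb ℓ L') :
    localField ℓ L' ι' = ⊥ := by
  obtain ⟨ζ, hζ⟩ := IsCyclotomicExtension.exists_isPrimitiveRoot L L' (Set.mem_singleton N)
    (NeZero.ne N)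
  have hadj : Algebra.adjoin L {ζ} = ⊤ := IsCyclotomicExtension.adjoin_primitive_root_eq_top hζ
  obtain ⟨Ω, hΩ, hΩbot⟩ := exists_primitiveRoot_mem_bot (ℓ := ℓ) hN
  have hιζ : (ι' ζ) ^ N = 1 := by rw [← map_pow, hζ.pow_eq_one, map_one]
  obtain ⟨i, -, hi⟩ := hΩ.eq_pow_of_pow_eq_one hιζ
  have hζbot : ι' ζ ∈ (⊥ : IntermediateField ℚ_[ℓ] (PadicAlgCl ℓ)) := by
    rw [← hi]; exact pow_mem hΩbot i
  have hcoef : ∀ c : L, ι' (algebraMap L L' c) ∈ (⊥ : IntermediateField ℚ_[ℓ] (PadicAlgCl ℓ)) := by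
    intro c
    rw [← hsplit (Emb.res (IsScalarTower.toAlgHom ℚ L L') ι')]
    exact range_subset_localField (Emb.res (IsScalarTower.toAlgHom ℚ L L') ι') c
  unfold localField
  rw [eq_bot_iff, IntermediateField.adjoin_le_iff]
  rintro _ ⟨x, rfl⟩
  have hx : x ∈ Algebra.adjoin L {ζ} := by rw [hadj]; trivial
  induction hx using Algebra.adjoin_induction with
  | mem y hy =>
    rw [Set.mem_singleton_iff] at hy
    subst hy
    exact hζbot
  | algebraMap c => exact hcoef c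
  | add y z _ _ h1 h2 =>
    rw [SetLike.mem_coe] at h1 h2 ⊢
    rw [map_add]; exact add_mem h1 h2
  | mul y z _ _ h1 h2 =>
    rw [SetLike.mem_coe] at h1 h2 ⊢
    rw [map_mul]; exact mul_mem h1 h2

/-- **a completely split prime `ℓ ∤ N` is `≡ 1 mod N` when `ζ_N ∈ L`** -/
theorem dvd_sub_one_of_split {N : ℕ} (hN : ¬ ℓ ∣ N) {ζ : L} (hζ : IsPrimitiveRoot ζ N)
    (ι : Emb ℓ L) (hsplit : localField ℓ L ι = ⊥) : N ∣ ℓ - 1 := by
  have hN0 : N ≠ 0 := fun h => hN (h ▸ dvd_zero ℓ)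
  have hmem : ι ζ ∈ (⊥ : IntermediateField ℚ_[ℓ] (PadicAlgCl ℓ)) := by
    rw [← hsplit]; exact range_subset_localField ι ζ
  obtain ⟨y, hy⟩ := IntermediateField.mem_bot.1 hmem
  have hιζ : IsPrimitiveRoot (ι ζ) N := hζ.map_of_injective ι.injective
  have hyN : y ^ N = 1 := by
    apply (algebraMap ℚ_[ℓ] (PadicAlgCl ℓ)).injective
    rw [map_pow, hy, hιζ.pow_eq_one, map_one]
  have hy1 : ‖y‖ = 1 := (isOfFinOrder_iff_pow_eq_one.2 ⟨N, Nat.pos_of_ne_zero hN0, hyN⟩).norm_eq_one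
  set u : ℤ_[ℓ] := ⟨y, hy1.le⟩ with hu
  have huN : u ^ N = 1 := by
    apply Subtype.ext
    rw [PadicInt.coe_pow, PadicInt.coe_one]
    exact hyN
  -- the reduction has order `N`
  have hred : ∀ k : ℕ, (PadicInt.toZMod u) ^ k = 1 → N ∣ k := by
    intro k hk
    have h1 : ‖u ^ k - 1‖ < 1 := by
      rw [norm_lt_one_iff_toZMod, map_sub, map_pow, hk, map_one, sub_self]
    have h2 : ‖algebraMap ℚ_[ℓ] (PadicAlgCl ℓ) ((u ^ k : ℤ_[ℓ]) : ℚ_[ℓ]) - 1‖ < 1 := by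
      rw [← map_one (algebraMap ℚ_[ℓ] (PadicAlgCl ℓ)), ← map_sub, norm_algebraMap']
      have : ((u ^ k : ℤ_[ℓ]) : ℚ_[ℓ]) - 1 = ((u ^ k - 1 : ℤ_[ℓ]) : ℚ_[ℓ]) := by
        rw [PadicInt.coe_sub, PadicInt.coe_one]
      rw [this, PadicInt.padic_norm_e_of_padicInt]
      exact h1
    have h3 := Places.eq_of_pow_eq_one_of_norm_sub_lt_one (q := ℓ) hN
      (β := algebraMap ℚ_[ℓ] (PadicAlgCl ℓ) ((u ^ k : ℤ_[ℓ]) : ℚ_[ℓ])) (β' := 1)
      (by rw [← map_pow, ← PadicInt.coe_pow, ← pow_mul, mul_comm, pow_mul, huN, one_pow,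
        PadicInt.coe_one, map_one]) (one_pow N) h2
    have h4 : (ι ζ) ^ k = 1 := by
      rw [← hy, ← map_pow]
      have : y ^ k = ((u ^ k : ℤ_[ℓ]) : ℚ_[ℓ]) := by rw [PadicInt.coe_pow]
      rw [this, ← h3]
    exact hιζ.dvd_of_pow_eq_one k h4
  apply hred
  have hne : PadicInt.toZMod u ≠ 0 := by
    intro h0
    have := congrArg PadicInt.toZMod huN
    rw [map_pow, h0, zero_pow hN0, map_one] at this
    exact zero_ne_one this
  exact ZMod.pow_card_sub_one_eq_one hne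

end Cyclo

end Fermat.Agent.S55lib.Recip
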