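import Fermat.Agent.S55lib.Recip.CupDelta

set_option autoImplicit false
set_option linter.unusedSectionVars false

namespace Fermat.Agent.S55lib.Recip

open groupCohomology

universe u

section NormZero

variable {k G : Type u} [CommRing k] [Group G] [Fintype G] {A : Rep k G} {n : ℕ} [NeZero n]
  {χ : G → ZMod n}

/-- `N b ∪ δχ` is a coboundary, for every finite group and every character. -/
lemma cupδFun_norm_mem_coboundaries₂' (hχ : ∀ g h, χ (g * h) = χ g + χ h) (b : A) :
    cupδFun A χ (A.ρ.norm b) ∈ coboundaries₂ A := by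
  refine ⟨fun g => ∑ τ : G, carry (χ g) (χ (g⁻¹ * τ)) • A.ρ τ b, ?_⟩
  funext ⟨g, h⟩
  simp only [d₁₂_hom_apply, cupδFun]
  have h1 : A.ρ g (∑ τ : G, carry (χ h) (χ (h⁻¹ * τ)) • A.ρ τ b)
      = ∑ τ : G, carry (χ h) (χ ((g * h)⁻¹ * τ)) • A.ρ τ b := by
    rw [map_sum]
    refine Fintype.sum_equiv (Equiv.mulLeft g) _ _ (fun τ => ?_)
    simp only [map_nsmul, Equiv.coe_mulLeft, mul_inv_rev, mul_assoc, inv_mul_cancel_left]
    rw [map_mul]; rfl
  rw [h1]
  have h2 : carry (χ g) (χ h) • A.ρ.norm b = ∑ τ : G, carry (χ g) (χ h) • A.ρ τ b := by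
    simp [Representation.norm, Finset.smul_sum]
  rw [h2, sub_add_eq_add_sub, sub_eq_iff_eq_add, ← Finset.sum_add_distrib, ← Finset.sum_add_distrib]
  refine Finset.sum_congr rfl (fun τ _ => ?_)
  rw [← add_smul, ← add_smul]
  congr 1
  have := carry_assoc (χ g) (χ h) (χ ((g * h)⁻¹ * τ))
  have e : χ h + χ ((g * h)⁻¹ * τ) = χ (g⁻¹ * τ) := by
    rw [← hχ]; congr 1; group
  rw [e, ← hχ] at this
  omega

theorem cupδ_norm_eq_zero (hχ : ∀ g h, χ (g * h) = χ g + χ h) (b : A) :
    cupδ χ hχ (A.ρ.norm b) (fun g => Representation.self_norm_apply _ g b) = 0 := by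
  unfold cupδ
  rw [H2π_eq_zero_iff]
  exact cupδFun_norm_mem_coboundaries₂' hχ b

end NormZero

section Nrel

variable {k G : Type u} [CommRing k] [Group G] [Fintype G] (H : Subgroup G) (A : Rep k G)

open Classical in
/-- The relative norm `∑_{γ ∈ G/H} γ a` (meaningful on `H`-invariant `a`). -/
noncomputable def Nrel (a : A) : A := ∑ q : G ⧸ H, A.ρ (Quotient.out q) a

variable {H A}

lemma ρ_out_eq {a : A} (ha : ∀ h ∈ H, A.ρ h a = a) (g : G) :
    A.ρ (Quotient.out (g : G ⧸ H)) a = A.ρ g a := by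
  have h1 : (Quotient.out (g : G ⧸ H))⁻¹ * g ∈ H := by
    rw [← QuotientGroup.eq]
    exact QuotientGroup.out_eq' _
  have h2 : g = Quotient.out (g : G ⧸ H) * ((Quotient.out (g : G ⧸ H))⁻¹ * g) := by group
  conv_rhs => rw [h2, map_mul]
  change _ = A.ρ _ (A.ρ _ a)
  rw [ha _ h1]

open Classical in
lemma Nrel_invariant {a : A} (ha : ∀ h ∈ H, A.ρ h a = a) (g : G) :
    A.ρ g (Nrel H A a) = Nrel H A a := by
  unfold Nrel
  rw [map_sum]
  have : ∀ q : G ⧸ H, A.ρ g (A.ρ (Quotient.out q) a) = A.ρ (Quotient.out (g • q)) a := by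
    intro q
    have hq : g • q = ((g * Quotient.out q : G) : G ⧸ H) := by
      conv_lhs => rw [← QuotientGroup.out_eq' q]
      rfl
    rw [hq, ρ_out_eq ha, map_mul]; rfl
  simp_rw [this]
  exact Fintype.sum_equiv (MulAction.toPerm g) _ _ (fun q => rfl)

open Classical in
lemma Nrel_of_invariant {a : A} (ha : ∀ g : G, A.ρ g a = a) :
    Nrel H A a = H.index • a := by
  unfold Nrel
  simp_rw [ha]
  rw [Finset.sum_const, Finset.card_univ, Subgroup.index, Nat.card_eq_fintype_card]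

open Classical in
lemma Nrel_add (a b : A) : Nrel H A (a + b) = Nrel H A a + Nrel H A b := by
  unfold Nrel
  simp_rw [map_add]
  exact Finset.sum_add_distrib

open Classical in
lemma Nrel_map {B : Rep k G} (φ : A ⟶ B) (a : A) : φ.hom (Nrel H A a) = Nrel H B (φ.hom a) := by
  unfold Nrel
  rw [map_sum]
  refine Finset.sum_congr rfl (fun q _ => ?_)
  exact Rep.hom_comm_apply φ _ _

lemma outMul_bijective : Function.Bijective (fun x : (G ⧸ H) × H => Quotient.out x.1 * (x.2 : G)) := by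
  constructor
  · rintro ⟨q, h⟩ ⟨q', h'⟩ hx
    simp only at hx
    have hq : q = q' := by
      have h1 : ((Quotient.out q * (h : G) : G) : G ⧸ H) = q := by
        rw [QuotientGroup.mk_mul_of_mem _ h.2]; exact QuotientGroup.out_eq' q
      have h2 : ((Quotient.out q' * (h' : G) : G) : G ⧸ H) = q' := by
        rw [QuotientGroup.mk_mul_of_mem _ h'.2]; exact QuotientGroup.out_eq' q'
      rw [← h1, ← h2, hx]
    subst hq
    have : (h : G) = h' := mul_left_cancel hx
    rw [Subtype.ext this]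
  · intro g
    refine ⟨((g : G ⧸ H), ⟨(Quotient.out (g : G ⧸ H))⁻¹ * g, ?_⟩), ?_⟩
    · rw [← QuotientGroup.eq]; exact QuotientGroup.out_eq' _
    · simp

open Classical in
/-- `N_{G/H} (N_H b) = N_G b`. -/
lemma Nrel_norm (b : A) :
    Nrel H A (∑ h : H, A.ρ (h : G) b) = A.ρ.norm b := by
  unfold Nrel
  simp_rw [map_sum]
  have hn : A.ρ.norm b = ∑ g : G, A.ρ g b := by simp [Representation.norm]
  rw [hn]
  have h1 := Fintype.sum_bijective _ (outMul_bijective (H := H))
    (fun x : (G ⧸ H) × H => A.ρ (Quotient.out x.1) (A.ρ (x.2 : G) b)) (fun g => A.ρ g b)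
    (fun x => by rw [map_mul]; rfl)
  rw [← h1, Fintype.sum_prod_type]

end Nrel

end Fermat.Agent.S55lib.Recip
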