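import Fermat.Agent.S55lib.Recip.CupDelta
import Fermat.Agent.S55lib.Recip.TateAux

set_option autoImplicit false
set_option linter.unusedSectionVars false

namespace Fermat.Agent.S55lib.Recip

open groupCohomology CategoryTheory

universe u

section General

variable {k G : Type u} [CommRing k] [Group G] {A : Rep k G} {n : ℕ} [NeZero n]
  {χ : G → ZMod n} (hχ : ∀ g h, χ (g * h) = χ g + χ h)

lemma cupδ_eq_cupδLin (a : A) (ha : ∀ g : G, A.ρ g a = a) :
    cupδ χ hχ a ha = cupδLin hχ ⟨a, ha⟩ := rfl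

lemma cupδ_neg (a : A) (ha : ∀ g : G, A.ρ g a = a) :
    cupδ χ hχ (-a) (fun g => by rw [map_neg, ha]) = - cupδ χ hχ a ha := by
  rw [cupδ_eq_cupδLin, cupδ_eq_cupδLin, ← map_neg]; rfl

lemma cupδ_sub (a b : A) (ha : ∀ g : G, A.ρ g a = a) (hb : ∀ g : G, A.ρ g b = b) :
    cupδ χ hχ (a - b) (fun g => by rw [map_sub, ha, hb]) = cupδ χ hχ a ha - cupδ χ hχ b hb := by
  rw [cupδ_eq_cupδLin, cupδ_eq_cupδLin, cupδ_eq_cupδLin, ← map_sub]; rfl

lemma cupδ_nsmul (m : ℕ) (a : A) (ha : ∀ g : G, A.ρ g a = a) :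
    cupδ χ hχ (m • a) (fun g => by rw [map_nsmul, ha]) = m • cupδ χ hχ a ha := by
  rw [cupδ_eq_cupδLin, cupδ_eq_cupδLin, ← map_nsmul]; rfl

end General

section TateLemma

variable {k Γ : Type u} [CommRing k] [Group Γ] [Fintype Γ] (H : Subgroup Γ)
  {E J C : Rep k Γ} (ι : E ⟶ J) (π : J ⟶ C)
  {n : ℕ} [NeZero n] {χ : Γ → ZMod n} (hχ : ∀ g h, χ (g * h) = χ g + χ h)

/-- The restriction of `χ` to `H`. -/
def χres (χ : Γ → ZMod n) : H → ZMod n := fun h => χ (h : Γ)

include hχ in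
lemma χres_add (h₁ h₂ : H) : χres H χ (h₁ * h₂) = χres H χ h₁ + χres H χ h₂ := by
  simp [χres, hχ]

open Classical in
/-- **Tate's lemma** (abstract form).  Let `H ≤ Γ` be cyclic of order `n`, generated by `σ`, with
`χ : Γ → ZMod n` restricting to an isomorphism on `H`.  Let `E → J → C` be `Γ`-modules such that
`H²(H,E) → H²(H,J) → H²(H,C)` is exact, `|H²(H,C)| ≤ n`, and let `inv` be an additive map on
`H²(Γ,J)` killing the image of `H²(Γ,E)`.  If some `H`-invariant `j₁` has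
`inv ((N_{Γ/H} j₁) ∪ δχ)` of order `n`, then for every `Γ`-invariant `x` with
`[Γ:H] • inv (x ∪ δχ) = 0` the class `x ∪ δχ` dies in `H²(H,C)`. -/
theorem res_map_cupδ_eq_zero
    (hex : ∀ z : H2 (Rep.res H.subtype J),
      groupCohomology.map (MonoidHom.id H) ((Rep.resFunctor H.subtype).map π) 2 z = 0 →
      ∃ e : H2 (Rep.res H.subtype E),
        groupCohomology.map (MonoidHom.id H) ((Rep.resFunctor H.subtype).map ι) 2 e = z)
    {T : Type*} [AddCommGroup T] (inv : H2 J →+ T)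
    (hrec : ∀ e : H2 E, inv (groupCohomology.map (MonoidHom.id Γ) ι 2 e) = 0)
    (hinj : Function.Injective (χres H χ)) (σ : H) (hσ : χres H χ σ = 1)
    [Finite (H2 (Rep.res H.subtype C))] (hcard : Nat.card (H2 (Rep.res H.subtype C)) ≤ n)
    (j₁ : J) (hj₁ : ∀ h ∈ H, J.ρ h j₁ = j₁)
    (hord : ∀ m : ℕ, m • inv (cupδ χ hχ (Nrel H J j₁) (Nrel_invariant hj₁)) = 0 → n ∣ m)
    (x : J) (hx : ∀ g, J.ρ g x = x) (hx0 : H.index • inv (cupδ χ hχ x hx) = 0) :
    groupCohomology.map H.subtype (𝟙 (Rep.res H.subtype C)) 2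
      (groupCohomology.map (MonoidHom.id Γ) π 2 (cupδ χ hχ x hx)) = 0 := by
  have hχH := χres_add H hχ
  -- the two additive maps on the `H`-invariants of `J`
  let Inv := (Rep.res H.subtype J).ρ.invariants
  have memInv : ∀ j : J, j ∈ Inv ↔ ∀ h ∈ H, J.ρ h j = j := fun j =>
    ⟨fun hj h hh => hj ⟨h, hh⟩, fun hj h => hj h h.2⟩
  let f : Inv →ₗ[k] H2 (Rep.res H.subtype C) :=
    (groupCohomology.map (MonoidHom.id H) ((Rep.resFunctor H.subtype).map π) 2).hom ∘ₗ
      cupδLin (A := Rep.res H.subtype J) hχH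
  let NrelHom : Inv →+ J.ρ.invariants :=
    { toFun := fun j => ⟨Nrel H J j.1, Nrel_invariant ((memInv _).1 j.2)⟩
      map_zero' := by
        apply Subtype.ext
        change Nrel H J 0 = 0
        simp [Nrel]
      map_add' := fun a b => by
        apply Subtype.ext
        exact Nrel_add _ _ }
  let ψ : Inv →+ T := inv.comp ((cupδLin (A := J) hχ).toAddMonoidHom.comp NrelHom)
  -- Claim 1
  have claim1 : ∀ j : Inv, f j = 0 → ψ j = 0 := by
    intro j hj
    obtain ⟨e, he⟩ := hex _ hj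
    obtain ⟨a, ha, rfl⟩ := exists_eq_cupδ (A := Rep.res H.subtype E) hχH hinj hσ e
    rw [map_cupδ] at he
    -- he : cupδ _ (ι a) = cupδLin j
    have haJ : ∀ h : H, (Rep.res H.subtype J).ρ h (ι.hom a) = ι.hom a := fun h => by
      have := Rep.hom_comm_apply ι (h : Γ) a
      change J.ρ (h : Γ) (ι.hom a) = _
      rw [← this]
      congr 1
      exact ha h
    have hsub : cupδ (A := Rep.res H.subtype J) (χres H χ) hχH (j.1 - ι.hom a)
        (fun h => by rw [map_sub, j.2 h, haJ h]) = 0 := by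
      rw [cupδ_sub hχH j.1 (ι.hom a) j.2 haJ, sub_eq_zero]
      exact he.symm
    rw [cupδ_eq_zero_iff hχH hinj hσ] at hsub
    obtain ⟨j₀, hj₀⟩ := hsub
    have hj₀' : ∑ h : H, J.ρ (h : Γ) j₀ = j.1 - ι.hom a := by
      rw [← hj₀]; simp [Representation.norm]
    have hNj : Nrel H J j.1 = ι.hom (Nrel H E a) + J.ρ.norm j₀ := by
      rw [← Nrel_norm (H := H) j₀, hj₀', Nrel_map, ← Nrel_add]
      congr 1; abel
    have haE : ∀ g : Γ, E.ρ g (Nrel H E a) = Nrel H E a :=
      Nrel_invariant (fun h hh => ha ⟨h, hh⟩)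
    change inv (cupδ χ hχ (Nrel H J j.1) _) = 0
    rw [cupδ_congr hχ hNj, cupδ_add hχ _ _ (fun g => by
        rw [← Rep.hom_comm_apply ι g, haE g])
      (fun g => Representation.self_norm_apply _ g j₀), cupδ_norm_eq_zero hχ j₀, add_zero]
    have := map_cupδ hχ (MonoidHom.id Γ) ι (Nrel H E a) haE
    have h2 := hrec (cupδ χ hχ (Nrel H E a) haE)
    rw [this] at h2
    exact h2
  -- the elements
  have hxInv : x ∈ Inv := (memInv x).2 (fun h _ => hx h)
  have hj₁Inv : j₁ ∈ Inv := (memInv j₁).2 hj₁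
  let X : Inv := ⟨x, hxInv⟩
  let J1 : Inv := ⟨j₁, hj₁Inv⟩
  have hψJ1 : ∀ m : ℕ, m • ψ J1 = 0 → n ∣ m := hord
  have hψX : ψ X = 0 := by
    change inv (cupδ χ hχ (Nrel H J x) _) = 0
    rw [cupδ_congr hχ (Nrel_of_invariant (H := H) hx), cupδ_nsmul hχ _ x hx, map_nsmul]
    exact hx0
  have hinjF : Function.Injective (fun a : Fin n => f ((a : ℕ) • J1)) := by
    intro a b hab
    wlog hle : (a : ℕ) ≤ b generalizing a b
    · exact (this hab.symm (le_of_not_ge hle)).symm
    have h0 : f (((b : ℕ) - a) • J1) = 0 := by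
      rw [sub_nsmul _ hle, map_add, map_neg]
      simp only at hab
      rw [hab]; abel
    have h1 := claim1 _ h0
    rw [map_nsmul] at h1
    have h2 := hψJ1 _ h1
    have h3 : (b : ℕ) - a = 0 := Nat.eq_zero_of_dvd_of_lt h2 (by omega)
    exact Fin.ext (by omega)
  have hbij : Function.Bijective (fun a : Fin n => f ((a : ℕ) • J1)) :=
    Function.Injective.bijective_of_nat_card_le hinjF (by simpa using hcard)
  obtain ⟨a, ha⟩ := hbij.2 (f X)
  simp only at ha
  have h0 : f (X - (a : ℕ) • J1) = 0 := by rw [map_sub, ha, sub_self]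
  have h1 := claim1 _ h0
  rw [map_sub, hψX, map_nsmul, zero_sub, neg_eq_zero] at h1
  have h2 := hψJ1 _ h1
  have ha0 : (a : ℕ) = 0 := Nat.eq_zero_of_dvd_of_lt h2 a.2
  have hfX : f X = 0 := by rw [← ha, ha0, zero_smul, map_zero]
  -- translate
  rw [map_cupδ, map_cupδ]
  have : f X = cupδ (A := Rep.res H.subtype C) (χres H χ) hχH (π.hom x)
      (fun h => by
        have := Rep.hom_comm_apply π (h : Γ) x
        change C.ρ (h : Γ) (π.hom x) = _
        rw [← this, hx]) := by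
    change groupCohomology.map (MonoidHom.id H) ((Rep.resFunctor H.subtype).map π) 2
      (cupδ (A := Rep.res H.subtype J) (χres H χ) hχH x _) = _
    rw [map_cupδ]
    rfl
  rw [this] at hfX
  exact hfX

end TateLemma

end Fermat.Agent.S55lib.Recip
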