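/-
S55 sprint, block K9 reciprocity, R5 inputs (helper1).
**Idele-side inputs of the fundamental class construction (G)** (route #lead-122):
* `splitIdele` : at a completely split prime `q` of `F`, the idele equal to `y ∈ ℚ_qˣ` at one embedding and `1`
  elsewhere; its norm to `ℚ` is the idele `y` at `q`;
* `Nrel_incl` : the relative norm `N_{Γ/H}` of an idele of `F ⊂ M` (`H = Gal(M/F)`, `Γ = Aut(M/ℚ)`) is its
  absolute norm;
* (the map `Ψ` on `I(M)^Γ = I(ℚ)` is helper2's `Recip/ArtinPsi.lean`);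
* `hex_idele`, `card_H2_le` : the exactness and counting hypotheses of the Tate lemma for
  `Mˣ → I(M) → C(M)`.
-/
import Mathlib
import Fermat.Agent.S55lib.Recip.SplitPrime
import Fermat.Agent.S55lib.Recip.ArtinPhi
import Fermat.Agent.S55lib.Recip.ArtinPsi
import Fermat.Agent.S55lib.Recip.TateLemma
import Fermat.Agent.S55lib.Dev.IdeleRep
import Fermat.Agent.S55lib.Places.CyclicLayers
import Fermat.Agent.S55lib.Dev.Hasse
import Fermat.Agent.S55lib.Places.LamChar

set_option autoImplicit false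
set_option linter.unusedSectionVars false

noncomputable section

namespace Fermat.Agent.S55lib.Recip

open Fermat.Agent.S55lib Fermat.Agent.S55lib.Dev

/-! ### The idele supported at one embedding over a completely split prime -/

section SplitIdele

variable {q : ℕ} [Fact q.Prime] {F : Type} [Field F] [NumberField F]

/-- at a completely split prime every embedding is fixed by the local Galois group -/
theorem smul_eq_self_of_split (hsplit : ∀ ι : Emb q F, localField q F ι = ⊥) (d : GalQq q)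
    (ι : Emb q F) : d • ι = ι := by
  rw [Emb.smul_eq_self_iff, hsplit ι, IntermediateField.fixingSubgroup_bot]
  trivial

open Classical in
/-- the element of `J_q(F)` equal to `y` at `ι₀` and `1` at the other embeddings (`q` completely split) -/
def splitJq (hsplit : ∀ ι : Emb q F, localField q F ι = ⊥) (ι₀ : Emb q F) (y : ℚ_[q]ˣ) : Jq q F :=
  ⟨fun ι => if ι = ι₀ then
      Units.map (algebraMap ℚ_[q] (PadicAlgCl q) : ℚ_[q] →* PadicAlgCl q) y else 1, by
    intro d ι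
    rw [smul_eq_self_of_split hsplit d ι]
    beta_reduce
    by_cases h : ι = ι₀
    · rw [if_pos h]
      exact (d.commutes (y : ℚ_[q])).symm
    · rw [if_neg h, Units.val_one, map_one]⟩

open Classical in
theorem splitJq_apply (hsplit : ∀ ι : Emb q F, localField q F ι = ⊥) (ι₀ : Emb q F) (y : ℚ_[q]ˣ)
    (ι : Emb q F) : (splitJq hsplit ι₀ y).1 ι = if ι = ι₀ then
      Units.map (algebraMap ℚ_[q] (PadicAlgCl q) : ℚ_[q] →* PadicAlgCl q) y else 1 := rfl

/-- the norm to `ℚ` of `splitJq` is the constant `y` -/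
theorem norm_splitJq (hsplit : ∀ ι : Emb q F, localField q F ι = ⊥) (ι₀ : Emb q F) (y : ℚ_[q]ˣ)
    (φ : ℚ →ₐ[ℚ] F) : Jq.norm φ (splitJq hsplit ι₀ y) = ofRatJq q y := by
  classical
  apply Subtype.ext
  funext κ
  rw [Jq.norm_apply]
  have hκ : Emb.res φ ι₀ = κ := Subsingleton.elim _ _
  rw [Finset.prod_eq_single ι₀]
  · rw [splitJq_apply, if_pos rfl]
    rfl
  · intro ι _ hne
    rw [splitJq_apply, if_neg hne]
  · intro h
    exact absurd ((@Finset.mem_filter _ _ (fun a => Classical.propDecidable _) _ _).2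
      ⟨Finset.mem_univ ι₀, hκ⟩) h

end SplitIdele

section SplitIdele'

variable (q : Nat.Primes) {F : Type} [Field F] [NumberField F]

/-- **the idele `j₁`**: `y ∈ ℚ_qˣ` at the embedding `ι₀` over the completely split prime `q`, `1` elsewhere -/
def splitIdele (hsplit : ∀ ι : Emb (q : ℕ) F, localField (q : ℕ) F ι = ⊥) (ι₀ : Emb (q : ℕ) F)
    (y : ℚ_[(q : ℕ)]ˣ) : Idele F := Idele.single q (splitJq hsplit ι₀ y)

/-- its norm to `ℚ` is the idele `y` at `q` -/
theorem norm_splitIdele (hsplit : ∀ ι : Emb (q : ℕ) F, localField (q : ℕ) F ι = ⊥)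
    (ι₀ : Emb (q : ℕ) F) (y : ℚ_[(q : ℕ)]ˣ) (φ : ℚ →ₐ[ℚ] F) :
    Idele.norm φ (splitIdele q hsplit ι₀ y) = Idele.single q (ofRatJq (q : ℕ) y) := by
  apply Idele.ext
  intro q'
  by_cases h : q' = q
  · subst h
    rw [Idele.norm_apply, splitIdele, Idele.single_apply_same, Idele.single_apply_same, norm_splitJq]
  · rw [Idele.norm_apply, splitIdele, Idele.single_apply_of_ne h, Idele.single_apply_of_ne h, map_one]

/-- the value of the Artin map on the norm of `j₁` -/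
theorem Phi_norm_splitIdele {p : ℕ} [Fact p.Prime] {m : ℕ}
    (lam : (ZMod (p ^ (m + 1)))ˣ →* Multiplicative (ZMod (p ^ m)))
    (hsplit : ∀ ι : Emb (q : ℕ) F, localField (q : ℕ) F ι = ⊥)
    (ι₀ : Emb (q : ℕ) F) (y : ℚ_[(q : ℕ)]ˣ) (φ : ℚ →ₐ[ℚ] F) :
    Phi p m lam (Idele.norm φ (splitIdele q hsplit ι₀ y)) = phiLoc p m lam (q : ℕ) y := by
  rw [norm_splitIdele, Phi_single, jqRat_ofRatJq]

end SplitIdele'

/-! ### The splitting prime, in `Nat.Primes` form -/

section SplitPrimes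

/-- completely split primes as elements of `Nat.Primes` -/
theorem exists_primes_split (L : Type) [Field L] [NumberField L] [IsGalois ℚ L] (B : ℕ) :
    ∃ q : Nat.Primes, B < (q : ℕ) ∧ ∀ ι : Emb (q : ℕ) L, localField (q : ℕ) L ι = ⊥ := by
  obtain ⟨ℓ, hℓ, hB, hsplit⟩ := exists_prime_split L B
  exact ⟨⟨ℓ, hℓ.out⟩, hB, hsplit⟩

/-- **the prime `q₀` of (G)**: arbitrarily large, completely split in `L ∋ ζ_N`, hence `≡ 1 mod N` -/
theorem exists_primes_split_dvd_sub_one (L : Type) [Field L] [NumberField L] [IsGalois ℚ L] {N : ℕ}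
    (hN0 : N ≠ 0) {ζ : L} (hζ : IsPrimitiveRoot ζ N) (B : ℕ) :
    ∃ q : Nat.Primes, B < (q : ℕ) ∧ N ∣ (q : ℕ) - 1 ∧
      ∀ ι : Emb (q : ℕ) L, localField (q : ℕ) L ι = ⊥ := by
  obtain ⟨q, hB, hsplit⟩ := exists_primes_split L (max B N)
  refine ⟨q, lt_of_le_of_lt (le_max_left _ _) hB, ?_, hsplit⟩
  have hNq : N < (q : ℕ) := lt_of_le_of_lt (le_max_right _ _) hB
  have hndvd : ¬ (q : ℕ) ∣ N := fun h => absurd (Nat.le_of_dvd (Nat.pos_of_ne_zero hN0) h) (by omega)
  have ι : Emb (q : ℕ) L := IsAlgClosed.lift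
  exact dvd_sub_one_of_split L hndvd hζ ι (hsplit ι)

end SplitPrimes

/-! ### The relative norm of an idele of a subfield -/

section NrelIncl

variable {F M : Type} [Field F] [NumberField F] [Field M] [NumberField M] [Normal ℚ M]
  (φ : F →ₐ[ℚ] M) (H : Subgroup (M ≃ₐ[ℚ] M))
  (hH : ∀ g : M ≃ₐ[ℚ] M, g ∈ H ↔ ∀ x : F, g (φ x) = φ x)

include hH in
/-- the embeddings of `F` are the cosets of `H = Gal(M/F)` in `Γ = Aut(M/ℚ)` -/
theorem bijective_res_comp_out {q : ℕ} [Fact q.Prime] (ι' : Emb q M) :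
    Function.Bijective (fun c : (M ≃ₐ[ℚ] M) ⧸ H =>
      Emb.res φ (ι'.comp ((Quotient.out c : M ≃ₐ[ℚ] M) : M →ₐ[ℚ] M))) := by
  constructor
  · intro c c' h
    have h1 : ∀ x : F, (Quotient.out c : M ≃ₐ[ℚ] M) (φ x) = (Quotient.out c' : M ≃ₐ[ℚ] M) (φ x) := by
      intro x
      have := congrArg (fun κ : Emb q F => κ x) h
      exact ι'.injective this
    have h2 : (Quotient.out c : M ≃ₐ[ℚ] M)⁻¹ * Quotient.out c' ∈ H := by
      rw [hH]
      intro x
      rw [AlgEquiv.mul_apply, ← h1 x]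
      exact (Quotient.out c : M ≃ₐ[ℚ] M).symm_apply_apply (φ x)
    rw [← QuotientGroup.out_eq' c, ← QuotientGroup.out_eq' c']
    exact QuotientGroup.eq.2 h2
  · intro κ
    obtain ⟨κ', hκ'⟩ := Emb.res_surjective (q := q) φ κ
    obtain ⟨g, hg⟩ := Emb.exists_aut_of_res_eq (F := ℚ) ι' κ' (Subsingleton.elim _ _)
    refine ⟨((autToQ ℚ g : M ≃ₐ[ℚ] M) : (M ≃ₐ[ℚ] M) ⧸ H), ?_⟩
    have h1 : (Quotient.out ((autToQ ℚ g : M ≃ₐ[ℚ] M) : (M ≃ₐ[ℚ] M) ⧸ H))⁻¹ * autToQ ℚ g ∈ H := by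
      rw [← QuotientGroup.eq]
      exact QuotientGroup.out_eq' _
    rw [hH] at h1
    rw [← hκ', hg]
    ext x
    simp only [Emb.res_apply, AlgHom.comp_apply, AlgEquiv.coe_toAlgHom]
    have h2 := h1 x
    rw [AlgEquiv.mul_apply, AlgEquiv.aut_inv, AlgEquiv.symm_apply_eq] at h2
    rw [← h2]

include hH in
open Classical in
/-- the product over `Γ/H` of the translates of `incl f` is `incl (norm f)` -/
theorem prod_out_smul_incl_jq {q : ℕ} [Fact q.Prime] (f : Jq q F) (φ₀ : ℚ →ₐ[ℚ] M)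
    (φ₀' : ℚ →ₐ[ℚ] F) :
    ∏ c : (M ≃ₐ[ℚ] M) ⧸ H, (Quotient.out c : M ≃ₐ[ℚ] M) • Jq.incl φ f =
      Jq.incl φ₀ (Jq.norm φ₀' f) := by
  classical
  apply Subtype.ext
  funext ι'
  rw [Jq_prod_apply, Jq.incl_apply, Jq.norm_apply]
  have hfilter : @Finset.filter _ (fun κ : Emb q F => Emb.res φ₀' κ = Emb.res φ₀ ι')
      (fun a => Classical.propDecidable _) Finset.univ = Finset.univ := by
    ext κ
    constructor
    · intro _
      exact Finset.mem_univ κ
    · intro _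
      exact (@Finset.mem_filter _ _ (fun a => Classical.propDecidable _) _ _).2
        ⟨Finset.mem_univ κ, Subsingleton.elim _ _⟩
  rw [hfilter]
  exact Fintype.prod_bijective _ (bijective_res_comp_out φ H hH ι') _ _ (fun c => rfl)

include hH in
open Classical in
/-- **`N_{Γ/H}(incl j) = incl (N_{F/ℚ} j)`** -/
theorem prod_out_smul_incl (j : Idele F) (φ₀ : ℚ →ₐ[ℚ] M) (φ₀' : ℚ →ₐ[ℚ] F) :
    ∏ c : (M ≃ₐ[ℚ] M) ⧸ H, (Quotient.out c : M ≃ₐ[ℚ] M) • Idele.incl φ j =
      Idele.incl φ₀ (Idele.norm φ₀' j) := by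
  apply Idele.ext
  intro q
  rw [Idele.prod_apply, Idele.incl_apply, Idele.norm_apply,
    ← prod_out_smul_incl_jq φ H hH (j.1 q) φ₀ φ₀']
  rfl

include hH in
open Classical in
/-- the same in the language of `Rep` and `Nrel` -/
theorem Nrel_incl (j : Idele F) (φ₀ : ℚ →ₐ[ℚ] M) (φ₀' : ℚ →ₐ[ℚ] F) :
    Nrel H (ideleRep M) (Additive.ofMul (Idele.incl φ j)) =
      Additive.ofMul (Idele.incl φ₀ (Idele.norm φ₀' j)) := by
  classical
  rw [← prod_out_smul_incl φ H hH j φ₀ φ₀']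
  unfold Nrel
  rw [ofMul_prod]
  rfl

include hH in
omit [Normal ℚ M] in
/-- ideles of `F` are `H`-invariant in `I(M)` -/
theorem ρ_incl_of_mem (j : Idele F) (h : M ≃ₐ[ℚ] M) (hh : h ∈ H) :
    (ideleRep M).ρ h (Additive.ofMul (Idele.incl φ j)) = Additive.ofMul (Idele.incl φ j) := by
  have h1 := Idele.incl_smul φ (1 : F ≃ₐ[ℚ] F) h (fun x => ((hH h).1 hh x).symm) j
  rw [one_smul] at h1
  exact congrArg Additive.ofMul h1.symm

end NrelIncl

/-! ### (S4): ideles of `ℚ` on which `Φ` has a prescribed order, and the order hypothesis `hord` -/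

section Orders

open Fermat.Agent.S55lib.Places Fermat.Agent.S55lib.CycloArith

variable {p : ℕ} [hp : Fact p.Prime] {m : ℕ}
  (lam : (ZMod (p ^ (m + 1)))ˣ →* Multiplicative (ZMod (p ^ m)))

/-- the idele of `ℚ` equal to `y ∈ ℚ_qˣ` at `q` and `1` elsewhere -/
def ratIdele (q : Nat.Primes) (y : ℚ_[(q : ℕ)]ˣ) : Idele ℚ := Idele.single q (ofRatJq (q : ℕ) y)

theorem Phi_ratIdele (q : Nat.Primes) (y : ℚ_[(q : ℕ)]ˣ) :
    Phi p m lam (ratIdele q y) = phiLoc p m lam (q : ℕ) y := by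
  rw [ratIdele, Phi_single, jqRat_ofRatJq]

/-- `Φ` of a unit `u ∈ ℤ_pˣ` placed at `p` -/
theorem Phi_ratIdele_unitsIncl (u : ℤ_[p]ˣ) :
    Phi p m lam (ratIdele (⟨p, hp.out⟩ : Nat.Primes) (unitsIncl u)) =
      lam (unitsRed (q := p) (m + 1) u) :=
  (Phi_ratIdele lam (⟨p, hp.out⟩ : Nat.Primes) (unitsIncl u)).trans (phiLoc_unitsIncl_self lam u)

/-- `Φ` of the idele `q` at `q ≠ p` -/
theorem Phi_ratIdele_unifQ (q : Nat.Primes) (hqp : (q : ℕ) ≠ p) :
    Phi p m lam (ratIdele q unifQ) = (lam (natUnit (p ^ (m + 1)) (q : ℕ)))⁻¹ :=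
  (Phi_ratIdele lam q unifQ).trans (phiLoc_unifQ_of_ne lam hqp)

/-- **`Φ` is surjective** (already on the units at `p`) as soon as `lam` is -/
theorem Phi_surjective (hlam : Function.Surjective lam) : Function.Surjective (Phi p m lam) := by
  intro t
  obtain ⟨c, rfl⟩ := hlam t
  obtain ⟨u, rfl⟩ := unitsRed_surjective (q := p) (Nat.succ_ne_zero m) c
  exact ⟨_, Phi_ratIdele_unitsIncl lam u⟩

/-- **(S4)**: an idele of `ℚ` on which `Φ` has exact order `p ^ a`, `a ≤ m` -/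
theorem exists_orderOf_Phi_eq (hlam : Function.Surjective lam) {a : ℕ} (ha : a ≤ m) :
    ∃ x : Idele ℚ, orderOf (Phi p m lam x) = p ^ a := by
  obtain ⟨x, hx⟩ := Phi_surjective lam hlam
    (Multiplicative.ofAdd (((p ^ (m - a) : ℕ) : ZMod (p ^ m))))
  refine ⟨x, ?_⟩
  rw [hx, orderOf_ofAdd_eq_addOrderOf, ZMod.addOrderOf_coe _ (pow_ne_zero _ hp.out.ne_zero),
    Nat.gcd_eq_right (pow_dvd_pow p (Nat.sub_le m a))]
  have h1 : p ^ m = p ^ a * p ^ (m - a) := by rw [← pow_add, Nat.add_sub_cancel' ha]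
  rw [h1, Nat.mul_div_cancel _ (pow_pos hp.out.pos _)]

/-- the order of `Φ` on the idele `q` at `q ≡ 1 mod p`, `q ≠ p` -/
theorem orderOf_Phi_ratIdele_unifQ (hlam : Function.Surjective lam) (hp2 : p ≠ 2) (q : Nat.Primes)
    (hpq : p ∣ (q : ℕ) - 1) (hw : padicValNat p ((q : ℕ) - 1) ≤ m + 1) :
    orderOf (Phi p m lam (ratIdele q unifQ)) = p ^ (m + 1 - padicValNat p ((q : ℕ) - 1)) := by
  have hqp : (q : ℕ) ≠ p := by
    intro h
    rw [h] at hpq
    have := Nat.le_of_dvd (Nat.sub_pos_of_lt hp.out.one_lt) hpq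
    have := hp.out.one_lt
    omega
  rw [Phi_ratIdele_unifQ lam q hqp, orderOf_inv]
  exact orderOf_lam_natUnit_of_dvd_sub_one lam hlam hp2 q.2.one_lt hpq hw

end Orders

/-! ### The hypotheses `hord`, `hx0` of the generalized Tate lemma -/

section Hord

open Fermat.Agent.S55lib.Places Fermat.Agent.S55lib.CycloArith

variable {p : ℕ} [hp : Fact p.Prime] {m : ℕ}
  (lam : (ZMod (p ^ (m + 1)))ˣ →* Multiplicative (ZMod (p ^ m)))
  {F M : Type} [Field F] [NumberField F] [Field M] [NumberField M] [IsGalois ℚ M]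
  (φ : F →ₐ[ℚ] M) (H : Subgroup (M ≃ₐ[ℚ] M))
  (hH : ∀ g : M ≃ₐ[ℚ] M, g ∈ H ↔ ∀ x : F, g (φ x) = φ x)

omit hp in
/-- `k • toAdd t = 0 ↔ orderOf t ∣ k` in `Multiplicative (ZMod N)` -/
theorem nsmul_toAdd_eq_zero_iff {N : ℕ} (t : Multiplicative (ZMod N)) (k : ℕ) :
    k • Multiplicative.toAdd t = 0 ↔ orderOf t ∣ k := by
  rw [orderOf_dvd_iff_pow_eq_one]
  constructor
  · intro h
    exact Multiplicative.toAdd.injective (by rw [toAdd_pow, h, toAdd_one])
  · intro h
    rw [← toAdd_pow, h, toAdd_one]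

/-- `Ψ` on an idele of `ℚ`: `k • Ψ(incl y) = 0 ↔ ord Φ(y) ∣ k` (gives `hx0`, and the (ORD) conclusion) -/
theorem nsmul_Psi_incl_eq_zero_iff (φ₀ : ℚ →ₐ[ℚ] M) (y : Idele ℚ)
    (hinv : (Additive.ofMul (Idele.incl φ₀ y) : ideleRep M) ∈ (ideleRep M).ρ.invariants) (k : ℕ) :
    k • Psi lam M ⟨Additive.ofMul (Idele.incl φ₀ y), hinv⟩ = 0 ↔ orderOf (Phi p m lam y) ∣ k := by
  rw [Psi_eq_of_incl lam _ φ₀ y rfl, nsmul_toAdd_eq_zero_iff]

include hH in
/-- `Ψ` of the relative norm of an idele of the subfield `F` is `Φ` of its absolute norm -/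
theorem Psi_Nrel_incl (j : Idele F) (φ₀' : ℚ →ₐ[ℚ] F)
    (hinv : Nrel H (ideleRep M) (Additive.ofMul (Idele.incl φ j)) ∈ (ideleRep M).ρ.invariants) :
    Psi lam M ⟨Nrel H (ideleRep M) (Additive.ofMul (Idele.incl φ j)), hinv⟩ =
      Multiplicative.toAdd (Phi p m lam (Idele.norm φ₀' j)) := by
  apply Psi_eq_of_incl lam _ (Algebra.ofId ℚ M)
  exact congrArg Additive.toMul (Nrel_incl φ H hH j (Algebra.ofId ℚ M) φ₀').symm

include hH in
/-- **the hypothesis `hord`** for `j₁ = ` the idele `q` at one place of `F` over the completely split prime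
`q ≡ 1 mod p` -/
theorem hord_splitIdele (hlam : Function.Surjective lam) (hp2 : p ≠ 2) (q : Nat.Primes)
    (hsplit : ∀ ι : Emb (q : ℕ) F, localField (q : ℕ) F ι = ⊥) (ι₀ : Emb (q : ℕ) F)
    (hpq : p ∣ (q : ℕ) - 1) (hw : padicValNat p ((q : ℕ) - 1) ≤ m + 1)
    (hinv : Nrel H (ideleRep M) (Additive.ofMul (Idele.incl φ (splitIdele q hsplit ι₀ unifQ))) ∈
      (ideleRep M).ρ.invariants) (k : ℕ)
    (hk : k • Psi lam M ⟨Nrel H (ideleRep M)
      (Additive.ofMul (Idele.incl φ (splitIdele q hsplit ι₀ unifQ))), hinv⟩ = 0) :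
    p ^ (m + 1 - padicValNat p ((q : ℕ) - 1)) ∣ k := by
  rw [Psi_Nrel_incl lam φ H hH _ (Algebra.ofId ℚ F), nsmul_toAdd_eq_zero_iff,
    norm_splitIdele] at hk
  have h := orderOf_Phi_ratIdele_unifQ lam hlam hp2 q hpq hw
  rw [ratIdele] at h
  rwa [h] at hk

include hH in
/-- **(S2) + `hord`, general `H`**: for ANY subgroup `H` cut out by `hH` (e.g. `(resAut Lt M).ker` with
`mem_ker_resAut_iff`), the idele `j₁` with `Ψ (N_{Γ/H} j₁)` of exact additive order `p ^ (m + 1 - v_p(q - 1))` -/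
theorem exists_j₁_addOrderOf (hlam : Function.Surjective lam) (hp2 : p ≠ 2) (q : Nat.Primes)
    (hpq : p ∣ (q : ℕ) - 1) (hw : padicValNat p ((q : ℕ) - 1) ≤ m + 1)
    (hsplit : ∀ ι : Emb (q : ℕ) F, localField (q : ℕ) F ι = ⊥) :
    ∃ (j₁ : ideleRep M) (hj₁ : ∀ h ∈ H, (ideleRep M).ρ h j₁ = j₁),
      addOrderOf (Psi lam M ⟨Nrel H (ideleRep M) j₁, Nrel_invariant hj₁⟩) =
        p ^ (m + 1 - padicValNat p ((q : ℕ) - 1)) := by
  have ι₀ : Emb (q : ℕ) F := IsAlgClosed.lift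
  refine ⟨Additive.ofMul (Idele.incl φ (splitIdele q hsplit ι₀ unifQ)),
    fun h hh => ρ_incl_of_mem φ H hH _ h hh, ?_⟩
  have h1 := Psi_Nrel_incl lam φ H hH (splitIdele q hsplit ι₀ unifQ) (Algebra.ofId ℚ F)
    (Nrel_invariant (fun h hh => ρ_incl_of_mem φ H hH _ h hh))
  rw [h1, norm_splitIdele]
  have h2 := orderOf_Phi_ratIdele_unifQ lam hlam hp2 q hpq hw
  rw [ratIdele] at h2
  rw [← h2]
  exact (orderOf_ofAdd_eq_addOrderOf _).symm

end Hord

/-! ### The same for `H = Gal(M/L̃)` given as the range of `autToQ` (the shapes used in `Recip/FundClass`) -/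

section ForFundClass

open Fermat.Agent.S55lib.Places Fermat.Agent.S55lib.CycloArith

variable {p : ℕ} [hp : Fact p.Prime] {m : ℕ}
  (lam : (ZMod (p ^ (m + 1)))ˣ →* Multiplicative (ZMod (p ^ m)))
  (Lt M : Type) [Field Lt] [NumberField Lt] [Field M] [NumberField M] [Algebra Lt M]

/-- `Gal(M/L̃)` inside `Aut(M/ℚ)` is the subgroup fixing `L̃` -/
theorem mem_range_autToQ_iff (g : M ≃ₐ[ℚ] M) :
    g ∈ (autToQ Lt (M := M)).range ↔
      ∀ x : Lt, g (IsScalarTower.toAlgHom ℚ Lt M x) = IsScalarTower.toAlgHom ℚ Lt M x := by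
  constructor
  · rintro ⟨γ, rfl⟩ x
    exact γ.commutes x
  · intro h
    exact ⟨{ g with commutes' := h }, by ext x; rfl⟩

variable [IsGalois ℚ M]

/-- **(S2) in the shape of `Recip/FundClass`**: the idele `j₁` of `M` coming from the idele of `L̃` equal to `q` at
one place over the completely split prime `q ≠ p`; it is `Gal(M/L̃)`-invariant and `Ψ` of its relative norm is
`lam(q)⁻¹`. -/
theorem exists_j₁ (q : Nat.Primes) (hqp : (q : ℕ) ≠ p)
    (hsplit : ∀ ι : Emb (q : ℕ) Lt, localField (q : ℕ) Lt ι = ⊥) :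
    ∃ (j₁ : ideleRep M) (hj₁ : ∀ h ∈ (autToQ Lt (M := M)).range, (ideleRep M).ρ h j₁ = j₁),
      Psi lam M ⟨Nrel (autToQ Lt (M := M)).range (ideleRep M) j₁, Nrel_invariant hj₁⟩ =
        Multiplicative.toAdd ((lam (natUnit (p ^ (m + 1)) (q : ℕ)))⁻¹) := by
  have ι₀ : Emb (q : ℕ) Lt := IsAlgClosed.lift
  have hH := mem_range_autToQ_iff Lt M
  refine ⟨Additive.ofMul (Idele.incl (IsScalarTower.toAlgHom ℚ Lt M)
    (splitIdele q hsplit ι₀ unifQ)), fun h hh => ρ_incl_of_mem _ _ hH _ h hh, ?_⟩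
  refine (Psi_Nrel_incl lam (IsScalarTower.toAlgHom ℚ Lt M) _ hH
    (splitIdele q hsplit ι₀ unifQ) (Algebra.ofId ℚ Lt) _).trans ?_
  rw [Phi_norm_splitIdele, phiLoc_unifQ_of_ne lam hqp]

/-- **`hord` in the shape of `Recip/FundClass`**: moreover, for `q ≡ 1 mod p`, `Ψ (N_{Γ/H} j₁)` has exact order
`p ^ (m + 1 - v_p(q - 1))` -/
theorem exists_j₁_hord (hlam : Function.Surjective lam) (hp2 : p ≠ 2) (q : Nat.Primes)
    (hpq : p ∣ (q : ℕ) - 1) (hw : padicValNat p ((q : ℕ) - 1) ≤ m + 1)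
    (hsplit : ∀ ι : Emb (q : ℕ) Lt, localField (q : ℕ) Lt ι = ⊥) :
    ∃ (j₁ : ideleRep M) (hj₁ : ∀ h ∈ (autToQ Lt (M := M)).range, (ideleRep M).ρ h j₁ = j₁),
      ∀ k : ℕ, k • Psi lam M ⟨Nrel (autToQ Lt (M := M)).range (ideleRep M) j₁,
        Nrel_invariant hj₁⟩ = 0 → p ^ (m + 1 - padicValNat p ((q : ℕ) - 1)) ∣ k := by
  have hqp : (q : ℕ) ≠ p := by
    intro h
    rw [h] at hpq
    have := Nat.le_of_dvd (Nat.sub_pos_of_lt hp.out.one_lt) hpq
    have := hp.out.one_lt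
    omega
  obtain ⟨j₁, hj₁, h⟩ := exists_j₁ lam Lt M q hqp hsplit
  refine ⟨j₁, hj₁, fun k hk => ?_⟩
  rw [h, nsmul_toAdd_eq_zero_iff, orderOf_inv,
    orderOf_lam_natUnit_of_dvd_sub_one lam hlam hp2 q.2.one_lt hpq hw] at hk
  exact hk

end ForFundClass

/-! ### Exactness and counting hypotheses of the Tate lemma -/

section Hex

open groupCohomology CategoryTheory

/-- exactness of `H²(H, E) → H²(H, J) → H²(H, C)` for a short exact sequence of `Γ`-modules, in the shape of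
`res_map_cupδ_eq_zero` -/
theorem hex_of_shortExact {k Γ : Type} [CommRing k] [Group Γ] (H : Subgroup Γ)
    {E J C : Rep.{0} k Γ} (ι : E ⟶ J) (π : J ⟶ C) (hzero : ι ≫ π = 0)
    (hinj : Function.Injective ι.hom) (hsurj : Function.Surjective π.hom)
    (hker : ∀ b, π.hom b = 0 → ∃ a, ι.hom a = b) :
    ∀ z : H2 (Rep.res H.subtype J),
      groupCohomology.map (MonoidHom.id H) ((Rep.resFunctor H.subtype).map π) 2 z = 0 →
      ∃ e : H2 (Rep.res H.subtype E),
        groupCohomology.map (MonoidHom.id H) ((Rep.resFunctor H.subtype).map ι) 2 e = z := by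
  have hS : (ShortComplex.mk ((Rep.resFunctor H.subtype).map ι) ((Rep.resFunctor H.subtype).map π)
      (by rw [← Functor.map_comp, hzero, Functor.map_zero])).ShortExact :=
    shortExact_of_hom _ hinj hsurj hker
  exact (ShortComplex.moduleCat_exact_iff _).1 (mapShortComplex₂_exact hS 2)

variable (M : Type) [Field M] [NumberField M]

/-- **`hex`** for `Mˣ → I(M) → C(M)` -/
theorem hex_idele (H : Subgroup (M ≃ₐ[ℚ] M)) :
    ∀ z : H2 (Rep.res H.subtype (ideleRep M)),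
      groupCohomology.map (MonoidHom.id H)
        ((Rep.resFunctor H.subtype).map (ideleToClassRep M)) 2 z = 0 →
      ∃ e : H2 (Rep.res H.subtype (Rep.ofAlgebraAutOnUnits ℚ M)),
        groupCohomology.map (MonoidHom.id H)
          ((Rep.resFunctor H.subtype).map (diagRep M)) 2 e = z := by
  refine hex_of_shortExact H (diagRep M) (ideleToClassRep M) (ideleSeq M).zero ?_ ?_ ?_
  · intro a a' h
    exact congrArg Additive.ofMul (diagI_injective (M := M) (congrArg Additive.toMul h))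
  · intro c
    obtain ⟨b, hb⟩ := toClassGrp_surjective M (Additive.toMul (show Additive (ClassGrp M) from c))
    exact ⟨Additive.ofMul b, congrArg Additive.ofMul hb⟩
  · intro b hb
    obtain ⟨a, ha⟩ := (toClassGrp_eq_one_iff M (Additive.toMul (show Additive (Idele M) from b))).1
      (congrArg Additive.toMul hb)
    exact ⟨Additive.ofMul a, congrArg Additive.ofMul ha⟩

/-- **`hcard`**: for a `p`-subgroup `H ≤ Aut(M/ℚ)`, `ζ_p ∈ M`: `H²(H, C_M)` is finite of order dividing `|H|` -/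
theorem card_H2_classRep_dvd {p : ℕ} [hp : Fact p.Prime] (hp2 : p ≠ 2) {ζ : M}
    (hζ : IsPrimitiveRoot ζ p) (H : Subgroup (M ≃ₐ[ℚ] M)) (hH : IsPGroup p H) :
    Finite (H2 (Rep.res H.subtype (classRep M))) ∧
      Nat.card (H2 (Rep.res H.subtype (classRep M))) ∣ Nat.card H := by
  obtain ⟨-, hdvd⟩ := Places.classGroup_cohomology_uncond hp2 M hζ H.subtype H.subtype_injective
  obtain ⟨r, hr⟩ := hH.exists_card_eq
  have hfac : (Nat.card H).factorization p = r := by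
    rw [hr, Nat.factorization_pow, Finsupp.smul_apply, hp.out.factorization_self, smul_eq_mul,
      mul_one]
  rw [hfac, ← hr] at hdvd
  have htop : ∀ x : H2 (Rep.res H.subtype (classRep M)),
      x ∈ pPrimary p (H2 (Rep.res H.subtype (classRep M))) := by
    intro x
    refine ⟨r, ?_⟩
    rw [← hr]
    exact card_nsmul_eq_zero (Rep.res H.subtype (classRep M)) 1 x
  have hcard : Nat.card (pPrimary p (H2 (Rep.res H.subtype (classRep M)))) =
      Nat.card (H2 (Rep.res H.subtype (classRep M))) :=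
    Nat.card_congr (Equiv.subtypeUnivEquiv htop)
  have hpos : 0 < Nat.card H := Nat.card_pos
  have hne : Nat.card (pPrimary p (H2 (Rep.res H.subtype (classRep M)))) ≠ 0 := by
    intro h0
    rw [h0, zero_dvd_iff] at hdvd
    exact hpos.ne' hdvd
  constructor
  · haveI : Finite (pPrimary p (H2 (Rep.res H.subtype (classRep M)))) :=
      Nat.finite_of_card_ne_zero hne
    exact Finite.of_equiv _ (Equiv.subtypeUnivEquiv htop)
  · rw [← hcard]
    exact hdvd

/-- the same as an inequality (the shape of `hcard` in the Tate lemma) -/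
theorem card_H2_classRep_le {p : ℕ} [hp : Fact p.Prime] (hp2 : p ≠ 2) {ζ : M}
    (hζ : IsPrimitiveRoot ζ p) (H : Subgroup (M ≃ₐ[ℚ] M)) (hH : IsPGroup p H) :
    Finite (H2 (Rep.res H.subtype (classRep M))) ∧
      Nat.card (H2 (Rep.res H.subtype (classRep M))) ≤ Nat.card H :=
  ⟨(card_H2_classRep_dvd M hp2 hζ H hH).1,
    Nat.le_of_dvd Nat.card_pos (card_H2_classRep_dvd M hp2 hζ H hH).2⟩

end Hex

end Fermat.Agent.S55lib.Recip
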