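/-
S55 sprint, block K9 "reciprocity" (R5, helper3), file 2: Galois towers and the idele class modules.
For number fields `E ⊂ M`, both Galois over `ℚ`: the restriction `resAut E M : Aut(M/ℚ) → Aut(E/ℚ)`,
the morphisms `ideleInclRep`, `classInclRep` over it, `C(E) = C(M)^{Gal(M/E)}` in the hom form
consumed by `Recip/TateGen` (c′), (e′); and the consequences of K8 for `p`-subgroups of `Aut(M/ℚ)`.
-/
import Mathlib
import Fermat.Agent.S55lib.Dev.IdeleRep
import Fermat.Agent.S55lib.Dev.Descent
import Fermat.Agent.S55lib.Dev.PClass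
import Fermat.Agent.S55lib.Places.CyclicLayers

set_option autoImplicit false
set_option linter.unusedSectionVars false
set_option linter.overlappingInstances false

noncomputable section

namespace Fermat.Agent.S55lib.Recip

open CategoryTheory groupCohomology Fermat.Agent.S55lib Fermat.Agent.S55lib.Dev

section MulRepOver

variable {G G₁ : Type} [Group G] [Group G₁] (r : G →* G₁) {A₁ A : Type} [CommGroup A₁]
  [CommGroup A] [MulDistribMulAction G₁ A₁] [MulDistribMulAction G A]

/-- an equivariant homomorphism over a group homomorphism, as a morphism of representations -/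
def mulRepHomOver (f : A₁ →* A) (hf : ∀ (g : G) (a : A₁), f (r g • a) = g • f a) :
    Rep.res r (Rep.ofMulDistribMulAction G₁ A₁) ⟶ Rep.ofMulDistribMulAction G A :=
  Rep.ofHom ⟨(AddMonoidHom.toIntLinearMap (MonoidHom.toAdditive f) :
      Additive A₁ →ₗ[ℤ] Additive A), fun g => by
    ext (a : Additive A₁)
    exact congrArg Additive.ofMul (hf g (Additive.toMul a))⟩

@[simp] theorem mulRepHomOver_apply (f : A₁ →* A)
    (hf : ∀ (g : G) (a : A₁), f (r g • a) = g • f a) (a : A₁) :
    (mulRepHomOver r f hf).hom (Additive.ofMul a) = Additive.ofMul (f a) := rfl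

end MulRepOver

section SubExt

variable (E M : Type) [Field E] [Field M] [Algebra ℚ E] [Algebra ℚ M] [Algebra E M]
  [IsScalarTower ℚ E M] [Normal ℚ E]

/-- restriction of automorphisms to a normal subextension -/
def resAut : (M ≃ₐ[ℚ] M) →* (E ≃ₐ[ℚ] E) := AlgEquiv.restrictNormalHom E

theorem resAut_commutes (γ : M ≃ₐ[ℚ] M) (x : E) :
    algebraMap E M (resAut E M γ x) = γ (algebraMap E M x) :=
  AlgEquiv.restrictNormal_commutes γ E x

theorem resAut_surjective [Normal ℚ M] : Function.Surjective (resAut E M) :=
  AlgEquiv.restrictNormalHom_surjective M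

theorem mem_ker_resAut_iff (γ : M ≃ₐ[ℚ] M) :
    γ ∈ (resAut E M).ker ↔ ∀ x : E, γ (algebraMap E M x) = algebraMap E M x := by
  rw [MonoidHom.mem_ker]
  constructor
  · intro h x
    rw [← resAut_commutes, h]
    rfl
  · intro h
    ext x
    apply (algebraMap E M).injective
    rw [resAut_commutes, h]
    rfl

/-- the kernel of the restriction is `Gal(M/E)` -/
theorem ker_resAut_eq_range : (resAut E M).ker = (autToQ E (M := M)).range := by
  ext γ
  rw [mem_ker_resAut_iff]
  constructor
  · intro h
    exact ⟨{ γ with commutes' := h }, by ext x; rfl⟩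
  · rintro ⟨δ, rfl⟩ x
    exact δ.commutes x

variable [Algebra.IsAlgebraic ℚ M]

/-- `I(E) → I(M)` over the restriction of automorphisms -/
def ideleInclRep : Rep.res (resAut E M) (ideleRep E) ⟶ ideleRep M :=
  mulRepHomOver (resAut E M) (Idele.incl (IsScalarTower.toAlgHom ℚ E M)) (fun γ x =>
    Idele.incl_smul (IsScalarTower.toAlgHom ℚ E M) (resAut E M γ) γ
      (fun y => resAut_commutes E M γ y) x)

/-- `C(E) → C(M)` over the restriction of automorphisms -/
def classInclRep : Rep.res (resAut E M) (classRep E) ⟶ classRep M :=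
  mulRepHomOver (resAut E M) (ClassGrp.incl (IsScalarTower.toAlgHom ℚ E M)) (fun γ c =>
    ClassGrp.incl_smul (IsScalarTower.toAlgHom ℚ E M) (resAut E M γ) γ
      (fun y => resAut_commutes E M γ y) c)

theorem ideleInclRep_apply (x : Idele E) :
    (ideleInclRep E M).hom (Additive.ofMul x) =
      Additive.ofMul (Idele.incl (IsScalarTower.toAlgHom ℚ E M) x) := rfl

theorem classInclRep_apply (c : ClassGrp E) :
    (classInclRep E M).hom (Additive.ofMul c) =
      Additive.ofMul (ClassGrp.incl (IsScalarTower.toAlgHom ℚ E M) c) := rfl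

/-- compatibility with the projections `I → C` -/
theorem ideleInclRep_comp_toClass :
    ideleInclRep E M ≫ ideleToClassRep M =
      (Rep.resFunctor (resAut E M)).map (ideleToClassRep E) ≫ classInclRep E M := rfl

variable [FiniteDimensional E M] [IsGalois E M]

theorem classInclRep_injective : Function.Injective (classInclRep E M).hom := by
  intro a b hab
  have h := ClassGrp.incl_injective E (M := M) (congrArg Additive.toMul hab)
  exact congrArg Additive.ofMul h

/-- `C(E) = C(M)^{Gal(M/E)}` -/
theorem classInclRep_range (c : classRep M)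
    (hc : ∀ γ ∈ (resAut E M).ker, (classRep M).ρ γ c = c) :
    ∃ c₁ : classRep E, (classInclRep E M).hom c₁ = c := by
  obtain ⟨c', hc'⟩ := ClassGrp.exists_incl_eq_of_invariant E (M := M)
    (Additive.toMul (show Additive (ClassGrp M) from c)) (fun γ => by
      have hmem : autToQ E γ ∈ (resAut E M).ker := by
        rw [ker_resAut_eq_range]
        exact ⟨γ, rfl⟩
      have := hc (autToQ E γ) hmem
      exact congrArg Additive.toMul this)
  exact ⟨Additive.ofMul c', congrArg Additive.ofMul hc'⟩

end SubExt

/-! ### K8 for `p`-subgroups -/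

section K8

variable {p : ℕ} [hp : Fact p.Prime] (hp2 : p ≠ 2) (M : Type) [Field M] [NumberField M]
  {ζ : M} (hζ : IsPrimitiveRoot ζ p) (S : Subgroup (M ≃ₐ[ℚ] M))

include hp2 hζ

/-- `H¹(S, C(M))` has no `p`-power torsion -/
theorem classRep_H1_torsionFree (x : groupCohomology (Rep.res S.subtype (classRep M)) 1) (m : ℕ)
    (hx : p ^ m • x = 0) : x = 0 :=
  (Places.classGroup_cohomology_uncond hp2 M hζ S.subtype Subtype.val_injective).1 x m hx

/-- `H¹(S, C(M)) = 0` for `p`-groups `S` -/
theorem classRep_H1_subsingleton (hS : IsPGroup p S) :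
    Subsingleton (groupCohomology (Rep.res S.subtype (classRep M)) 1) := by
  refine ⟨fun x y => ?_⟩
  have key : ∀ z : groupCohomology (Rep.res S.subtype (classRep M)) 1, z = 0 := by
    intro z
    obtain ⟨m, hm⟩ := mem_pPrimary_of_isPGroup hS (Rep.res S.subtype (classRep M)) 0 z
    exact classRep_H1_torsionFree hp2 M hζ S z m hm
  rw [key x, key y]

/-- `|H²(S, C(M))|` divides `|S|` for `p`-groups `S` -/
theorem classRep_card_H2_dvd (hS : IsPGroup p S) :
    Nat.card (H2 (Rep.res S.subtype (classRep M))) ∣ Nat.card S := by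
  have h2 := (Places.classGroup_cohomology_uncond hp2 M hζ S.subtype Subtype.val_injective).2
  rw [card_pPrimary_eq_of_forall_mem
    (mem_pPrimary_of_isPGroup hS (Rep.res S.subtype (classRep M)) 1)] at h2
  obtain ⟨b, hb⟩ := hS.exists_card_eq
  have e : (p ^ b).factorization p = b := by
    rw [Nat.factorization_pow, Finsupp.smul_apply, hp.out.factorization_self, smul_eq_mul, mul_one]
  rw [hb, e] at h2
  rw [hb]
  exact h2

theorem classRep_finite_H2 (hS : IsPGroup p S) :
    Finite (H2 (Rep.res S.subtype (classRep M))) := by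
  apply Nat.finite_of_card_ne_zero
  intro h0
  have := classRep_card_H2_dvd hp2 M hζ S hS
  rw [h0] at this
  exact Nat.card_pos.ne' (Nat.eq_zero_of_zero_dvd this)

end K8

end Fermat.Agent.S55lib.Recip
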