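/-
S55 sprint, block K9 "reciprocity" (R5, helper3), file 3: **the top class `(G)`**, assembly.
For a tower `L ⊂ L̃ ⊂ M` of number fields, Galois over `ℚ`, `M ∋ ζ_{p^(m+1)}`:
* Step I  (`restMap_cycloClass_eq_zero`): the generalized Tate lemma (helper8, `Recip/TateGen`) kills
  lead's class `cycloClass x₀ = π_*(x₀ ∪ δχ)` on a cyclic `p`-group `H ≤ Aut(M/ℚ)`;
* Step II (`exists_top_of_restMap_eq_zero`): a class of `H²(Aut(M/ℚ), C(M))` dying on
  `H ≤ Gal(M/L)` (`Gal(M/L)` a `p`-group) of order divisible by `p^{v_p [Γ:H]}` produces a class of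
  `H²(Aut(L/ℚ), C(L))` of order divisible by `p^{v_p |Aut L|}` (K8 + inflation–restriction);
* Step III (`exists_top_of_tower`): the two together for `H = Gal(M/L̃)`, with helper8's
  `Recip/CycloKer`, helper1's `Recip/FundInputs`; (ORD-all) as a hypothesis.
-/
import Mathlib
import Fermat.Agent.S55lib.Recip.FundClassAbs
import Fermat.Agent.S55lib.Recip.FundTower
import Fermat.Agent.S55lib.Recip.FundInputs
import Fermat.Agent.S55lib.Recip.CycloKer
import Fermat.Agent.S55lib.Places.CycloClass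

set_option autoImplicit false
set_option linter.unusedSectionVars false
set_option linter.style.haveILetI false

noncomputable section

namespace Fermat.Agent.S55lib.Recip

open CategoryTheory groupCohomology Fermat.Agent.S55lib Fermat.Agent.S55lib.Dev
  Fermat.Agent.S55lib.CycloArith Fermat.Agent.S55lib.Places

section StepI

variable {p : ℕ} [hp : Fact p.Prime] {m : ℕ}
  (lam : (ZMod (p ^ (m + 1)))ˣ →* Multiplicative (ZMod (p ^ m)))
  {M : Type} [Field M] [NumberField M] [IsGalois ℚ M]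

/-- **Step I**: the generalized Tate lemma kills `cycloClass` on a cyclic `p`-subgroup `H`. -/
theorem restMap_cycloClass_eq_zero (hp2 : p ≠ 2) {ζ : M} (hζ : IsPrimitiveRoot ζ (p ^ (m + 1)))
    (H : Subgroup (M ≃ₐ[ℚ] M)) [hcyc : IsCyclic H] (hH : IsPGroup p H)
    (j₁ : ideleRep M) (hj₁ : ∀ h ∈ H, (ideleRep M).ρ h j₁ = j₁)
    (hord : ∀ k : ℕ, k • Psi lam M ⟨Nrel H (ideleRep M) j₁, Nrel_invariant hj₁⟩ = 0 →
      Nat.card H ∣ k)
    (x₀ : Idele ℚ) (hx0 : orderOf (Phi p m lam x₀) ∣ H.index) :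
    restMap (classRep M) H 2 (cycloClass lam M hζ x₀) = 0 := by
  classical
  have hζp : IsPrimitiveRoot (ζ ^ p ^ m) p := hζ.pow (pow_pos hp.out.pos _) (pow_succ p m)
  obtain ⟨χH, hχH, hinj, σ, hσ⟩ := exists_standard_char (H := H)
  haveI : NeZero (Nat.card H) := ⟨Nat.card_pos.ne'⟩
  haveI : Finite (H2 (Rep.res H.subtype (classRep M))) := classRep_finite_H2 hp2 M hζp H hH
  have hcard : Nat.card (H2 (Rep.res H.subtype (classRep M))) ≤ Nat.card H :=
    Nat.le_of_dvd Nat.card_pos (classRep_card_H2_dvd hp2 M hζp H hH)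
  have hLN : LN p m lam M := ln_of_isPrimitiveRoot lam hp2 M hζ
  exact tateGen_res_map_cupδ_eq_zero H (diagRep M) (ideleToClassRep M) (Psi lam M) hχH
    (hex_idele M H) (Psi_eq_zero_of_diag lam hp2) (Psi_eq_zero_of_norm lam hLN) hinj σ hσ hcard
    j₁ hj₁ hord (chiM_mul lam hζ) (inclQRep M x₀) (inclQRep_invariant M x₀)
    ((nsmul_Psi_incl_eq_zero_iff lam (IsScalarTower.toAlgHom ℚ ℚ M) x₀
      (incl_mem_invariants _ x₀) H.index).2 hx0)

end StepI

section StepII

variable {p : ℕ} [hp : Fact p.Prime]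
  (L M : Type) [Field L] [Field M] [NumberField L] [NumberField M] [Algebra L M]
  [IsGalois ℚ L] [IsGalois ℚ M]

theorem index_ker_resAut : (resAut L M).ker.index = Nat.card (L ≃ₐ[ℚ] L) := by
  rw [Subgroup.index_ker, MonoidHom.range_eq_top.2 (resAut_surjective L M)]
  exact Nat.card_congr (Subgroup.topEquiv (G := L ≃ₐ[ℚ] L)).toEquiv

/-- **Step II**: descent to `L`. -/
theorem exists_top_of_restMap_eq_zero (hp2 : p ≠ 2) {ζp : M} (hζp : IsPrimitiveRoot ζp p)
    (hpg : IsPGroup p (resAut L M).ker)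
    (H : Subgroup (M ≃ₐ[ℚ] M)) (hle : H ≤ (resAut L M).ker)
    (z : H2 (classRep M)) (hz : restMap (classRep M) H 2 z = 0)
    (hza : ∀ k : ℕ, k • z = 0 → p ^ H.index.factorization p ∣ k) :
    ∃ u : H2 (classRep L), ∀ k : ℕ, k • u = 0 →
      p ^ (Nat.card (L ≃ₐ[ℚ] L)).factorization p ∣ k := by
  haveI : IsGalois L M := IsGalois.tower_top_of_isGalois ℚ L M
  have hHp : IsPGroup p H := hpg.to_le hle
  haveI : Finite (H2 (Rep.res H.subtype (classRep M))) := classRep_finite_H2 hp2 M hζp H hHp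
  haveI : Subsingleton (groupCohomology (Rep.res (resAut L M).ker.subtype (classRep M)) 1) :=
    classRep_H1_subsingleton hp2 M hζp _ hpg
  obtain ⟨u, -, hu⟩ := exists_map_eq_relIndex_nsmul (resAut L M) (resAut_surjective L M)
    (classRep M) (classRep L) (classInclRep L M) (classInclRep_injective L M)
    (classInclRep_range L M) H hle z hz _ hza
  refine ⟨u, fun k hk => ?_⟩
  have h1 := hu k hk
  -- `[ker : H]` is a power of `p`
  obtain ⟨b, hb⟩ := hpg.exists_card_eq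
  have hrel : H.relIndex (resAut L M).ker ∣ p ^ b := by
    rw [← hb]
    exact Subgroup.relIndex_dvd_card H (resAut L M).ker
  obtain ⟨cc, -, hcc⟩ := (Nat.dvd_prime_pow hp.out).1 hrel
  have hidx : H.index = p ^ cc * Nat.card (L ≃ₐ[ℚ] L) := by
    rw [← Subgroup.relIndex_mul_index hle, hcc, index_ker_resAut]
  have hcard0 : Nat.card (L ≃ₐ[ℚ] L) ≠ 0 := Nat.card_pos.ne'
  have hfac : H.index.factorization p = (Nat.card (L ≃ₐ[ℚ] L)).factorization p + cc := by
    rw [hidx, Nat.factorization_mul (pow_ne_zero _ hp.out.ne_zero) hcard0,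
      Nat.factorization_pow]
    simp [hp.out.factorization_self, add_comm]
  rw [hcc] at h1
  exact pow_dvd_of_pow_dvd_mul_pow hp.out hfac h1

end StepII

section StepIII

variable {p : ℕ} [hp : Fact p.Prime] {m : ℕ}
  (lam : (ZMod (p ^ (m + 1)))ˣ →* Multiplicative (ZMod (p ^ m)))
  (L Lt M : Type) [Field L] [Field Lt] [Field M] [NumberField L] [NumberField Lt] [NumberField M]
  [Algebra L Lt] [Algebra Lt M] [Algebra L M] [IsScalarTower L Lt M]
  [IsGalois ℚ L] [IsGalois ℚ Lt] [IsGalois ℚ M]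

theorem ker_resAut_le : (resAut Lt M).ker ≤ (resAut L M).ker := by
  intro γ hγ
  rw [mem_ker_resAut_iff] at hγ ⊢
  intro x
  rw [IsScalarTower.algebraMap_apply L Lt M, hγ]

/-- **Step III**: the top class of `L` from the tower `L ⊂ L̃ ⊂ M`; `q` splits completely in `L̃`,
`w₀ = v_p(q - 1)`, `ζ_{p^w₀} ∈ L̃`, `ζ_p ∈ L`, `M = L(ζ)`. -/
theorem exists_top_of_tower (hp2 : p ≠ 2) (hlam : Function.Surjective lam)
    {ζ : M} (hζ : IsPrimitiveRoot ζ (p ^ (m + 1)))
    (hgenL : Algebra.adjoin L {ζ} = ⊤) (hgenLt : Algebra.adjoin Lt {ζ} = ⊤)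
    (hdL : ∃ y : L, algebraMap L M y = ζ ^ (p ^ m))
    (q : Nat.Primes) (hpq : p ∣ (q : ℕ) - 1) (hw : padicValNat p ((q : ℕ) - 1) ≤ m + 1)
    (hdLt : ∃ y : Lt, algebraMap Lt M y = ζ ^ (p ^ (m + 1 - padicValNat p ((q : ℕ) - 1))))
    (hsplit : ∀ ι : Emb (q : ℕ) Lt, localField (q : ℕ) Lt ι = ⊥)
    (ha : (Nat.card (Lt ≃ₐ[ℚ] Lt)).factorization p ≤ m)
    (hORD : ∀ (x : Idele ℚ) (k : ℕ), k • cycloClass lam M hζ x = 0 →
      orderOf (Phi p m lam x) ∣ k) :
    ∃ u : H2 (classRep L), ∀ k : ℕ, k • u = 0 →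
      p ^ (Nat.card (L ≃ₐ[ℚ] L)).factorization p ∣ k := by
  have hζp : IsPrimitiveRoot (ζ ^ p ^ m) p := hζ.pow (pow_pos hp.out.pos _) (pow_succ p m)
  have hq1 : (q : ℕ) - 1 ≠ 0 := Nat.sub_ne_zero_of_lt q.2.one_lt
  have hw1 : 1 ≤ padicValNat p ((q : ℕ) - 1) := one_le_padicValNat_of_dvd hq1 hpq
  -- the subgroup `H = Gal(M/L̃)`
  have hHeq : (autToQ Lt (M := M)).range = (resAut Lt M).ker := (ker_resAut_eq_range Lt M).symm
  have hpgL : IsPGroup p (resAut L M).ker := isPGroup_ker hζ hgenL hdL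
  have hle : (autToQ Lt (M := M)).range ≤ (resAut L M).ker := by
    rw [hHeq]
    exact ker_resAut_le L Lt M
  haveI hcyc : IsCyclic (autToQ Lt (M := M)).range := by
    rw [hHeq]
    exact isCyclic_ker hζ hgenLt hp2
  have hcardH : Nat.card (autToQ Lt (M := M)).range ∣
      p ^ (m + 1 - padicValNat p ((q : ℕ) - 1)) := by
    rw [hHeq]
    exact card_ker_dvd hζ hgenLt hw1 hw hdLt
  have hidx : (autToQ Lt (M := M)).range.index = Nat.card (Lt ≃ₐ[ℚ] Lt) := by
    rw [hHeq]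
    exact index_ker_resAut Lt M
  -- the inputs of the Tate lemma
  obtain ⟨j₁, hj₁, hord⟩ := exists_j₁_hord lam Lt M hlam hp2 q hpq hw hsplit
  obtain ⟨x₀, hx₀⟩ := exists_orderOf_Phi_eq lam hlam ha
  have hz := restMap_cycloClass_eq_zero lam hp2 hζ (autToQ Lt (M := M)).range (hpgL.to_le hle)
    j₁ hj₁ (fun k hk => hcardH.trans (hord k hk)) x₀ (by
      rw [hx₀, hidx]
      exact Nat.ordProj_dvd _ _)
  exact exists_top_of_restMap_eq_zero L M hp2 hζp hpgL _ hle _ hz (fun k hk => by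
    have := hORD x₀ k hk
    rwa [hx₀, ← hidx] at this)

end StepIII

end Fermat.Agent.S55lib.Recip
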