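/-
S55 sprint, block K9 reciprocity, R5 field-tower glue (helper1).
Instances for the tower `L ⊂ L̃ = L(ζ_a) ⊂ M = L̃(ζ_b)`, `a ∣ b`, over a Galois number field `L/ℚ`:
* `normal_rat_of_isCyclotomicExtension`, `isGalois_rat_of_isCyclotomicExtension` : `L(ζ_N)/ℚ` is Galois;
* `isCyclotomicExtension_tower` : `M = L(ζ_b)`;
* `adjoin_eq_top_of_tower`, `exists_algebraMap_eq_pow_base`, `exists_algebraMap_eq_pow_mid` : the generation
  hypotheses of `Recip/CycloKer` for the tower `L ⊂ L̃ = L(ζ_{p^w}) ⊂ M = L̃(ζ_{p^(m+1)})`.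
-/
import Mathlib

set_option autoImplicit false

noncomputable section

namespace Fermat.Agent.S55lib.Recip

section Generic

variable {F K : Type*} [Field F] [Field K] [Algebra F K]

theorem normal_of_sup_eq_top (E E' : IntermediateField F K) [Normal F E] [Normal F E']
    (h : E ⊔ E' = ⊤) : Normal F K := by
  haveI : Normal F (⊤ : IntermediateField F K) := h ▸ IntermediateField.normal_sup F K E E'
  exact Normal.of_algEquiv (IntermediateField.topEquiv (F := F) (E := K))

theorem normal_fieldRange {L : Type*} [Field L] [Algebra F L] [Normal F L] (f : L →ₐ[F] K) :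
    Normal F f.fieldRange :=
  Normal.of_algEquiv (AlgEquiv.ofInjectiveField f)

theorem normal_adjoin_primitiveRoot [Algebra.IsIntegral F K] {n : ℕ} [NeZero n] {ζ : K}
    (hζ : IsPrimitiveRoot ζ n) : Normal F (IntermediateField.adjoin F {ζ}) := by
  haveI : IsCyclotomicExtension {n} F (IntermediateField.adjoin F {ζ}) :=
    hζ.intermediateField_adjoin_isCyclotomicExtension F
  exact (IsCyclotomicExtension.isGalois {n} F (IntermediateField.adjoin F {ζ})).to_normal

/-- `L(ζ_N)/F` is normal when `L/F` is -/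
theorem normal_of_isCyclotomicExtension_of_normal (L : Type*) [Field L] [Algebra F L] [Algebra L K]
    [IsScalarTower F L K] (N : ℕ) [NeZero N] [IsCyclotomicExtension {N} L K] [Normal F L] :
    Normal F K := by
  obtain ⟨ζ, hζ⟩ := IsCyclotomicExtension.exists_isPrimitiveRoot L K (Set.mem_singleton N)
    (NeZero.ne N)
  have hadj : Algebra.adjoin L {ζ} = ⊤ := IsCyclotomicExtension.adjoin_primitive_root_eq_top hζ
  haveI : Algebra.IsAlgebraic F L := Normal.toIsAlgebraic
  haveI : Algebra.IsIntegral F L := Algebra.IsAlgebraic.isIntegral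
  haveI : Algebra.IsIntegral L K := IsCyclotomicExtension.integral {N} L K
  haveI : Algebra.IsIntegral F K := Algebra.IsIntegral.trans L
  haveI h1 := normal_fieldRange (IsScalarTower.toAlgHom F L K)
  haveI h2 := normal_adjoin_primitiveRoot (F := F) hζ
  refine normal_of_sup_eq_top (IsScalarTower.toAlgHom F L K).fieldRange
    (IntermediateField.adjoin F {ζ}) ?_
  rw [eq_top_iff]
  intro x _
  have hx : x ∈ Algebra.adjoin L {ζ} := by rw [hadj]; exact Algebra.mem_top
  induction hx using Algebra.adjoin_induction with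
  | mem y hy =>
    rw [Set.mem_singleton_iff] at hy
    subst hy
    exact (le_sup_right : IntermediateField.adjoin F {y} ≤ _)
      (IntermediateField.mem_adjoin_simple_self F y)
  | algebraMap c =>
    exact (le_sup_left : (IsScalarTower.toAlgHom F L K).fieldRange ≤ _) ⟨c, rfl⟩
  | add a b _ _ ha hb => exact add_mem (ha trivial) (hb trivial)
  | mul a b _ _ ha hb => exact mul_mem (ha trivial) (hb trivial)

end Generic

section Normal

variable (L M : Type*) [Field L] [Field M] [CharZero L] [CharZero M] [Algebra L M]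

/-- `L(ζ_N)/ℚ` is normal when `L/ℚ` is -/
theorem normal_rat_of_isCyclotomicExtension (N : ℕ) [NeZero N] [IsCyclotomicExtension {N} L M]
    [Normal ℚ L] : Normal ℚ M :=
  normal_of_isCyclotomicExtension_of_normal L N

/-- `L(ζ_N)/ℚ` is Galois when `L/ℚ` is normal -/
theorem isGalois_rat_of_isCyclotomicExtension (N : ℕ) [NeZero N] [IsCyclotomicExtension {N} L M]
    [Normal ℚ L] : IsGalois ℚ M :=
  haveI := normal_rat_of_isCyclotomicExtension L M N
  haveI : Algebra.IsAlgebraic ℚ M := Normal.toIsAlgebraic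
  ⟨⟩

end Normal

section Tower

variable (L Lt M : Type*) [Field L] [Field Lt] [Field M] [Algebra L Lt] [Algebra Lt M] [Algebra L M]
  [IsScalarTower L Lt M]

/-- `L(ζ_a)(ζ_b) = L(ζ_b)` for `a ∣ b` -/
theorem isCyclotomicExtension_tower {a b : ℕ} (hab : a ∣ b) (hb : b ≠ 0) [NeZero a]
    [IsCyclotomicExtension {a} L Lt] [IsCyclotomicExtension {b} Lt M] :
    IsCyclotomicExtension {b} L M := by
  have h1 : IsCyclotomicExtension ({a} ∪ {b}) L M :=
    IsCyclotomicExtension.trans {a} {b} L Lt M (algebraMap Lt M).injective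
  rw [Set.union_comm] at h1
  exact (IsCyclotomicExtension.iff_union_of_dvd L M ⟨b, Set.mem_singleton b, hb, hab⟩).2 h1

end Tower

section TowerGen

variable {p : ℕ} [hp : Fact p.Prime] (L Lt M : Type*) [Field L] [Field Lt] [Field M] [Algebra L Lt]
  [Algebra Lt M] [Algebra L M] [IsScalarTower L Lt M] {w m : ℕ}

/-- (a) `M = L(ζ)` for `ζ` a primitive `p^(m+1)`-th root of unity in `M = L(ζ_{p^w})(ζ_{p^(m+1)})`, `w ≤ m+1` -/
theorem adjoin_eq_top_of_tower (hw : w ≤ m + 1) [IsCyclotomicExtension {p ^ w} L Lt]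
    [IsCyclotomicExtension {p ^ (m + 1)} Lt M] {ζ : M} (hζ : IsPrimitiveRoot ζ (p ^ (m + 1))) :
    Algebra.adjoin L {ζ} = ⊤ := by
  haveI : NeZero (p ^ w) := ⟨pow_ne_zero _ hp.out.ne_zero⟩
  haveI : NeZero (p ^ (m + 1)) := ⟨pow_ne_zero _ hp.out.ne_zero⟩
  haveI : IsCyclotomicExtension {p ^ (m + 1)} L M :=
    isCyclotomicExtension_tower L Lt M (pow_dvd_pow p hw) (pow_ne_zero _ hp.out.ne_zero)
  exact IsCyclotomicExtension.adjoin_primitive_root_eq_top hζ

omit [Algebra L Lt] [Algebra Lt M] [IsScalarTower L Lt M] in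
/-- a root of unity of order dividing `n` in `M` comes from `K` as soon as `K` contains a primitive `n`-th root -/
theorem exists_algebraMap_eq_of_pow_eq_one {K : Type*} [Field K] [Algebra K M] {n : ℕ} [NeZero n]
    {ζK : K} (hζK : IsPrimitiveRoot ζK n) {ξ : M} (hξ : ξ ^ n = 1) :
    ∃ y : K, algebraMap K M y = ξ := by
  have h1 : IsPrimitiveRoot (algebraMap K M ζK) n := hζK.map_of_injective (algebraMap K M).injective
  obtain ⟨i, -, hi⟩ := h1.eq_pow_of_pow_eq_one hξ
  exact ⟨ζK ^ i, by rw [map_pow, hi]⟩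

omit [Algebra L Lt] [Algebra Lt M] [IsScalarTower L Lt M] in
/-- (b) `ζ ^ (p^m) ∈ L` when `ζ_p ∈ L` -/
theorem exists_algebraMap_eq_pow_base {ζ : M} (hζ : IsPrimitiveRoot ζ (p ^ (m + 1))) {ζL : L}
    (hζL : IsPrimitiveRoot ζL p) : ∃ y : L, algebraMap L M y = ζ ^ (p ^ m) := by
  haveI : NeZero p := ⟨hp.out.ne_zero⟩
  apply exists_algebraMap_eq_of_pow_eq_one M hζL
  rw [← pow_mul, ← pow_succ, hζ.pow_eq_one]

omit [Algebra L Lt] [Algebra L M] [IsScalarTower L Lt M] in
/-- (c) `ζ ^ (p^(m+1-w)) ∈ L̃` when `ζ_{p^w} ∈ L̃`, `w ≤ m + 1` -/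
theorem exists_algebraMap_eq_pow_mid_of_primitiveRoot (hw : w ≤ m + 1) {ζ : M}
    (hζ : IsPrimitiveRoot ζ (p ^ (m + 1))) {ζt : Lt} (hζt : IsPrimitiveRoot ζt (p ^ w)) :
    ∃ y : Lt, algebraMap Lt M y = ζ ^ (p ^ (m + 1 - w)) := by
  haveI : NeZero (p ^ w) := ⟨pow_ne_zero _ hp.out.ne_zero⟩
  apply exists_algebraMap_eq_of_pow_eq_one M hζt
  rw [← pow_mul, ← pow_add, Nat.sub_add_cancel hw, hζ.pow_eq_one]

omit [Algebra L M] [IsScalarTower L Lt M] in
/-- (c) for `L̃ = L(ζ_{p^w})` -/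
theorem exists_algebraMap_eq_pow_mid (hw : w ≤ m + 1) [IsCyclotomicExtension {p ^ w} L Lt] {ζ : M}
    (hζ : IsPrimitiveRoot ζ (p ^ (m + 1))) : ∃ y : Lt, algebraMap Lt M y = ζ ^ (p ^ (m + 1 - w)) := by
  obtain ⟨ζt, hζt⟩ := IsCyclotomicExtension.exists_isPrimitiveRoot L Lt (Set.mem_singleton (p ^ w))
    (pow_ne_zero _ hp.out.ne_zero)
  exact exists_algebraMap_eq_pow_mid_of_primitiveRoot Lt M hw hζ hζt

end TowerGen

section Packaging

/-- abstract form of `exists_cyclo_tower` (no `CyclotomicField`-specific instances in sight) -/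
theorem exists_cyclo_tower_aux (p : ℕ) [hp : Fact p.Prime] (L Lt M : Type) [Field L] [NumberField L]
    [IsGalois ℚ L] [Field Lt] [Field M] [Algebra L Lt] [Algebra Lt M] (w m : ℕ)
    [IsCyclotomicExtension {p ^ w} L Lt] [IsCyclotomicExtension {p ^ (m + 1)} Lt M] :
    ∃ (Lt M : Type) (_ : Field Lt) (_ : NumberField Lt) (_ : IsGalois ℚ Lt) (_ : Field M)
      (_ : NumberField M) (_ : IsGalois ℚ M) (_ : Algebra L Lt) (_ : Algebra Lt M) (_ : Algebra L M)
      (_ : IsScalarTower L Lt M) (_ : IsCyclotomicExtension {p ^ w} L Lt),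
      IsCyclotomicExtension {p ^ (m + 1)} Lt M := by
  haveI : NeZero (p ^ w) := ⟨pow_ne_zero _ hp.out.ne_zero⟩
  haveI : NeZero (p ^ (m + 1)) := ⟨pow_ne_zero _ hp.out.ne_zero⟩
  haveI hNFt : NumberField Lt := IsCyclotomicExtension.numberField {p ^ w} L Lt
  haveI hGt : IsGalois ℚ Lt := isGalois_rat_of_isCyclotomicExtension L Lt (p ^ w)
  haveI hNFM : NumberField M := IsCyclotomicExtension.numberField {p ^ (m + 1)} Lt M
  haveI hGM : IsGalois ℚ M := isGalois_rat_of_isCyclotomicExtension Lt M (p ^ (m + 1))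
  letI algLM : Algebra L M := ((algebraMap Lt M).comp (algebraMap L Lt)).toAlgebra
  haveI hST : IsScalarTower L Lt M := IsScalarTower.of_algebraMap_eq (fun _ => rfl)
  exact ⟨Lt, M, inferInstance, hNFt, hGt, inferInstance, hNFM, hGM, inferInstance, inferInstance,
    algLM, hST, inferInstance, inferInstance⟩

/-- **the tower `L ⊂ L̃ = L(ζ_{p^w}) ⊂ M = L̃(ζ_{p^(m+1)})` as abstract fields with all instances** (the
`CyclotomicField` plumbing is confined to this lemma) -/
theorem exists_cyclo_tower (p : ℕ) [hp : Fact p.Prime] (L : Type) [Field L] [NumberField L]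
    [IsGalois ℚ L] (w m : ℕ) :
    ∃ (Lt M : Type) (_ : Field Lt) (_ : NumberField Lt) (_ : IsGalois ℚ Lt) (_ : Field M)
      (_ : NumberField M) (_ : IsGalois ℚ M) (_ : Algebra L Lt) (_ : Algebra Lt M) (_ : Algebra L M)
      (_ : IsScalarTower L Lt M) (_ : IsCyclotomicExtension {p ^ w} L Lt),
      IsCyclotomicExtension {p ^ (m + 1)} Lt M :=
  haveI : NeZero (p ^ w) := ⟨pow_ne_zero _ hp.out.ne_zero⟩
  haveI : NeZero (p ^ (m + 1)) := ⟨pow_ne_zero _ hp.out.ne_zero⟩
  exists_cyclo_tower_aux p L (CyclotomicField (p ^ w) L)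
    (CyclotomicField (p ^ (m + 1)) (CyclotomicField (p ^ w) L)) w m

end Packaging

end Fermat.Agent.S55lib.Recip
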