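/-
S55 sprint, block K9 "reciprocity" (R5, helper3), file 4: **the top class `(G)`**, final assembly.
`exists_top_class_of_ordAll`: for a number field `L`, Galois over `ℚ`, containing `ζ_p` (`p` odd),
`H²(Aut(L/ℚ), C(L))` contains a class whose order is divisible by the `p`-part of `[L : ℚ]` — modulo
`OrdAllStatement p` (= (ORD-all), helper2's `Recip/CycloInfl`).

Construction: `q` a prime splitting completely in `L` (helper1), `w₀ = v_p(q - 1)`,
`L̃ = CyclotomicField (p^w₀) L`, `a = v_p |Aut L̃|`, `m = a + w₀`, `M = CyclotomicField (p^(m+1)) L̃`,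
then `Recip/FundClass.exists_top_of_tower`.
-/
import Mathlib
import Fermat.Agent.S55lib.Recip.FundClass
import Fermat.Agent.S55lib.Recip.TowerGen
import Fermat.Agent.S55lib.Recip.CycloInfl

set_option autoImplicit false
set_option linter.unusedSectionVars false
set_option linter.style.haveILetI false

noncomputable section

namespace Fermat.Agent.S55lib.Recip

open CategoryTheory groupCohomology Fermat.Agent.S55lib Fermat.Agent.S55lib.Dev
  Fermat.Agent.S55lib.CycloArith Fermat.Agent.S55lib.Places Polynomial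

/-- a cyclotomic extension of a Galois extension of `ℚ` is Galois over `ℚ` -/
theorem isGalois_rat_of_cyclotomic (K K' : Type) [Field K] [Field K'] [NumberField K]
    [NumberField K'] [Algebra K K'] [IsGalois ℚ K] (n : ℕ) [NeZero n]
    [IsCyclotomicExtension {n} K K'] : IsGalois ℚ K' := by
  obtain ⟨f, hfsep, hf⟩ := IsGalois.is_separable_splitting_field ℚ K
  have hf0 : f ≠ 0 := hfsep.ne_zero
  have hg0 : (X ^ n - 1 : ℚ[X]) ≠ 0 := X_pow_sub_C_ne_zero (NeZero.pos n) (1 : ℚ)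
  haveI : IsSplittingField K K' ((X ^ n - 1 : ℚ[X]).map (algebraMap ℚ K)) := by
    have := IsCyclotomicExtension.isSplittingField_X_pow_sub_one n K K'
    simpa using this
  haveI := IsSplittingField.mul (F := ℚ) (K := K) K' f (X ^ n - 1 : ℚ[X]) hf0 hg0
  haveI : Normal ℚ K' := Normal.of_isSplittingField (f * (X ^ n - 1 : ℚ[X]))
  exact IsGalois.mk


section Final

variable {p : ℕ} [hp : Fact p.Prime]

/-- **(ORD-all)** as a statement: the order of `cycloClass x` is at least that of `Φ x`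
(owner: helper2, `Recip/CycloInfl`) -/
def OrdAllStatement (p : ℕ) [Fact p.Prime] : Prop :=
  ∀ (m : ℕ) (lam : (ZMod (p ^ (m + 1)))ˣ →* Multiplicative (ZMod (p ^ m))),
    Function.Surjective lam → ∀ (M : Type) [Field M] [NumberField M] [IsGalois ℚ M] {ζ : M}
    (hζ : IsPrimitiveRoot ζ (p ^ (m + 1))) (x : Idele ℚ) (k : ℕ),
    k • cycloClass lam M hζ x = 0 → orderOf (Phi p m lam x) ∣ k

/-- Stage B: the abstract cyclotomic tower `L ⊂ L̃ = L(ζ_{p^w₀}) ⊂ M = L̃(ζ_{p^(m+1)})` -/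
theorem exists_top_of_cyclotomic_tower (hp2 : p ≠ 2) (hORD : OrdAllStatement p)
    (L Lt M : Type) [Field L] [Field Lt] [Field M] [NumberField L] [NumberField Lt]
    [NumberField M] [Algebra L Lt] [Algebra Lt M] [Algebra L M] [IsScalarTower L Lt M]
    [IsGalois ℚ L] {ζL : L} (hζL : IsPrimitiveRoot ζL p)
    (q : Nat.Primes) (hpq : p ∣ (q : ℕ) - 1)
    (hsplitL : ∀ ι : Emb (q : ℕ) L, localField (q : ℕ) L ι = ⊥)
    [IsCyclotomicExtension {p ^ padicValNat p ((q : ℕ) - 1)} L Lt]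
    (m : ℕ) (hm : m = (Nat.card (Lt ≃ₐ[ℚ] Lt)).factorization p + padicValNat p ((q : ℕ) - 1))
    [IsCyclotomicExtension {p ^ (m + 1)} Lt M] :
    ∃ u : H2 (classRep L), ∀ k : ℕ, k • u = 0 →
      p ^ (Nat.card (L ≃ₐ[ℚ] L)).factorization p ∣ k := by
  set w₀ := padicValNat p ((q : ℕ) - 1) with hw₀
  haveI : IsGalois ℚ Lt := isGalois_rat_of_cyclotomic L Lt (p ^ w₀)
  haveI : IsGalois ℚ M := isGalois_rat_of_cyclotomic Lt M (p ^ (m + 1))
  have hw : w₀ ≤ m + 1 := by omega
  have ha : (Nat.card (Lt ≃ₐ[ℚ] Lt)).factorization p ≤ m := by omega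
  obtain ⟨lam, hlam⟩ := exists_lam hp2 m
  obtain ⟨ζ, hζ⟩ := IsCyclotomicExtension.exists_isPrimitiveRoot Lt M
    (Set.mem_singleton (p ^ (m + 1))) (NeZero.ne _)
  have hgenLt : Algebra.adjoin Lt {ζ} = ⊤ :=
    IsCyclotomicExtension.adjoin_primitive_root_eq_top hζ
  haveI : IsCyclotomicExtension {p ^ (m + 1)} L M :=
    isCyclotomicExtension_tower L Lt M (pow_dvd_pow p hw) (pow_ne_zero _ hp.out.ne_zero)
  have hgenL : Algebra.adjoin L {ζ} = ⊤ := IsCyclotomicExtension.adjoin_primitive_root_eq_top hζ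
  have hdL : ∃ y : L, algebraMap L M y = ζ ^ (p ^ m) := exists_algebraMap_eq_pow_base L M hζ hζL
  have hdLt : ∃ y : Lt, algebraMap Lt M y = ζ ^ (p ^ (m + 1 - w₀)) :=
    exists_algebraMap_eq_pow_mid L Lt M hw hζ
  have hsplitLt : ∀ ι : Emb (q : ℕ) Lt, localField (q : ℕ) Lt ι = ⊥ := fun ι =>
    split_of_cyclotomic L Lt (N := p ^ w₀) pow_padicValNat_dvd hsplitL ι
  exact exists_top_of_tower lam L Lt M hp2 hlam hζ hgenL hgenLt hdL q hpq hw hdLt hsplitLt ha
    (fun x k hk => hORD m lam hlam M hζ x k hk)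

end Final

section Final2

variable {p : ℕ} [hp : Fact p.Prime]

/-- Stage A: choose `m` and `M := L̃(ζ_{p^(m+1)})` -/
theorem exists_top_of_cyclotomic_layer (hp2 : p ≠ 2) (hORD : OrdAllStatement p)
    (L Lt : Type) [Field L] [Field Lt] [NumberField L] [NumberField Lt] [Algebra L Lt]
    [IsGalois ℚ L] {ζL : L} (hζL : IsPrimitiveRoot ζL p)
    (q : Nat.Primes) (hpq : p ∣ (q : ℕ) - 1)
    (hsplitL : ∀ ι : Emb (q : ℕ) L, localField (q : ℕ) L ι = ⊥)
    [IsCyclotomicExtension {p ^ padicValNat p ((q : ℕ) - 1)} L Lt] :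
    ∃ u : H2 (classRep L), ∀ k : ℕ, k • u = 0 →
      p ^ (Nat.card (L ≃ₐ[ℚ] L)).factorization p ∣ k :=
  exists_top_of_cyclotomic_tower hp2 hORD L Lt
    (CyclotomicField (p ^ ((Nat.card (Lt ≃ₐ[ℚ] Lt)).factorization p +
      padicValNat p ((q : ℕ) - 1) + 1)) Lt) hζL q hpq hsplitL _ rfl

/-- **(G): the top class.**  For a number field `L`, Galois over `ℚ`, containing `ζ_p` (`p` odd),
`H²(Aut(L/ℚ), C(L))` contains a class whose order is divisible by the `p`-part of `[L : ℚ]`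
(modulo (ORD-all)). -/
theorem exists_top_class_of_ordAll (hp2 : p ≠ 2) (hORD : OrdAllStatement p)
    (L : Type) [Field L] [NumberField L] [IsGalois ℚ L] (ζL : L) (hζL : IsPrimitiveRoot ζL p) :
    ∃ u : groupCohomology (classRep L) 2, ∀ k : ℕ, k • u = 0 →
      p ^ (Nat.card (L ≃ₐ[ℚ] L)).factorization p ∣ k := by
  obtain ⟨q, -, hpq, hsplitL⟩ := exists_primes_split_dvd_sub_one L hp.out.ne_zero hζL p
  exact exists_top_of_cyclotomic_layer hp2 hORD L
    (CyclotomicField (p ^ padicValNat p ((q : ℕ) - 1)) L) hζL q hpq hsplitL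

/-- (ORD-all) holds (helper2, `Recip/CycloInfl`) -/
theorem ordAllStatement (hp2 : p ≠ 2) : OrdAllStatement p :=
  fun _ lam hlam M _ _ _ _ hζ x k hk =>
    orderOf_Phi_dvd_of_nsmul_cycloClass lam hp2 hlam M hζ x k hk

/-- **(G): the top class**, unconditionally (`p` odd). -/
theorem exists_top_class (hp2 : p ≠ 2)
    (L : Type) [Field L] [NumberField L] [IsGalois ℚ L] (ζL : L) (hζL : IsPrimitiveRoot ζL p) :
    ∃ u : groupCohomology (classRep L) 2, ∀ k : ℕ, k • u = 0 →
      p ^ (Nat.card (L ≃ₐ[ℚ] L)).factorization p ∣ k :=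
  exists_top_class_of_ordAll hp2 (ordAllStatement hp2) L ζL hζL

end Final2

end Fermat.Agent.S55lib.Recip

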