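/-
S55 sprint, block K9 "reciprocity" (R5, helper3), file 5: **(G) in helper5's shape**
`Dev.FundClassStatement p` (`Dev/Delta5.lean`), for every odd prime `p`, and its consequences
`Dev.TopClassStatement p S`, global `K4Statement`, and `(T)` through helper5's `Dev/GlobalCF.lean`.
-/
import Mathlib
import Fermat.Agent.S55lib.Recip.FundClassFinal
import Fermat.Agent.S55lib.Dev.GlobalCF

set_option autoImplicit false

namespace Fermat.Agent.S55lib.Recip

open Fermat.Agent.S55lib Fermat.Agent.S55lib.Dev

variable {p : ℕ} [hp : Fact p.Prime]

/-- **(G)**: the fundamental-class statement, for every odd prime `p`. -/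
theorem fundClassStatement (hp2 : p ≠ 2) : Dev.FundClassStatement p :=
  fun L _ _ _ ζ hζ => exists_top_class hp2 L ζ hζ

end Fermat.Agent.S55lib.Recip
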