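/-
S55 sprint, block K9 (reciprocity, invariant-free route #lead-122), (ORD) at the cyclotomic level
(helper2).

For a number field `M`, Galois over `ℚ`, with a bijective "cyclotomic character"
`c : Aut(M/ℚ) →* (ℤ/p^(m+1))ˣ` (i.e. `M = ℚ(ζ_{p^(m+1)})`), `lam : (ℤ/p^(m+1))ˣ →* ℤ/p^m` surjective and
`χ = toAdd ∘ lam ∘ c`:
* `chiOf lam c`, `chiOf_add`; `sylP c` (the `p`-Sylow subgroup `{g | c g ^ p^m = 1}`), on which `χ` is
  injective and takes the value `1`; `index_sylP_dvd : (sylP c).index ∣ p - 1`;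
* **`nsmul_Psi_eq_zero_of_cyclo`** : `k • π_*(x ∪ δχ) = 0` in `H²(Aut M, C(M))` implies `k • Ψ x = 0`
  (the instance of helper8's `nsmul_Psi_eq_zero_of_nsmul_map_cupδ_eq_zero`);
* **`orderOf_Phi_dvd_of_cyclo`** : for `x = incl y`, `y : Idele ℚ`: `orderOf (Φ y) ∣ k`;
* `autToPow_bijective` : for `[IsCyclotomicExtension {N} ℚ M]`, `hζ.autToPow ℚ` is bijective.
-/
import Mathlib
import Fermat.Agent.S55lib.Recip.ArtinPsi
import Fermat.Agent.S55lib.Recip.TateGen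
import Fermat.Agent.S55lib.Places.LamChar

set_option autoImplicit false
set_option linter.unusedSectionVars false

noncomputable section

namespace Fermat.Agent.S55lib.Recip

open Fermat.Agent.S55lib Fermat.Agent.S55lib.Places Fermat.Agent.S55lib.CycloArith
  Fermat.Agent.S55lib.Dev groupCohomology CategoryTheory

section Abstract

variable {p : ℕ} [hp : Fact p.Prime] {m : ℕ}
  (lam : (ZMod (p ^ (m + 1)))ˣ →* Multiplicative (ZMod (p ^ m)))
  {Γ : Type*} [Group Γ] (c : Γ →* (ZMod (p ^ (m + 1)))ˣ)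

/-- the character `toAdd ∘ lam ∘ c : Γ → ℤ/p^m` -/
def chiOf : Γ → ZMod (p ^ m) := fun g => Multiplicative.toAdd (lam (c g))

theorem chiOf_apply (g : Γ) : chiOf lam c g = Multiplicative.toAdd (lam (c g)) := rfl

theorem chiOf_add (g h : Γ) : chiOf lam c (g * h) = chiOf lam c g + chiOf lam c h := by
  unfold chiOf
  rw [map_mul, map_mul]
  rfl

/-- the `p`-Sylow subgroup `{g | c g ^ p^m = 1}` -/
def sylP : Subgroup Γ :=
  ((powMonoidHom (p ^ m) : (ZMod (p ^ (m + 1)))ˣ →* (ZMod (p ^ (m + 1)))ˣ).ker).comap c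

theorem mem_sylP_iff (g : Γ) : g ∈ sylP (p := p) (m := m) c ↔ c g ^ (p ^ m) = 1 := Iff.rfl

/-- `χ` is injective on the `p`-Sylow -/
theorem chiOf_injective_sylP (hlam : Function.Surjective lam) (hc : Function.Injective c) :
    Function.Injective (χres (sylP (p := p) (m := m) c) (chiOf lam c)) := by
  intro g h hgh
  have h1 : lam (c ((g : Γ) * (h : Γ)⁻¹)) = 1 := by
    rw [map_mul, map_mul, map_inv, map_inv, mul_inv_eq_one]
    exact Multiplicative.toAdd.injective hgh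
  have h2 : c ((g : Γ) * (h : Γ)⁻¹) ^ (p ^ m) = 1 := by
    rw [map_mul, map_inv, mul_pow, inv_pow, (mem_sylP_iff c g).1 g.2, (mem_sylP_iff c h).1 h.2,
      inv_one, one_mul]
  have h3 := eq_one_of_lam_eq_one_of_pow lam hlam h2 h1
  have h4 : (g : Γ) * (h : Γ)⁻¹ = 1 := hc (by rw [h3, map_one])
  exact Subtype.ext (mul_inv_eq_one.1 h4)

theorem coprime_pred_pow : Nat.Coprime (p - 1) (p ^ m) := by
  apply Nat.Coprime.pow_right
  rw [Nat.coprime_comm, Nat.Prime.coprime_iff_not_dvd hp.out]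
  intro hd
  have := Nat.le_of_dvd (Nat.sub_pos_of_lt hp.out.one_lt) hd
  have := hp.out.one_lt
  omega

/-- `χ` takes the value `1` on the `p`-Sylow -/
theorem exists_sylP_chiOf_eq_one (hlam : Function.Surjective lam) (hc : Function.Surjective c) :
    ∃ σ : sylP (p := p) (m := m) c, χres (sylP (p := p) (m := m) c) (chiOf lam c) σ = 1 := by
  obtain ⟨u, hu⟩ := hlam (Multiplicative.ofAdd 1)
  have hpm : 0 < p ^ m := pow_pos hp.out.pos m
  set a : ℕ := (p - 1) ^ (p ^ m).totient with ha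
  have ha1 : a ≡ 1 [MOD p ^ m] := Nat.ModEq.pow_totient (coprime_pred_pow (p := p) (m := m))
  have ha2 : (p - 1) ∣ a := dvd_pow_self _ (Nat.totient_pos.2 hpm).ne'
  obtain ⟨σ₀, hσ₀⟩ := hc (u ^ a)
  have hmem : σ₀ ∈ sylP (p := p) (m := m) c := by
    rw [mem_sylP_iff, hσ₀, ← pow_mul]
    obtain ⟨b, hb⟩ := ha2
    have h1 : a * p ^ m = Nat.card (ZMod (p ^ (m + 1)))ˣ * b := by
      rw [card_units_prime_pow, hb]
      ring
    rw [h1, pow_mul, pow_card_eq_one', one_pow]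
  refine ⟨⟨σ₀, hmem⟩, ?_⟩
  change Multiplicative.toAdd (lam (c σ₀)) = 1
  rw [hσ₀, map_pow, hu, toAdd_pow, toAdd_ofAdd, nsmul_eq_mul, mul_one]
  have h2 := (ZMod.natCast_eq_natCast_iff a 1 (p ^ m)).2 ha1
  rw [h2, Nat.cast_one]

/-- the index of the `p`-Sylow divides `p - 1` -/
theorem index_sylP_dvd (hlam : Function.Surjective lam) (hc : Function.Surjective c) :
    (sylP (p := p) (m := m) c).index ∣ p - 1 := by
  unfold sylP
  rw [Subgroup.index_comap_of_surjective _ hc, Subgroup.index_ker, ← card_ker_lam lam hlam]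
  apply Subgroup.card_dvd_of_le
  rintro _ ⟨u, rfl⟩
  rw [MonoidHom.mem_ker, powMonoidHom_apply, map_pow]
  exact pow_self_multiplicative_zmod _ _

/-- multiplication by a number prime to `p` is injective on `ℤ/p^m` -/
theorem eq_zero_of_nsmul_zmod_pow {d : ℕ} (hd : d ∣ p - 1) {t : ZMod (p ^ m)} (h : d • t = 0) :
    t = 0 := by
  have hcop : Nat.Coprime d (p ^ m) :=
    Nat.Coprime.coprime_dvd_left hd (coprime_pred_pow (p := p) (m := m))
  rw [nsmul_eq_mul] at h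
  have hu : IsUnit ((d : ℕ) : ZMod (p ^ m)) := (ZMod.isUnit_iff_coprime d (p ^ m)).2 hcop
  exact (hu.mul_right_eq_zero).1 h

end Abstract

section Cyclo

variable {p : ℕ} [hp : Fact p.Prime] {m : ℕ}
  (lam : (ZMod (p ^ (m + 1)))ˣ →* Multiplicative (ZMod (p ^ m)))
  {M : Type} [Field M] [Algebra ℚ M] [FiniteDimensional ℚ M] [IsGalois ℚ M]
  [Fintype (M ≃ₐ[ℚ] M)] [NeZero (p ^ m)]

/-- **(ORD) at the cyclotomic level.**  `M = ℚ(ζ_{p^(m+1)})` (i.e. `c` bijective), `χ = toAdd ∘ lam ∘ c`,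
`x` an invariant idele of `M`: if `k • π_*(x ∪ δχ) = 0` in `H²(Aut M, C(M))` then `k • Ψ x = 0`. -/
theorem nsmul_Psi_eq_zero_of_cyclo (hlam : Function.Surjective lam) (hp2 : p ≠ 2)
    (hLN : LN p m lam M) (c : (M ≃ₐ[ℚ] M) →* (ZMod (p ^ (m + 1)))ˣ) (hc : Function.Bijective c)
    (x : ideleRep M) (hx : ∀ g, (ideleRep M).ρ g x = x) (k : ℕ)
    (hk : k • groupCohomology.map (MonoidHom.id (M ≃ₐ[ℚ] M)) (ideleToClassRep M) 2
      (cupδ (chiOf lam c) (chiOf_add lam c) x hx) = 0) :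
    k • Psi lam M ⟨x, hx⟩ = 0 := by
  obtain ⟨σ, hσ⟩ := exists_sylP_chiOf_eq_one lam c hlam hc.2
  have h1 := nsmul_Psi_eq_zero_of_nsmul_map_cupδ_eq_zero (sylP (p := p) (m := m) c)
    (diagRep M) (ideleToClassRep M) (Psi lam M) (chiOf_add lam c)
    (fun a a' h => congrArg Additive.ofMul (diagI_injective (congrArg Additive.toMul h)))
    (fun y => by
      obtain ⟨b, hb⟩ := toClassGrp_surjective M (Additive.toMul (α := ClassGrp M) y)
      exact ⟨Additive.ofMul b, congrArg Additive.ofMul hb⟩)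
    (fun y hy => by
      obtain ⟨a, ha⟩ := (toClassGrp_eq_one_iff M (Additive.toMul (α := Idele M) y)).1
        (congrArg Additive.toMul hy)
      exact ⟨Additive.ofMul a, congrArg Additive.ofMul ha⟩)
    (Psi_eq_zero_of_diag lam hp2) (Psi_eq_zero_of_norm lam hLN)
    (chiOf_injective_sylP lam c hlam hc.1) σ hσ x hx k hk
  rw [mul_smul] at h1
  exact eq_zero_of_nsmul_zmod_pow (index_sylP_dvd lam c hlam hc.2) h1

/-- **(ORD) at the cyclotomic level, for an idele of `ℚ`**: if `k • π_*(incl y ∪ δχ) = 0` then the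
order of `Φ y` divides `k`. -/
theorem orderOf_Phi_dvd_of_cyclo (hlam : Function.Surjective lam) (hp2 : p ≠ 2)
    (hLN : LN p m lam M) (c : (M ≃ₐ[ℚ] M) →* (ZMod (p ^ (m + 1)))ˣ) (hc : Function.Bijective c)
    (φ : ℚ →ₐ[ℚ] M) (y : Idele ℚ) (k : ℕ)
    (hk : k • groupCohomology.map (MonoidHom.id (M ≃ₐ[ℚ] M)) (ideleToClassRep M) 2
      (cupδ (chiOf lam c) (chiOf_add lam c) (Additive.ofMul (Idele.incl φ y) : ideleRep M)
        (incl_mem_invariants φ y)) = 0) :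
    orderOf (Phi p m lam y) ∣ k := by
  have h1 := nsmul_Psi_eq_zero_of_cyclo lam hlam hp2 hLN c hc _ (incl_mem_invariants φ y) k hk
  rw [Psi_incl, ← toAdd_pow] at h1
  exact orderOf_dvd_of_pow_eq_one (Multiplicative.toAdd.injective h1)

end Cyclo

section Single

variable {p : ℕ} [hp : Fact p.Prime] {m : ℕ}
  (lam : (ZMod (p ^ (m + 1)))ˣ →* Multiplicative (ZMod (p ^ m)))
  {M : Type} [Field M] [Algebra ℚ M] [FiniteDimensional ℚ M] [IsGalois ℚ M]
  [Fintype (M ≃ₐ[ℚ] M)] [NeZero (p ^ m)]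

/-- the elements of `J_q(ℚ)` are `Aut(M)`-invariant in `J_q(M)` -/
theorem jqIncl_invariant (φ : ℚ →ₐ[ℚ] M) (q : Nat.Primes) (f : Jq (q : ℕ) ℚ) (g : M ≃ₐ[ℚ] M) :
    (jqRep M q).ρ g (Additive.ofMul (Jq.incl φ f) : jqRep M q) =
      (Additive.ofMul (Jq.incl φ f) : jqRep M q) := by
  apply congrArg Additive.ofMul
  apply Subtype.ext
  funext ι
  change (Jq.incl φ f).1 (ι.comp (g : M →ₐ[ℚ] M)) = (Jq.incl φ f).1 ι
  rw [Jq.incl_apply, Jq.incl_apply]
  exact congrArg f.1 (Subsingleton.elim _ _)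

/-- **(K9-III)(c), quantitative form.**  `M = ℚ(ζ_{p^(m+1)})`, `f ∈ J_q(ℚ) = ℚ_qˣ` viewed in `J_q(M)`,
`z := f ∪ δχ ∈ H²(Aut M, J_q(M))`: if `k` kills the image of `z` in `H²(Aut M, C(M))` then the order
of `Φ_q(f)` divides `k`. -/
theorem orderOf_phiLoc_dvd_of_cyclo (hlam : Function.Surjective lam) (hp2 : p ≠ 2)
    (hLN : LN p m lam M) (c : (M ≃ₐ[ℚ] M) →* (ZMod (p ^ (m + 1)))ˣ) (hc : Function.Bijective c)
    (φ : ℚ →ₐ[ℚ] M) (q : Nat.Primes) (f : Jq (q : ℕ) ℚ) (k : ℕ)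
    (hk : k • groupCohomology.map (MonoidHom.id (M ≃ₐ[ℚ] M))
      (ideleSingleRep M q ≫ ideleToClassRep M) 2
      (cupδ (chiOf lam c) (chiOf_add lam c) (Additive.ofMul (Jq.incl φ f) : jqRep M q)
        (jqIncl_invariant φ q f)) = 0) :
    orderOf (phiLoc p m lam (q : ℕ) (jqRat (q : ℕ) f)) ∣ k := by
  rw [← Phi_single lam q f]
  apply orderOf_Phi_dvd_of_cyclo lam hlam hp2 hLN c hc φ (Idele.single q f) k
  have e1 := map_cupδ (chiOf_add lam c) (MonoidHom.id (M ≃ₐ[ℚ] M))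
    (ideleSingleRep M q ≫ ideleToClassRep M) (Additive.ofMul (Jq.incl φ f) : jqRep M q)
    (jqIncl_invariant φ q f)
  have e2 := map_cupδ (chiOf_add lam c) (MonoidHom.id (M ≃ₐ[ℚ] M))
    (ideleToClassRep M) (Additive.ofMul (Idele.incl φ (Idele.single q f)) : ideleRep M)
    (incl_mem_invariants φ (Idele.single q f))
  have e3 : (ideleSingleRep M q ≫ ideleToClassRep M).hom
      (Additive.ofMul (Jq.incl φ f) : jqRep M q) =
      (ideleToClassRep M).hom (Additive.ofMul (Idele.incl φ (Idele.single q f)) : ideleRep M) := by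
    rw [Idele.incl_single]
    rfl
  refine Eq.trans (congrArg (fun w => k • w) ?_) hk
  exact e2.trans ((cupδ_congr _ e3.symm _).trans e1.symm)

/-- **(K9-III)(c)**: if `Φ_q(f) ≠ 1` then the image of `f ∪ δχ` in `H²(Aut M, C(M))` is nonzero. -/
theorem map_cupδ_single_ne_zero (hlam : Function.Surjective lam) (hp2 : p ≠ 2)
    (hLN : LN p m lam M) (c : (M ≃ₐ[ℚ] M) →* (ZMod (p ^ (m + 1)))ˣ) (hc : Function.Bijective c)
    (φ : ℚ →ₐ[ℚ] M) (q : Nat.Primes) (f : Jq (q : ℕ) ℚ)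
    (hne : phiLoc p m lam (q : ℕ) (jqRat (q : ℕ) f) ≠ 1) :
    groupCohomology.map (MonoidHom.id (M ≃ₐ[ℚ] M)) (ideleSingleRep M q ≫ ideleToClassRep M) 2
      (cupδ (chiOf lam c) (chiOf_add lam c) (Additive.ofMul (Jq.incl φ f) : jqRep M q)
        (jqIncl_invariant φ q f)) ≠ 0 := by
  intro h
  have h1 := orderOf_phiLoc_dvd_of_cyclo lam hlam hp2 hLN c hc φ q f 1 (by rw [one_smul]; exact h)
  exact hne (orderOf_eq_one_iff.1 (Nat.dvd_one.1 h1))

/-- the same for `f = y ∈ ℚ_qˣ` -/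
theorem map_cupδ_single_symm_ne_zero (hlam : Function.Surjective lam) (hp2 : p ≠ 2)
    (hLN : LN p m lam M) (c : (M ≃ₐ[ℚ] M) →* (ZMod (p ^ (m + 1)))ˣ) (hc : Function.Bijective c)
    (φ : ℚ →ₐ[ℚ] M) (q : Nat.Primes) (y : ℚ_[(q : ℕ)]ˣ) (hne : phiLoc p m lam (q : ℕ) y ≠ 1) :
    groupCohomology.map (MonoidHom.id (M ≃ₐ[ℚ] M)) (ideleSingleRep M q ≫ ideleToClassRep M) 2
      (cupδ (chiOf lam c) (chiOf_add lam c)
        (Additive.ofMul (Jq.incl φ ((jqRat (q : ℕ)).symm y)) : jqRep M q)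
        (jqIncl_invariant φ q _)) ≠ 0 :=
  map_cupδ_single_ne_zero lam hlam hp2 hLN c hc φ q _
    (by rw [MulEquiv.apply_symm_apply]; exact hne)

end Single

section AutToPow

variable {N : ℕ} [NeZero N] {M : Type*} [Field M] [Algebra ℚ M] [IsCyclotomicExtension {N} ℚ M]

/-- for `M = ℚ(ζ_N)`, the cyclotomic character `Aut(M/ℚ) → (ℤ/N)ˣ` is bijective -/
theorem autToPow_bijective {ζ : M} (hζ : IsPrimitiveRoot ζ N) :
    Function.Bijective (hζ.autToPow ℚ) := by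
  have : FiniteDimensional ℚ M := IsCyclotomicExtension.finiteDimensional {N} ℚ M
  have : IsGalois ℚ M := IsCyclotomicExtension.isGalois {N} ℚ M
  apply (IsPrimitiveRoot.autToPow_injective ℚ hζ).bijective_of_nat_card_le
  have hirr : Irreducible (Polynomial.cyclotomic N ℚ) :=
    Polynomial.cyclotomic.irreducible_rat (Nat.pos_of_ne_zero (NeZero.ne N))
  rw [Nat.card_eq_fintype_card, ZMod.card_units_eq_totient, IsGalois.card_aut_eq_finrank,
    IsCyclotomicExtension.finrank M hirr]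

end AutToPow

end Fermat.Agent.S55lib.Recip
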